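/-
S48lib / X1 / Igusa / SeriesRed  (helper8)

The "fraction ring" `𝒪′ = {a / b : a, b ∈ A((Q)), b̄ ≠ 0} ⊆ ℚ̄((Q))` of a valuation subring
`A ⊆ ℚ̄` and its coefficientwise reduction `𝒪′ → k((Q))`, `a / b ↦ ā / b̄` (generic: no modular
fields).  This is the pair `(S, redS)` of `Igusa.igusa_field` (after restriction to a subfield
`Ω ⊆ ℚ̄((Q))`) and the reduction used for the `X₁(M)` reduction datum.

* `IsFrac x a b`, `fracSubring A`, `fracRed A`;
* `toL_mem_fracSubring`, `fracRed_toL` (integral series), `fracRed_apply`;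
* `inv_mem_fracSubring`, `fracRed_eq_zero_iff`;
* constants: `algebraMap_mem_fracSubring_iff`, `fracRed_algebraMap`;
* substitutions: `twist_mem_fracSubring`, `fracRed_twist` (`Q ↦ ζQ`), `qExpand_mem_fracSubring`,
  `fracRed_qExpand` (`Q ↦ Q^N`);
* restriction along `ι : Ω →+* ℚ̄((Q))`: `subringOf A ι`, `redOf A ι`.
-/
import Mathlib
import Fermat.Agent.S18lib.V.IntRing
import Fermat.Agent.S28lib.Twist
import Fermat.Prelude.Thm_ModularCurve_coeffMap_qExpand

set_option autoImplicit false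
set_option linter.unusedSectionVars false

noncomputable section

namespace Fermat.Agent.S48lib.X1.Igusa

open ModularCurve HahnSeries
open Fermat.Agent.S18lib.V (toL toK toL_injective toL_ne_zero_of_toK_ne_zero toL_constA toK_constA
  constA)
open Fermat.Agent.S28lib (twist coeffMap_twist)

variable {A : ValuationSubring (AlgebraicClosure ℚ)}

/-- `x = a / b` with `a, b` `A`-integral Laurent series and `b̄ ≠ 0` -/
def IsFrac (x : LaurentSeries (AlgebraicClosure ℚ)) (a b : LaurentSeries A) : Prop :=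
  toK A b ≠ 0 ∧ x * toL A b = toL A a

namespace IsFrac

variable {x x' : LaurentSeries (AlgebraicClosure ℚ)} {a b a' b' : LaurentSeries A}

theorem toL_ne_zero (h : IsFrac x a b) : toL A b ≠ 0 := toL_ne_zero_of_toK_ne_zero h.1

theorem eq_div (h : IsFrac x a b) : x = toL A a / toL A b := by
  rw [eq_div_iff h.toL_ne_zero, h.2]

/-- independence of the representation -/
theorem indep (h : IsFrac x a b) (h' : IsFrac x a' b') : toK A a * toK A b' = toK A a' * toK A b := by
  have h1 : toL A (a * b') = toL A (a' * b) := by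
    rw [map_mul, map_mul, ← h.2, ← h'.2]; ring
  have h2 := toL_injective h1
  rw [← map_mul, ← map_mul, h2]

theorem div_eq (h : IsFrac x a b) (h' : IsFrac x a' b') :
    toK A a / toK A b = toK A a' / toK A b' := by
  rw [div_eq_div_iff h.1 h'.1]
  exact h.indep h'

theorem add (h : IsFrac x a b) (h' : IsFrac x' a' b') : IsFrac (x + x') (a * b' + a' * b) (b * b') := by
  refine ⟨by rw [map_mul]; exact mul_ne_zero h.1 h'.1, ?_⟩
  rw [map_add, map_mul, map_mul, map_mul, ← h.2, ← h'.2]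
  ring

theorem mul (h : IsFrac x a b) (h' : IsFrac x' a' b') : IsFrac (x * x') (a * a') (b * b') := by
  refine ⟨by rw [map_mul]; exact mul_ne_zero h.1 h'.1, ?_⟩
  rw [map_mul, map_mul, ← h.2, ← h'.2]
  ring

theorem neg (h : IsFrac x a b) : IsFrac (-x) (-a) b := by
  refine ⟨h.1, ?_⟩
  rw [map_neg, neg_mul, h.2]

theorem inv (h : IsFrac x a b) (ha : toK A a ≠ 0) : IsFrac x⁻¹ b a := by
  refine ⟨ha, ?_⟩
  have haL := toL_ne_zero_of_toK_ne_zero ha
  have hbL := h.toL_ne_zero
  have hx : x ≠ 0 := by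
    rintro rfl
    have h2 := h.2
    rw [zero_mul] at h2
    exact haL h2.symm
  rw [← h.2]
  field_simp

end IsFrac

theorem isFrac_zero : IsFrac (0 : LaurentSeries (AlgebraicClosure ℚ)) (0 : LaurentSeries A) 1 :=
  ⟨by rw [map_one]; exact one_ne_zero, by rw [zero_mul, map_zero]⟩

theorem isFrac_one : IsFrac (1 : LaurentSeries (AlgebraicClosure ℚ)) (1 : LaurentSeries A) 1 :=
  ⟨by rw [map_one]; exact one_ne_zero, by rw [one_mul]⟩

theorem isFrac_toL (a : LaurentSeries A) : IsFrac (toL A a) a 1 :=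
  ⟨by rw [map_one]; exact one_ne_zero, by rw [map_one, mul_one]⟩

variable (A) in
/-- the ring `𝒪′` of quotients `a / b` of `A`-integral Laurent series with `b̄ ≠ 0` -/
def fracSubring : Subring (LaurentSeries (AlgebraicClosure ℚ)) where
  carrier := {x | ∃ a b : LaurentSeries A, IsFrac x a b}
  mul_mem' := by
    rintro x y ⟨a, b, h⟩ ⟨a', b', h'⟩
    exact ⟨_, _, h.mul h'⟩
  one_mem' := ⟨_, _, isFrac_one⟩
  add_mem' := by
    rintro x y ⟨a, b, h⟩ ⟨a', b', h'⟩
    exact ⟨_, _, h.add h'⟩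
  zero_mem' := ⟨_, _, isFrac_zero⟩
  neg_mem' := by
    rintro x ⟨a, b, h⟩
    exact ⟨_, _, h.neg⟩

theorem mem_fracSubring {x : LaurentSeries (AlgebraicClosure ℚ)} :
    x ∈ fracSubring A ↔ ∃ a b : LaurentSeries A, IsFrac x a b := Iff.rfl

theorem IsFrac.mem {x : LaurentSeries (AlgebraicClosure ℚ)} {a b : LaurentSeries A}
    (h : IsFrac x a b) : x ∈ fracSubring A := ⟨a, b, h⟩

theorem toL_mem_fracSubring (a : LaurentSeries A) : toL A a ∈ fracSubring A :=
  (isFrac_toL a).mem

/-- the reduction of an element of `𝒪′` -/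
def fracRedFun (x : LaurentSeries (AlgebraicClosure ℚ)) (hx : x ∈ fracSubring A) :
    LaurentSeries (IsLocalRing.ResidueField A) :=
  toK A (mem_fracSubring.mp hx).choose / toK A (mem_fracSubring.mp hx).choose_spec.choose

theorem fracRedFun_eq {x : LaurentSeries (AlgebraicClosure ℚ)}
    (hx : x ∈ fracSubring A) {a b : LaurentSeries A} (h : IsFrac x a b) :
    fracRedFun x hx = toK A a / toK A b :=
  IsFrac.div_eq (mem_fracSubring.mp hx).choose_spec.choose_spec h

variable (A) in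
/-- the coefficientwise reduction `𝒪′ → k((Q))`, `a / b ↦ ā / b̄` -/
def fracRed : fracSubring A →+* LaurentSeries (IsLocalRing.ResidueField A) where
  toFun x := fracRedFun x.1 x.2
  map_one' := by
    show fracRedFun (1 : LaurentSeries (AlgebraicClosure ℚ)) (one_mem _) = 1
    rw [fracRedFun_eq _ isFrac_one, map_one, div_one]
  map_mul' := by
    intro x y
    obtain ⟨a, b, h⟩ := mem_fracSubring.mp x.2
    obtain ⟨a', b', h'⟩ := mem_fracSubring.mp y.2
    show fracRedFun (x.1 * y.1) (mul_mem x.2 y.2) = fracRedFun x.1 x.2 * fracRedFun y.1 y.2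
    rw [fracRedFun_eq _ h, fracRedFun_eq _ h', fracRedFun_eq _ (h.mul h'), map_mul, map_mul,
      mul_div_mul_comm]
  map_zero' := by
    show fracRedFun (0 : LaurentSeries (AlgebraicClosure ℚ)) (zero_mem _) = 0
    rw [fracRedFun_eq _ isFrac_zero, map_zero, zero_div]
  map_add' := by
    intro x y
    obtain ⟨a, b, h⟩ := mem_fracSubring.mp x.2
    obtain ⟨a', b', h'⟩ := mem_fracSubring.mp y.2
    show fracRedFun (x.1 + y.1) (add_mem x.2 y.2) = fracRedFun x.1 x.2 + fracRedFun y.1 y.2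
    rw [fracRedFun_eq _ h, fracRedFun_eq _ h', fracRedFun_eq _ (h.add h'), map_add, map_mul,
      map_mul, map_mul, div_add_div _ _ h.1 h'.1, mul_comm (toK A b) (toK A a')]

theorem fracRed_apply {x : LaurentSeries (AlgebraicClosure ℚ)} (hx : x ∈ fracSubring A)
    {a b : LaurentSeries A} (h : IsFrac x a b) : fracRed A ⟨x, hx⟩ = toK A a / toK A b :=
  fracRedFun_eq hx h

/-- **(R1)** an `A`-integral series lies in `𝒪′` and reduces coefficientwise -/
theorem fracRed_toL (a : LaurentSeries A) :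
    fracRed A ⟨toL A a, toL_mem_fracSubring a⟩ = toK A a := by
  rw [fracRed_apply _ (isFrac_toL a), map_one, div_one]

theorem fracRed_eq_zero_iff {x : LaurentSeries (AlgebraicClosure ℚ)} (hx : x ∈ fracSubring A)
    {a b : LaurentSeries A} (h : IsFrac x a b) : fracRed A ⟨x, hx⟩ = 0 ↔ toK A a = 0 := by
  rw [fracRed_apply hx h, div_eq_zero_iff]
  exact ⟨fun h0 => h0.resolve_right h.1, Or.inl⟩

/-- elements of `𝒪′` with nonzero reduction are units of `𝒪′` -/
theorem inv_mem_fracSubring {x : LaurentSeries (AlgebraicClosure ℚ)} (hx : x ∈ fracSubring A)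
    (h0 : fracRed A ⟨x, hx⟩ ≠ 0) : x⁻¹ ∈ fracSubring A := by
  obtain ⟨a, b, h⟩ := mem_fracSubring.mp hx
  have ha : toK A a ≠ 0 := fun h1 => h0 ((fracRed_eq_zero_iff _ h).mpr h1)
  exact (h.inv ha).mem

theorem fracRed_inv {x : LaurentSeries (AlgebraicClosure ℚ)} (hx : x ∈ fracSubring A)
    (h0 : fracRed A ⟨x, hx⟩ ≠ 0) :
    fracRed A ⟨x⁻¹, inv_mem_fracSubring hx h0⟩ = (fracRed A ⟨x, hx⟩)⁻¹ := by
  obtain ⟨a, b, h⟩ := mem_fracSubring.mp hx
  have ha : toK A a ≠ 0 := fun h1 => h0 ((fracRed_eq_zero_iff _ h).mpr h1)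
  rw [fracRed_apply _ (h.inv ha), fracRed_apply _ h, inv_div]

/-! ### constants -/

theorem algebraMap_mem_fracSubring {c : AlgebraicClosure ℚ} (hc : c ∈ A) :
    algebraMap (AlgebraicClosure ℚ) (LaurentSeries (AlgebraicClosure ℚ)) c ∈ fracSubring A := by
  have := toL_mem_fracSubring (constA A ⟨c, hc⟩)
  rwa [toL_constA] at this

theorem fracRed_algebraMap {c : AlgebraicClosure ℚ} (hc : c ∈ A) :
    fracRed A ⟨algebraMap (AlgebraicClosure ℚ) (LaurentSeries (AlgebraicClosure ℚ)) c,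
      algebraMap_mem_fracSubring hc⟩ =
    algebraMap (IsLocalRing.ResidueField A) (LaurentSeries (IsLocalRing.ResidueField A))
      (IsLocalRing.residue A ⟨c, hc⟩) := by
  have h := isFrac_toL (constA A ⟨c, hc⟩)
  rw [toL_constA] at h
  rw [fracRed_apply _ h, map_one, div_one, toK_constA]

/-! ### the substitution `Q ↦ ζ Q` -/

/-- a unit of `A` as a unit of `ℚ̄` -/
def unitL (ζ : Aˣ) : (AlgebraicClosure ℚ)ˣ := Units.map (A.subtype : A →* AlgebraicClosure ℚ) ζ

/-- a unit of `A` as a unit of the residue field -/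
def unitK (ζ : Aˣ) : (IsLocalRing.ResidueField A)ˣ :=
  Units.map (IsLocalRing.residue A : A →* IsLocalRing.ResidueField A) ζ

theorem toL_twist (ζ : Aˣ) (a : LaurentSeries A) : toL A (twist ζ a) = twist (unitL ζ) (toL A a) :=
  coeffMap_twist A.subtype ζ a

theorem toK_twist (ζ : Aˣ) (a : LaurentSeries A) : toK A (twist ζ a) = twist (unitK ζ) (toK A a) :=
  coeffMap_twist (IsLocalRing.residue A) ζ a

theorem IsFrac.twist {x : LaurentSeries (AlgebraicClosure ℚ)} {a b : LaurentSeries A}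
    (h : IsFrac x a b) (ζ : Aˣ) : IsFrac (twist (unitL ζ) x) (twist ζ a) (twist ζ b) := by
  refine ⟨?_, ?_⟩
  · rw [toK_twist]
    exact fun h0 => h.1 (Fermat.Agent.S28lib.twist_injective _ (by rw [h0, map_zero]))
  · rw [toL_twist, toL_twist, ← map_mul, h.2]

theorem twist_mem_fracSubring (ζ : Aˣ) {x : LaurentSeries (AlgebraicClosure ℚ)}
    (hx : x ∈ fracSubring A) : twist (unitL ζ) x ∈ fracSubring A := by
  obtain ⟨a, b, h⟩ := mem_fracSubring.mp hx
  exact (h.twist ζ).mem

/-- reduction commutes with `Q ↦ ζ Q` -/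
theorem fracRed_twist (ζ : Aˣ) {x : LaurentSeries (AlgebraicClosure ℚ)} (hx : x ∈ fracSubring A) :
    fracRed A ⟨twist (unitL ζ) x, twist_mem_fracSubring ζ hx⟩ =
      twist (unitK ζ) (fracRed A ⟨x, hx⟩) := by
  obtain ⟨a, b, h⟩ := mem_fracSubring.mp hx
  rw [fracRed_apply _ (h.twist ζ), fracRed_apply _ h, toK_twist, toK_twist, map_div₀]

/-! ### the substitution `Q ↦ Q ^ N` -/

theorem toL_qExpand (N : ℕ) [NeZero N] (a : LaurentSeries A) :
    toL A (qExpand A N a) = qExpand (AlgebraicClosure ℚ) N (toL A a) :=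
  coeffMap_qExpand A.subtype N a

theorem toK_qExpand (N : ℕ) [NeZero N] (a : LaurentSeries A) :
    toK A (qExpand A N a) = qExpand (IsLocalRing.ResidueField A) N (toK A a) :=
  coeffMap_qExpand (IsLocalRing.residue A) N a

theorem IsFrac.qExpand {x : LaurentSeries (AlgebraicClosure ℚ)} {a b : LaurentSeries A}
    (h : IsFrac x a b) (N : ℕ) [NeZero N] :
    IsFrac (qExpand (AlgebraicClosure ℚ) N x) (qExpand A N a) (qExpand A N b) := by
  refine ⟨?_, ?_⟩
  · rw [toK_qExpand]
    exact fun h0 => h.1 (qExpand_injective N (by rw [h0, map_zero]))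
  · rw [toL_qExpand, toL_qExpand, ← map_mul, h.2]

theorem qExpand_mem_fracSubring (N : ℕ) [NeZero N] {x : LaurentSeries (AlgebraicClosure ℚ)}
    (hx : x ∈ fracSubring A) : qExpand (AlgebraicClosure ℚ) N x ∈ fracSubring A := by
  obtain ⟨a, b, h⟩ := mem_fracSubring.mp hx
  exact (h.qExpand N).mem

/-- reduction commutes with `Q ↦ Q ^ N` -/
theorem fracRed_qExpand (N : ℕ) [NeZero N] {x : LaurentSeries (AlgebraicClosure ℚ)}
    (hx : x ∈ fracSubring A) :
    fracRed A ⟨qExpand (AlgebraicClosure ℚ) N x, qExpand_mem_fracSubring N hx⟩ =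
      qExpand (IsLocalRing.ResidueField A) N (fracRed A ⟨x, hx⟩) := by
  obtain ⟨a, b, h⟩ := mem_fracSubring.mp hx
  rw [fracRed_apply _ (h.qExpand N), fracRed_apply _ h, toK_qExpand, toK_qExpand, map_div₀]

/-! ### restriction to a subfield (or any ring mapping to `ℚ̄((Q))`) -/

section Restrict

variable {Ω : Type*} [Ring Ω] (A) (ι : Ω →+* LaurentSeries (AlgebraicClosure ℚ))

/-- `S = ι⁻¹(𝒪′)` -/
def subringOf : Subring Ω := (fracSubring A).comap ι

variable {A ι} in
theorem mem_subringOf {x : Ω} : x ∈ subringOf A ι ↔ ι x ∈ fracSubring A := Iff.rfl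

/-- the reduction on `S = ι⁻¹(𝒪′)` -/
def redOf : subringOf A ι →+* LaurentSeries (IsLocalRing.ResidueField A) :=
  (fracRed A).comp
    { toFun := fun x => ⟨ι x.1, x.2⟩
      map_one' := Subtype.ext (map_one ι)
      map_mul' := fun x y => Subtype.ext (map_mul ι x.1 y.1)
      map_zero' := Subtype.ext (map_zero ι)
      map_add' := fun x y => Subtype.ext (map_add ι x.1 y.1) }

variable {A ι} in
theorem redOf_apply (x : subringOf A ι) : redOf A ι x = fracRed A ⟨ι x.1, x.2⟩ := rfl

variable {A ι} in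
/-- **(R1)**, restricted form: if `ι x` is an `A`-integral series `toL a` then `x ∈ S` and
`red x = toK a`. -/
theorem redOf_of_eq_toL {x : Ω} {a : LaurentSeries A} (h : ι x = toL A a) :
    ∃ hx : x ∈ subringOf A ι, redOf A ι ⟨x, hx⟩ = toK A a := by
  have hx : x ∈ subringOf A ι := by
    rw [mem_subringOf, h]; exact toL_mem_fracSubring a
  refine ⟨hx, ?_⟩
  rw [redOf_apply]
  have : (⟨ι x, hx⟩ : fracSubring A) = ⟨toL A a, toL_mem_fracSubring a⟩ := Subtype.ext h
  rw [this, fracRed_toL]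

end Restrict

end Fermat.Agent.S48lib.X1.Igusa
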