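/-
S48lib / X1 / Igusa / TauInt  (helper8)

Integrality and reduction of the generators `τ_v` at a valuation subring `A ⊆ ℚ̄` of residue
characteristic `p ∤ M`:

* `zA hA hpM hζ : Aˣ` : the primitive `M`-th root of unity `ζ` as a unit of `A`;
  `one_sub_zpow_isUnit` (`1 - ζ^b ∈ Aˣ` for `M ∤ b`), `isPrimitiveRoot_unitK` (`ζ̄` is primitive);
* `kapA b : A` (the constant term `ζ^b/(1-ζ^b)²`), `tauA a b : LaurentSeries A`;
* `toL_tauA : toL (tauA a b) = tauK M ζ a b`, `toK_tauA : toK (tauA a b) = tauK M ζ̄ a b`;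
* `tauK_mem_fracSubring`, `fracRed_tauK`  (so `τ_v ∈ 𝒪′`, `red τ_v = τ̄_v`);
* `fracRed_tauK_eq_iff` : **(Sep) for the reductions**.
-/
import Mathlib
import Fermat.Agent.S48lib.X1.Igusa.SeriesRed
import Fermat.Agent.S48lib.X1.Field.Formal

set_option autoImplicit false
set_option linter.unusedSectionVars false

noncomputable section

namespace Fermat.Agent.S48lib.X1.Igusa

open ModularCurve HahnSeries
open Fermat.Agent.S18lib.V (toL toK)
open Fermat.Agent.S48lib.X1 (tau tauK kap coeffMap_tau tauK_eq_iff)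

local notation "Qb" => AlgebraicClosure ℚ

variable {M : ℕ} [NeZero M] {A : ValuationSubring Qb} {p : ℕ} [Fact p.Prime]

/-- a natural number prime to the residue characteristic is a unit of `A` -/
theorem natCast_inv_mem (hA : A.LiesOverPrime p) (hpM : ¬ p ∣ M) : ((M : Qb))⁻¹ ∈ A := by
  have hcop : IsCoprime (M : ℤ) (p : ℤ) := by
    rw [Int.isCoprime_iff_gcd_eq_one, Int.gcd_natCast_natCast, Nat.gcd_comm]
    exact (Nat.Prime.coprime_iff_not_dvd Fact.out).mpr hpM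
  obtain ⟨a, b, hab⟩ := hcop
  have hab' : (a : Qb) * (M : Qb) + (b : Qb) * (p : Qb) = 1 := by exact_mod_cast congrArg (Int.cast : ℤ → Qb) hab
  -- `a M = 1 - b p` is a unit of `A`
  have hpA : (p : Qb) ∈ A := natCast_mem A p
  have hbA : (b : Qb) ∈ A := intCast_mem A b
  have haA : (a : Qb) ∈ A := intCast_mem A a
  have hMA : (M : Qb) ∈ A := natCast_mem A M
  have hnu : (⟨(b : Qb) * (p : Qb), A.mul_mem _ _ hbA hpA⟩ : A) ∈ IsLocalRing.maximalIdeal A := by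
    have hpn : (⟨(p : Qb), hpA⟩ : A) ∈ IsLocalRing.maximalIdeal A := by
      rw [IsLocalRing.mem_maximalIdeal, mem_nonunits_iff]
      intro hu
      have : (p : Qb) ∈ A.nonunits := hA
      rw [ValuationSubring.mem_nonunits_iff_exists_mem_maximalIdeal] at this
      obtain ⟨hp', hmem⟩ := this
      exact (IsLocalRing.mem_maximalIdeal _).mp hmem hu
    have : (⟨(b : Qb) * (p : Qb), A.mul_mem _ _ hbA hpA⟩ : A) = ⟨(b : Qb), hbA⟩ * ⟨(p : Qb), hpA⟩ := rfl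
    rw [this]
    exact Ideal.mul_mem_left _ _ hpn
  have hunit : IsUnit (⟨(a : Qb) * (M : Qb), A.mul_mem _ _ haA hMA⟩ : A) := by
    have h1 : (⟨(a : Qb) * (M : Qb), A.mul_mem _ _ haA hMA⟩ : A) =
        1 - ⟨(b : Qb) * (p : Qb), A.mul_mem _ _ hbA hpA⟩ := by
      apply Subtype.ext
      show (a : Qb) * (M : Qb) = 1 - (b : Qb) * (p : Qb)
      linear_combination hab'
    rw [h1]
    exact IsLocalRing.isUnit_one_sub_self_of_mem_nonunits _ ((IsLocalRing.mem_maximalIdeal _).mp hnu)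
  obtain ⟨u, hu⟩ := hunit
  have hM0 : (M : Qb) ≠ 0 := Nat.cast_ne_zero.mpr (NeZero.ne M)
  have h2 : ((M : Qb))⁻¹ = (a : Qb) * ((u⁻¹ : Aˣ) : A).1 := by
    have h3 : ((u : A) : Qb) * ((u⁻¹ : Aˣ) : A).1 = 1 := by
      rw [← MulMemClass.coe_mul, Units.mul_inv]; rfl
    rw [hu] at h3
    have h4 : (a : Qb) * (M : Qb) * ((u⁻¹ : Aˣ) : A).1 = 1 := h3
    exact inv_eq_of_mul_eq_one_right (by linear_combination h4)
  rw [h2]
  exact A.mul_mem _ _ haA ((u⁻¹ : Aˣ) : A).2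


/-! ### the root of unity as a unit of `A` -/

/-- a root of unity of `ℚ̄` lies in every valuation subring -/
theorem mem_of_pow_eq_one {x : Qb} {n : ℕ} (hn : n ≠ 0) (hx : x ^ n = 1) : x ∈ A := by
  rcases A.mem_or_inv_mem x with h | h
  · exact h
  · have hx0 : x ≠ 0 := by
      rintro rfl
      rw [zero_pow hn] at hx
      exact zero_ne_one hx
    have h1 : x * x ^ (n - 1) = 1 := by
      rw [← pow_succ', Nat.sub_add_cancel (Nat.one_le_iff_ne_zero.mpr hn), hx]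
    have h2 : x⁻¹ ^ (n - 1) * x ^ (n - 1) = 1 := by
      rw [← mul_pow, inv_mul_cancel₀ hx0, one_pow]
    have : x = x⁻¹ ^ (n - 1) := mul_right_cancel₀ (pow_ne_zero (n - 1) hx0) (h1.trans h2.symm)
    rw [this]
    exact pow_mem h _

variable {ζ : Qbˣ}

/-- the primitive `M`-th root of unity `ζ` as a unit of `A` -/
def zA (A : ValuationSubring Qb) (hζ : IsPrimitiveRoot ζ M) : Aˣ where
  val := ⟨(ζ : Qb), mem_of_pow_eq_one (NeZero.ne M)
    (by rw [← Units.val_pow_eq_pow_val, hζ.pow_eq_one]; rfl)⟩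
  inv := ⟨((ζ⁻¹ : Qbˣ) : Qb), mem_of_pow_eq_one (NeZero.ne M)
    (by rw [← Units.val_pow_eq_pow_val, inv_pow, hζ.pow_eq_one]; simp)⟩
  val_inv := Subtype.ext (by simp)
  inv_val := Subtype.ext (by simp)

@[simp] theorem unitL_zA (hζ : IsPrimitiveRoot ζ M) : unitL (zA A hζ) = ζ := Units.ext rfl

theorem coe_zA_zpow (hζ : IsPrimitiveRoot ζ M) (b : ℤ) :
    ((((zA A hζ) ^ b : Aˣ) : A) : Qb) = ((ζ ^ b : Qbˣ) : Qb) := by
  have : unitL ((zA A hζ) ^ b) = ζ ^ b := by rw [unitL, map_zpow, ← unitL, unitL_zA]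
  exact congrArg Units.val this

/-- `1 - ζ^b` is invertible in `A` for `M ∤ b` -/
theorem one_sub_zpow_inv_mem (hA : A.LiesOverPrime p) (hpM : ¬ p ∣ M) (hζ : IsPrimitiveRoot ζ M)
    {b : ℤ} (hb : ¬ (M : ℤ) ∣ b) : (1 - ((ζ ^ b : Qbˣ) : Qb))⁻¹ ∈ A := by
  classical
  have hM0 : (M : ℤ) ≠ 0 := by exact_mod_cast NeZero.ne M
  have hMpos : (0 : ℤ) < M := lt_of_le_of_ne (Int.natCast_nonneg M) hM0.symm
  -- reduce to a natural exponent `0 < i < M`
  set i : ℕ := (b % (M : ℤ)).toNat with hi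
  have hi0 : (i : ℤ) = b % (M : ℤ) := Int.toNat_of_nonneg (Int.emod_nonneg b hM0)
  have hiM : i < M := by
    have := Int.emod_lt_of_pos b hMpos
    rw [← hi0] at this
    exact_mod_cast this
  have hipos : 0 < i := by
    rcases Nat.eq_zero_or_pos i with h0 | h0
    · exfalso
      apply hb
      rw [h0, Nat.cast_zero] at hi0
      exact Int.dvd_of_emod_eq_zero hi0.symm
    · exact h0
  have hpow : ((ζ ^ b : Qbˣ) : Qb) = (ζ : Qb) ^ i := by
    have h1 : ζ ^ b = ζ ^ (i : ℤ) := by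
      conv_lhs => rw [← Int.emod_add_mul_ediv b (M : ℤ)]
      rw [zpow_add, zpow_mul, zpow_natCast, hζ.pow_eq_one, one_zpow, mul_one, hi0]
    rw [h1, zpow_natCast, Units.val_pow_eq_pow_val]
  rw [hpow]
  have hζ' : IsPrimitiveRoot (ζ : Qb) M := IsPrimitiveRoot.coe_units_iff.mpr hζ
  obtain ⟨n, hn⟩ := Nat.exists_eq_succ_of_ne_zero (NeZero.ne M)
  have hζn : IsPrimitiveRoot (ζ : Qb) (n + 1) := by
    rw [show n + 1 = M from hn.symm]; exact hζ'
  have hprod := hζn.prod_one_sub_pow_eq_order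
  have hmem : i - 1 ∈ Finset.range n := by
    rw [Finset.mem_range]; omega
  rw [← Finset.mul_prod_erase _ _ hmem, Nat.sub_add_cancel hipos] at hprod
  have hMq : ((n : Qb) + 1) = (M : Qb) := by rw [hn]; push_cast; rfl
  rw [hMq] at hprod
  have hMne : (M : Qb) ≠ 0 := Nat.cast_ne_zero.mpr (NeZero.ne M)
  have hne : (1 - (ζ : Qb) ^ i) ≠ 0 := by
    intro h0
    rw [h0, zero_mul] at hprod
    exact hMne hprod.symm
  have hinv : (1 - (ζ : Qb) ^ i)⁻¹ =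
      ((M : Qb))⁻¹ * ∏ k ∈ (Finset.range n).erase (i - 1), (1 - (ζ : Qb) ^ (k + 1)) := by
    apply inv_eq_of_mul_eq_one_right
    rw [mul_left_comm, hprod, inv_mul_cancel₀ hMne]
  rw [hinv]
  refine A.mul_mem _ _ (natCast_inv_mem hA hpM) (prod_mem fun k _ => ?_)
  refine sub_mem (one_mem _) (pow_mem ?_ _)
  exact mem_of_pow_eq_one (NeZero.ne M) hζ'.pow_eq_one


/-- `(1 - ζ^b)⁻¹ ∈ A` for every `b` (it is `0` when `M ∣ b`) -/
theorem one_sub_zpow_inv_mem' (hA : A.LiesOverPrime p) (hpM : ¬ p ∣ M) (hζ : IsPrimitiveRoot ζ M)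
    (b : ℤ) : (1 - ((ζ ^ b : Qbˣ) : Qb))⁻¹ ∈ A := by
  by_cases hb : (M : ℤ) ∣ b
  · have : ζ ^ b = 1 := (hζ.zpow_eq_one_iff_dvd b).mpr hb
    rw [this, Units.val_one, sub_self, inv_zero]
    exact A.zero_mem
  · exact one_sub_zpow_inv_mem hA hpM hζ hb

theorem zpow_mem (hζ : IsPrimitiveRoot ζ M) (b : ℤ) : ((ζ ^ b : Qbˣ) : Qb) ∈ A := by
  rw [← coe_zA_zpow (A := A) hζ b]
  exact (((zA A hζ) ^ b : Aˣ) : A).2

/-- the inverse of `1 - ζ^b` in `A` -/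
def invOneSubA (hA : A.LiesOverPrime p) (hpM : ¬ p ∣ M) (hζ : IsPrimitiveRoot ζ M) (b : ℤ) : A :=
  ⟨(1 - ((ζ ^ b : Qbˣ) : Qb))⁻¹, one_sub_zpow_inv_mem' hA hpM hζ b⟩

theorem invOneSubA_mul (hA : A.LiesOverPrime p) (hpM : ¬ p ∣ M) (hζ : IsPrimitiveRoot ζ M)
    {b : ℤ} (hb : ¬ (M : ℤ) ∣ b) :
    invOneSubA hA hpM hζ b * (1 - (((zA A hζ) ^ b : Aˣ) : A)) = 1 := by
  apply Subtype.ext
  show (1 - ((ζ ^ b : Qbˣ) : Qb))⁻¹ * (1 - ((((zA A hζ) ^ b : Aˣ) : A) : Qb)) = 1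
  rw [coe_zA_zpow]
  have hne : ζ ^ b ≠ 1 := fun h => hb ((hζ.zpow_eq_one_iff_dvd b).mp h)
  have : (1 - ((ζ ^ b : Qbˣ) : Qb)) ≠ 0 := by
    intro h0
    apply hne
    apply Units.ext
    rw [Units.val_one]
    exact (sub_eq_zero.mp h0).symm
  exact inv_mul_cancel₀ this

theorem unitK_zpow (z : Aˣ) (b : ℤ) :
    (((unitK z) ^ b : (IsLocalRing.ResidueField A)ˣ) : IsLocalRing.ResidueField A) =
      IsLocalRing.residue A ((z ^ b : Aˣ) : A) := by
  rw [unitK, ← map_zpow]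
  rfl

/-- `ζ̄` is a primitive `M`-th root of unity of the residue field -/
theorem isPrimitiveRoot_unitK (hA : A.LiesOverPrime p) (hpM : ¬ p ∣ M) (hζ : IsPrimitiveRoot ζ M) :
    IsPrimitiveRoot (unitK (zA A hζ)) M := by
  rw [IsPrimitiveRoot.iff_def]
  constructor
  · have h1 : (zA A hζ) ^ M = 1 := by
      apply Units.ext
      apply Subtype.ext
      show (((zA A hζ) ^ M : Aˣ) : A).1 = 1
      have := coe_zA_zpow (A := A) hζ (M : ℤ)
      rw [zpow_natCast, zpow_natCast, hζ.pow_eq_one] at this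
      exact this
    rw [unitK, ← map_pow, h1, map_one]
  · intro l hl
    by_contra hMl
    have hMl' : ¬ (M : ℤ) ∣ (l : ℤ) := by exact_mod_cast hMl
    have h1 := invOneSubA_mul hA hpM hζ hMl'
    have h2 := congrArg (IsLocalRing.residue A) h1
    rw [map_mul, map_sub, map_one, ← unitK_zpow, zpow_natCast, hl, Units.val_one, sub_self,
      mul_zero] at h2
    exact zero_ne_one h2

/-- the constant term `ζ^b/(1-ζ^b)²` as an element of `A` -/
def kapA (hA : A.LiesOverPrime p) (hpM : ¬ p ∣ M) (hζ : IsPrimitiveRoot ζ M) (b : ℤ) : A :=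
  ⟨kap ((ζ ^ b : Qbˣ) : Qb), by
    have h : kap ((ζ ^ b : Qbˣ) : Qb) =
        ((ζ ^ b : Qbˣ) : Qb) * ((1 - ((ζ ^ b : Qbˣ) : Qb))⁻¹) ^ 2 := by
      rw [kap, div_eq_mul_inv, inv_pow]
    rw [h]
    exact A.mul_mem _ _ (zpow_mem hζ b) (pow_mem (one_sub_zpow_inv_mem' hA hpM hζ b) 2)⟩

@[simp] theorem coe_kapA (hA : A.LiesOverPrime p) (hpM : ¬ p ∣ M) (hζ : IsPrimitiveRoot ζ M) (b : ℤ) :
    ((kapA hA hpM hζ b : A) : Qb) = kap ((ζ ^ b : Qbˣ) : Qb) := rfl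

theorem kapA_eq (hA : A.LiesOverPrime p) (hpM : ¬ p ∣ M) (hζ : IsPrimitiveRoot ζ M) (b : ℤ) :
    kapA hA hpM hζ b = (((zA A hζ) ^ b : Aˣ) : A) * invOneSubA hA hpM hζ b ^ 2 := by
  apply Subtype.ext
  show kap ((ζ ^ b : Qbˣ) : Qb) =
    ((((zA A hζ) ^ b : Aˣ) : A) : Qb) * ((1 - ((ζ ^ b : Qbˣ) : Qb))⁻¹) ^ 2
  rw [coe_zA_zpow, kap, div_eq_mul_inv, inv_pow]

theorem residue_kapA (hA : A.LiesOverPrime p) (hpM : ¬ p ∣ M) (hζ : IsPrimitiveRoot ζ M) (b : ℤ) :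
    IsLocalRing.residue A (kapA hA hpM hζ b) =
      kap (((unitK (zA A hζ)) ^ b : (IsLocalRing.ResidueField A)ˣ) : IsLocalRing.ResidueField A) := by
  by_cases hb : (M : ℤ) ∣ b
  · have h1 : ζ ^ b = 1 := (hζ.zpow_eq_one_iff_dvd b).mpr hb
    have h2 : (unitK (zA A hζ)) ^ b = 1 :=
      ((isPrimitiveRoot_unitK hA hpM hζ).zpow_eq_one_iff_dvd b).mpr hb
    have h3 : kapA hA hpM hζ b = 0 := by
      apply Subtype.ext
      show kap ((ζ ^ b : Qbˣ) : Qb) = 0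
      rw [h1, Units.val_one, kap, sub_self]
      simp
    rw [h3, map_zero, h2, Units.val_one, kap, sub_self]
    simp
  · have h1 := congrArg (IsLocalRing.residue A) (invOneSubA_mul hA hpM hζ hb)
    rw [map_mul, map_sub, map_one, ← unitK_zpow] at h1
    rw [kapA_eq, map_mul, map_pow, ← unitK_zpow, kap, div_eq_mul_inv, ← inv_pow]
    congr 2
    exact eq_inv_of_mul_eq_one_left h1

/-! ### the integral generators -/

/-- the generator `τ_v` as an `A`-integral Laurent series -/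
def tauA (hA : A.LiesOverPrime p) (hpM : ¬ p ∣ M) (hζ : IsPrimitiveRoot ζ M) (a b : ℤ) :
    LaurentSeries A :=
  tau M (zA A hζ) (kapA hA hpM hζ b) a b

/-- **integrality**: `τ_v` is the image of an `A`-integral series -/
theorem toL_tauA (hA : A.LiesOverPrime p) (hpM : ¬ p ∣ M) (hζ : IsPrimitiveRoot ζ M) (a b : ℤ) :
    toL A (tauA hA hpM hζ a b) = tauK M ζ a b := by
  rw [tauA, toL, coeffMap_tau, tauK]
  rfl

/-- **reduction**: `τ_v` reduces to `τ̄_v` (same formula with `ζ̄`) -/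
theorem toK_tauA (hA : A.LiesOverPrime p) (hpM : ¬ p ∣ M) (hζ : IsPrimitiveRoot ζ M) (a b : ℤ) :
    toK A (tauA hA hpM hζ a b) = tauK M (unitK (zA A hζ)) a b := by
  rw [tauA, toK, coeffMap_tau, tauK, residue_kapA]
  rfl

theorem tauK_mem_fracSubring (hA : A.LiesOverPrime p) (hpM : ¬ p ∣ M) (hζ : IsPrimitiveRoot ζ M)
    (a b : ℤ) : tauK M ζ a b ∈ fracSubring A := by
  rw [← toL_tauA hA hpM hζ]
  exact toL_mem_fracSubring _

theorem fracRed_tauK (hA : A.LiesOverPrime p) (hpM : ¬ p ∣ M) (hζ : IsPrimitiveRoot ζ M)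
    (a b : ℤ) :
    fracRed A ⟨tauK M ζ a b, tauK_mem_fracSubring hA hpM hζ a b⟩ =
      tauK M (unitK (zA A hζ)) a b := by
  have h := fracRed_toL (tauA hA hpM hζ a b)
  rw [toK_tauA] at h
  rw [← h]
  congr 1
  exact Subtype.ext (toL_tauA hA hpM hζ a b).symm

/-- **(Sep) for the reductions**: `τ̄_v = τ̄_w ↔ v ≡ ± w (mod M)` -/
theorem fracRed_tauK_eq_iff (hA : A.LiesOverPrime p) (hpM : ¬ p ∣ M) (hζ : IsPrimitiveRoot ζ M)
    (hM : 1 < M) {a a' b b' : ℤ} (hv : ¬ ((M : ℤ) ∣ a ∧ (M : ℤ) ∣ b))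
    (hw : ¬ ((M : ℤ) ∣ a' ∧ (M : ℤ) ∣ b')) :
    fracRed A ⟨tauK M ζ a b, tauK_mem_fracSubring hA hpM hζ a b⟩ =
        fracRed A ⟨tauK M ζ a' b', tauK_mem_fracSubring hA hpM hζ a' b'⟩ ↔
      (a ≡ a' [ZMOD (M : ℤ)] ∧ b ≡ b' [ZMOD (M : ℤ)]) ∨
        (a ≡ -a' [ZMOD (M : ℤ)] ∧ b ≡ -b' [ZMOD (M : ℤ)]) := by
  rw [fracRed_tauK hA hpM hζ, fracRed_tauK hA hpM hζ]
  exact tauK_eq_iff (isPrimitiveRoot_unitK hA hpM hζ) hM hv hw

end Fermat.Agent.S48lib.X1.Igusa
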