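/-
S48lib / X1 / Igusa / GaussBridge  (helper8)

Compatibility of a Gauss datum `G : GaussDatum A F Fk` on a field of Laurent series with the
coefficientwise reduction `fracRed` of `SeriesRed.lean`.

* `SeriesCompat G ι ιk` : every `x ∈ G.O` has `ι x ∈ 𝒪′` and `fracRed (ι x) = ιk (G.red x)`;
* `SeriesCompat.mem_O_iff` : then `G.O = ι⁻¹(𝒪′)` (valuation ring argument) — this is (R1);
* `SeriesCompat.redOf_eq`, `SeriesCompat.redOf_eq_zero_iff` (kernel = maximal ideal: `hred`);
* `SeriesCompat.comp_qExpand` : stability under the substitution `q ↦ Q ^ N`;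
* `seriesCompat_gaussDatum` : the `X₀(N)` Gauss datum `V.gaussDatum N A _ _` is compatible.
-/
import Mathlib
import Fermat.Agent.S48lib.X1.Igusa.SeriesRed
import Fermat.Agent.S18lib.V.GaussU.Datum
import Fermat.Agent.S18lib.Weak.Lemmas

set_option autoImplicit false
set_option linter.unusedSectionVars false

noncomputable section

namespace Fermat.Agent.S48lib.X1.Igusa

open ModularCurve HahnSeries
open Fermat.Agent.S18lib

variable {A : ValuationSubring (AlgebraicClosure ℚ)}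
variable {F : Type*} [Field F] [Algebra (AlgebraicClosure ℚ) F]
variable {Fk : Type*} [Field Fk] [Algebra (IsLocalRing.ResidueField A) Fk]

/-- the Gauss datum `G` is the coefficientwise reduction of expansions `ι`, `ιk` -/
def SeriesCompat (G : GaussDatum A F Fk) (ι : F →+* LaurentSeries (AlgebraicClosure ℚ))
    (ιk : Fk →+* LaurentSeries (IsLocalRing.ResidueField A)) : Prop :=
  ∀ (x : F) (hx : x ∈ G.O), ∃ h' : ι x ∈ fracSubring A, fracRed A ⟨ι x, h'⟩ = ιk (G.red ⟨x, hx⟩)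

namespace SeriesCompat

variable {G : GaussDatum A F Fk} {ι : F →+* LaurentSeries (AlgebraicClosure ℚ)}
  {ιk : Fk →+* LaurentSeries (IsLocalRing.ResidueField A)}

theorem mem_fracSubring (h : SeriesCompat G ι ιk) {x : F} (hx : x ∈ G.O) : ι x ∈ fracSubring A :=
  (h x hx).1

theorem fracRed_eq (h : SeriesCompat G ι ιk) {x : F} (hx : x ∈ G.O) :
    fracRed A ⟨ι x, h.mem_fracSubring hx⟩ = ιk (G.red ⟨x, hx⟩) :=
  (h x hx).2

/-- **(R1)** `G.O = ι⁻¹(𝒪′)` -/
theorem mem_O_iff (h : SeriesCompat G ι ιk) (x : F) : x ∈ G.O ↔ ι x ∈ fracSubring A := by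
  refine ⟨fun hx => h.mem_fracSubring hx, fun hx => ?_⟩
  by_contra hxO
  have hx0 : x ≠ 0 := by
    rintro rfl
    exact hxO G.O.zero_mem
  have hinv : x⁻¹ ∈ G.O := (G.O.mem_or_inv_mem x).resolve_left hxO
  -- `x⁻¹` is not a unit of `O`
  have hnu : ¬ IsUnit (⟨x⁻¹, hinv⟩ : G.O) := by
    intro hu
    obtain ⟨u, hu⟩ := hu
    apply hxO
    have h1 : ((u⁻¹ : G.Oˣ) : G.O).1 = x := by
      have h2 : ((u : G.O) : F) * ((u⁻¹ : G.Oˣ) : G.O).1 = 1 := by
        rw [← MulMemClass.coe_mul, Units.mul_inv]; rfl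
      rw [hu] at h2
      have : (x⁻¹ : F) * ((u⁻¹ : G.Oˣ) : G.O).1 = 1 := h2
      field_simp at this
      exact this
    rw [← h1]
    exact ((u⁻¹ : G.Oˣ) : G.O).2
  have hred0 : G.red ⟨x⁻¹, hinv⟩ = 0 := by
    by_contra hne
    exact hnu ((G.red_ne_zero_iff_isUnit _).mp hne)
  have h1 := h.fracRed_eq hinv
  rw [hred0, map_zero] at h1
  -- but `fracRed (ι x⁻¹) * fracRed (ι x) = 1`
  have hmul : (⟨ι x⁻¹, h.mem_fracSubring hinv⟩ : fracSubring A) * ⟨ι x, hx⟩ = 1 := by
    apply Subtype.ext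
    show ι x⁻¹ * ι x = 1
    rw [← map_mul, inv_mul_cancel₀ hx0, map_one]
  have := congrArg (fracRed A) hmul
  rw [map_mul, h1, zero_mul, map_one] at this
  exact zero_ne_one this

theorem O_eq_subringOf (h : SeriesCompat G ι ιk) : G.O.toSubring = subringOf A ι := by
  ext x
  exact h.mem_O_iff x

/-- `redS = ιk ∘ red` on `S = ι⁻¹(𝒪′) = O` -/
theorem redOf_eq (h : SeriesCompat G ι ιk) {x : F} (hx : x ∈ subringOf A ι) :
    redOf A ι ⟨x, hx⟩ = ιk (G.red ⟨x, (h.mem_O_iff x).mpr hx⟩) := by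
  rw [redOf_apply]
  exact h.fracRed_eq ((h.mem_O_iff x).mpr hx)

/-- **(hred)** the kernel of the reduction on `O` is the maximal ideal -/
theorem redOf_eq_zero_iff (h : SeriesCompat G ι ιk) {x : F} (hx : x ∈ subringOf A ι) :
    redOf A ι ⟨x, hx⟩ = 0 ↔
      (⟨x, (h.mem_O_iff x).mpr hx⟩ : G.O) ∈ IsLocalRing.maximalIdeal G.O := by
  rw [h.redOf_eq hx, map_eq_zero_iff ιk ιk.injective, G.red_eq_zero_iff]

/-- compatibility is stable under the substitution `q ↦ Q ^ N` -/
theorem comp_qExpand (h : SeriesCompat G ι ιk) (N : ℕ) [NeZero N] :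
    SeriesCompat G ((qExpand (AlgebraicClosure ℚ) N).comp ι)
      ((qExpand (IsLocalRing.ResidueField A) N).comp ιk) := by
  intro x hx
  refine ⟨qExpand_mem_fracSubring N (h.mem_fracSubring hx), ?_⟩
  show fracRed A ⟨qExpand (AlgebraicClosure ℚ) N (ι x), _⟩ = _
  rw [fracRed_qExpand N (h.mem_fracSubring hx), h.fracRed_eq hx]
  rfl

end SeriesCompat

/-! ### the `X₀(N)` Gauss datum -/

section X0

variable (N : ℕ) [NeZero N] (A) {ℓ : ℕ} [Fact ℓ.Prime]

/-- the inclusion `FBar N ⊆ ℚ̄((q))` -/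
def inclBar : FBar N →+* LaurentSeries (AlgebraicClosure ℚ) :=
  (modularFunctionFieldBar N).val.toRingHom

/-- the inclusion `FRes A N ⊆ k((q))` -/
def inclRes : FRes A N →+* LaurentSeries (IsLocalRing.ResidueField A) :=
  (modularFunctionFieldFullC (IsLocalRing.ResidueField A) N).val.toRingHom

@[simp] theorem inclBar_apply (x : FBar N) : inclBar N x = (x : LaurentSeries (AlgebraicClosure ℚ)) :=
  rfl

@[simp] theorem inclRes_apply (x : FRes A N) :
    inclRes A N x = (x : LaurentSeries (IsLocalRing.ResidueField A)) := rfl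

/-- the Gauss datum of `X₀(N)` is the coefficientwise reduction of `q`-expansions -/
theorem seriesCompat_gaussDatum (hℓN : ¬ ℓ ∣ N) (hA : A.LiesOverPrime ℓ) :
    SeriesCompat (V.gaussDatum N A hℓN hA) (inclBar N) (inclRes A N) := by
  intro x hx
  obtain ⟨a, b, hab⟩ := (V.mem_gaussDatum_O N A hℓN hA).mp hx
  have hfrac : IsFrac (inclBar N x) a.1 b.1 := by
    refine ⟨?_, ?_⟩
    · intro h0
      apply hab.1
      exact Subtype.ext h0
    · have := congrArg (fun z : FBar N => (z : LaurentSeries (AlgebraicClosure ℚ))) hab.2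
      simpa using this
  refine ⟨hfrac.mem, ?_⟩
  rw [fracRed_apply _ hfrac, V.gaussDatum_red_apply N A hℓN hA hx hab, inclRes_apply]
  rfl

end X0

end Fermat.Agent.S48lib.X1.Igusa
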