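/-
S48lib / X1 / Igusa / GrpFacts  (helper8)

The two group-theoretic hypotheses of `Igusa.igusa_field` for `G = SL(2, ZMod M)`:
`T = (1 1; 0 1)`, `H₀ =` upper triangular matrices (the image of `Γ₀(M)`).

* `slmod_surjective` : `SL(2, ℤ) → SL(2, ZMod M)` is onto;
* `conj_Tm_mem_zpowers` : `H₀` normalises `⟨T⟩`  (`h T h⁻¹ = T ^ (a²)`);
* `normalClosure_Tm` : the normal closure of `T` is everything.
-/
import Mathlib
import Fermat.Agent.ProgramR.Counting.Model

set_option autoImplicit false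

namespace Fermat.Agent.S48lib.X1.Igusa

open Matrix Matrix.SpecialLinearGroup CongruenceSubgroup
open scoped MatrixGroups ModularGroup

variable (M : ℕ)

/-- reduction modulo `M` on `SL(2, ℤ)` (Mathlib's local notation `SLMOD(M)`) -/
def slmod : SL(2, ℤ) →* SL(2, ZMod M) :=
  Matrix.SpecialLinearGroup.map (Int.castRingHom (ZMod M))

theorem slmod_apply (γ : SL(2, ℤ)) (i j : Fin 2) : slmod M γ i j = (γ i j : ZMod M) := rfl

theorem ker_slmod : (slmod M).ker = Gamma M := rfl

/-- the translation `(1 1; 0 1)` modulo `M` -/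
def Tm : SL(2, ZMod M) := ⟨!![1, 1; 0, 1], by simp [Matrix.det_fin_two_of]⟩

/-- the Weyl element `(0 -1; 1 0)` modulo `M` -/
def Sm : SL(2, ZMod M) := ⟨!![0, -1; 1, 0], by simp [Matrix.det_fin_two_of]⟩

/-- the upper unipotent `(1 t; 0 1)` modulo `M` -/
def Um (t : ZMod M) : SL(2, ZMod M) := ⟨!![1, t; 0, 1], by simp [Matrix.det_fin_two_of]⟩

theorem slmod_T : slmod M ModularGroup.T = Tm M := by
  ext i j
  rw [slmod_apply]
  fin_cases i <;> fin_cases j <;> simp [Tm, ModularGroup.T]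

theorem slmod_S : slmod M ModularGroup.S = Sm M := by
  ext i j
  rw [slmod_apply]
  fin_cases i <;> fin_cases j <;> simp [Sm, ModularGroup.S]

theorem Um_add (s t : ZMod M) : Um M (s + t) = Um M s * Um M t := by
  ext i j
  rw [Matrix.SpecialLinearGroup.coe_mul, Matrix.mul_apply, Fin.sum_univ_two]
  fin_cases i <;> fin_cases j <;> simp [Um, add_comm]

theorem Um_zero : Um M 0 = 1 := by
  ext i j
  fin_cases i <;> fin_cases j <;> simp [Um]

theorem Um_one : Um M 1 = Tm M := rfl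

theorem Tm_pow (n : ℕ) : Tm M ^ n = Um M n := by
  induction n with
  | zero => rw [pow_zero, Nat.cast_zero, Um_zero]
  | succ n ih => rw [pow_succ, ih, Nat.cast_succ, Um_add, Um_one]

theorem Um_mem_zpowers [NeZero M] (t : ZMod M) : Um M t ∈ Subgroup.zpowers (Tm M) := by
  refine ⟨(t.val : ℤ), ?_⟩
  show Tm M ^ (t.val : ℤ) = Um M t
  rw [zpow_natCast, Tm_pow, ZMod.natCast_zmod_val]

theorem det_eq_one (g : SL(2, ZMod M)) : g 0 0 * g 1 1 - g 0 1 * g 1 0 = 1 := by
  have := g.det_coe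
  rw [Matrix.det_fin_two] at this
  exact this

/-- an element of `SL(2, ZMod M)` with first column `(1, 0)` is an upper unipotent -/
theorem eq_Um_of_col (g : SL(2, ZMod M)) (h00 : g 0 0 = 1) (h10 : g 1 0 = 0) :
    g = Um M (g 0 1) := by
  have hdet := det_eq_one M g
  rw [h00, h10, mul_zero, sub_zero, one_mul] at hdet
  ext i j
  fin_cases i <;> fin_cases j <;> simp [Um, h00, h10, hdet]

/-- **`SL(2, ℤ) → SL(2, ZMod M)` is surjective.** -/
theorem slmod_surjective [NeZero M] : Function.Surjective (slmod M) := by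
  intro g
  have hdet := det_eq_one M g
  obtain ⟨γ, hγ⟩ := ProgramR.P1.exists_col_eq M (g 0 0, g 1 0)
    ⟨g 1 1, -g 0 1, by simp only; linear_combination hdet⟩
  have h00 : ((γ 0 0 : ℤ) : ZMod M) = g 0 0 := congrArg Prod.fst hγ
  have h10 : ((γ 1 0 : ℤ) : ZMod M) = g 1 0 := congrArg Prod.snd hγ
  -- `(slmod γ)⁻¹ * g` has first column `(1, 0)`
  set u : SL(2, ZMod M) := (slmod M γ)⁻¹ * g with hu
  have hγdet := det_eq_one M (slmod M γ)
  simp only [slmod_apply] at hγdet
  have hu00 : u 0 0 = 1 := by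
    rw [hu, Matrix.SpecialLinearGroup.coe_mul, Matrix.SpecialLinearGroup.coe_inv,
      Matrix.adjugate_fin_two, Matrix.mul_apply, Fin.sum_univ_two]
    simp only [Matrix.of_apply, Matrix.cons_val', Matrix.cons_val_zero, Matrix.cons_val_one,
      Matrix.cons_val_fin_one, slmod_apply]
    rw [← h00, ← h10]
    linear_combination hγdet
  have hu10 : u 1 0 = 0 := by
    rw [hu, Matrix.SpecialLinearGroup.coe_mul, Matrix.SpecialLinearGroup.coe_inv,
      Matrix.adjugate_fin_two, Matrix.mul_apply, Fin.sum_univ_two]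
    simp only [Matrix.of_apply, Matrix.cons_val', Matrix.cons_val_zero, Matrix.cons_val_one,
      Matrix.cons_val_fin_one, slmod_apply]
    rw [← h00, ← h10]
    ring
  have hU := eq_Um_of_col M u hu00 hu10
  refine ⟨γ * ModularGroup.T ^ (u 0 1).val, ?_⟩
  rw [map_mul, map_pow, slmod_T, Tm_pow, ZMod.natCast_zmod_val, ← hU, hu, mul_inv_cancel_left]

/-- the image of `Γ₀(M)`: upper triangular matrices -/
def H0 : Subgroup (SL(2, ZMod M)) where
  carrier := {g | g 1 0 = 0}
  one_mem' := by simp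
  mul_mem' := by
    intro a b ha hb
    simp only [Set.mem_ofPred_eq] at ha hb ⊢
    rw [Matrix.SpecialLinearGroup.coe_mul, Matrix.mul_apply, Fin.sum_univ_two, ha, hb]
    ring
  inv_mem' := by
    intro a ha
    simp only [Set.mem_ofPred_eq] at ha ⊢
    rw [Matrix.SpecialLinearGroup.coe_inv, Matrix.adjugate_fin_two]
    simp [ha]

theorem mem_H0 {g : SL(2, ZMod M)} : g ∈ H0 M ↔ g 1 0 = 0 := Iff.rfl

theorem slmod_mem_H0_iff (γ : SL(2, ℤ)) : slmod M γ ∈ H0 M ↔ γ ∈ Gamma0 M := by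
  rw [mem_H0, slmod_apply, Gamma0_mem]

/-- `h T h⁻¹ = (1 a²; 0 1)` for upper triangular `h = (a b; 0 d)` -/
theorem conj_Tm (h : SL(2, ZMod M)) (hh : h ∈ H0 M) :
    h * Tm M * h⁻¹ = Um M (h 0 0 * h 0 0) := by
  rw [mem_H0] at hh
  have hdet := det_eq_one M h
  rw [hh, mul_zero, sub_zero] at hdet
  ext i j
  rw [Matrix.SpecialLinearGroup.coe_mul, Matrix.SpecialLinearGroup.coe_mul,
    Matrix.SpecialLinearGroup.coe_inv, Matrix.adjugate_fin_two, Matrix.mul_apply,
    Fin.sum_univ_two, Matrix.mul_apply, Matrix.mul_apply, Fin.sum_univ_two, Fin.sum_univ_two]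
  fin_cases i <;> fin_cases j <;> simp [Tm, Um, hh]
  · exact hdet
  · ring
  · rw [mul_comm]; exact hdet

/-- **(hnorm)** the upper triangular group normalises `⟨T⟩` -/
theorem conj_Tm_mem_zpowers [NeZero M] (h : SL(2, ZMod M)) (hh : h ∈ H0 M) :
    h * Tm M * h⁻¹ ∈ Subgroup.zpowers (Tm M) := by
  rw [conj_Tm M h hh]
  exact Um_mem_zpowers M _

theorem Sm_eq : Sm M = (Tm M)⁻¹ * (Sm M * (Tm M)⁻¹ * (Sm M)⁻¹) * (Tm M)⁻¹ := by
  ext i j
  simp only [Matrix.SpecialLinearGroup.coe_mul, Matrix.SpecialLinearGroup.coe_inv,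
    Matrix.adjugate_fin_two, Matrix.mul_apply, Fin.sum_univ_two]
  fin_cases i <;> fin_cases j <;> simp [Tm, Sm]

/-- **(hgen)** the normal closure of `T` in `SL(2, ZMod M)` is everything -/
theorem normalClosure_Tm [NeZero M] : Subgroup.normalClosure {Tm M} = ⊤ := by
  rw [eq_top_iff]
  have hT : Tm M ∈ Subgroup.normalClosure {Tm M} :=
    Subgroup.subset_normalClosure (Set.mem_singleton _)
  have hS : Sm M ∈ Subgroup.normalClosure {Tm M} := by
    rw [Sm_eq]
    refine mul_mem (mul_mem (inv_mem hT) ?_) (inv_mem hT)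
    exact Subgroup.normalClosure_normal.conj_mem _ (inv_mem hT) _
  have hle : (⊤ : Subgroup SL(2, ℤ)).map (slmod M) ≤ Subgroup.normalClosure {Tm M} := by
    rw [← SpecialLinearGroup.SL2Z_generators, MonoidHom.map_closure, Subgroup.closure_le]
    rintro _ ⟨x, hx, rfl⟩
    rcases hx with rfl | rfl
    · rw [slmod_S]; exact hS
    · rw [slmod_T]; exact hT
  intro g _
  obtain ⟨γ, rfl⟩ := slmod_surjective M g
  exact hle ⟨γ, Subgroup.mem_top _, rfl⟩

theorem finite_SL2ZMod [NeZero M] : Finite (SL(2, ZMod M)) := by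
  have : Fintype (ZMod M) := ZMod.fintype M
  exact Finite.of_injective (fun g : SL(2, ZMod M) => g.1) Subtype.val_injective

end Fermat.Agent.S48lib.X1.Igusa
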