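/-
S48lib / X1 / Igusa / Abstract  (lead)

The abstract decomposition-group argument of the K1 design note (§2, steps 0–5).

Setting: `B₀` a local ring, `R` a `B₀`-algebra with an action of a finite group `G` such that
`R^G = B₀` (`Algebra.IsInvariant B₀ R G`), and a ring homomorphism `red : R →+* 𝕜` to a field whose
kernel lies over the maximal ideal of `B₀`.  Let `𝔓 = ker red` and `D = Stab_G(𝔓)`.  If
* `T ∈ D`,
* the primes of `R` over `𝔪` form one orbit under a subgroup `H₀` (e.g. `R^{H₀}` is contained in a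
  local ring integral over `B₀`),
* `H₀` normalises `⟨T⟩` and the normal closure of `T` is `G`,
then `D = G`, `𝔓` is the unique prime of `R` over `𝔪`, `R` is local, and for every `x : R` whose
distinct conjugates have distinct reductions, the polynomial `∏_{y ∈ G x} (X - y) ∈ B₀[X]` has an
irreducible and separable reduction modulo `𝔪`.

In the application `R = B₀[τ_v]` is generated by the normalised `x`-coordinates of the `M`-torsion
points of the Tate curve, `red` is the coefficientwise reduction of `Q`-expansions, `T` is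
`Q ↦ ζ Q`, `H₀` is the image of `Γ₀(M)`.
-/
import Mathlib

set_option autoImplicit false
set_option linter.unusedSectionVars false
set_option linter.style.haveILetI false

noncomputable section

namespace Fermat.Agent.S48lib.X1.Igusa

open scoped Pointwise
open Polynomial IsLocalRing

variable {B₀ R 𝕜 : Type*} [CommRing B₀] [IsLocalRing B₀] [CommRing R] [Algebra B₀ R]
  {G : Type*} [Group G] [Finite G] [MulSemiringAction G R] [SMulCommClass G B₀ R]
  [Algebra.IsInvariant B₀ R G] [Field 𝕜]

/-- the hypotheses of the abstract Igusa argument -/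
structure Setup (B₀ : Type*) {R 𝕜 : Type*} [CommRing B₀] [IsLocalRing B₀] [CommRing R]
    [Algebra B₀ R] {G : Type*} [Group G] [MulSemiringAction G R] [Field 𝕜]
    (red : R →+* 𝕜) (T : G) (H₀ : Subgroup G) : Prop where
  /-- the kernel of `red` lies over the maximal ideal -/
  red_eq_zero_iff : ∀ b : B₀, red (algebraMap B₀ R b) = 0 ↔ b ∈ maximalIdeal B₀
  /-- `T` stabilises the kernel of `red` -/
  smul_ker : T • RingHom.ker red = RingHom.ker red
  /-- the primes over `𝔪` form one `H₀`-orbit -/
  orbit : ∀ Q : Ideal R, Q.IsPrime → Q.under B₀ = maximalIdeal B₀ →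
    ∃ h ∈ H₀, Q = h • RingHom.ker red
  /-- `H₀` normalises `⟨T⟩` -/
  norm : ∀ h ∈ H₀, h * T * h⁻¹ ∈ Subgroup.zpowers T
  /-- the normal closure of `T` is everything -/
  gen : Subgroup.normalClosure {T} = ⊤

variable {red : R →+* 𝕜} {T : G} {H₀ : Subgroup G}

namespace Setup

variable (S : Setup B₀ red T H₀)
include S

theorem under_ker : (RingHom.ker red).under B₀ = maximalIdeal B₀ := by
  ext b
  rw [Ideal.under_def, Ideal.mem_comap, RingHom.mem_ker]
  exact S.red_eq_zero_iff b

/-- **`D = G`** -/
theorem stabilizer_eq_top : MulAction.stabilizer G (RingHom.ker red) = ⊤ := by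
  set 𝔓 := RingHom.ker red with h𝔓
  set D := MulAction.stabilizer G 𝔓 with hD
  have hTD : T ∈ D := S.smul_ker
  -- `G = H₀ D`
  have hdec : ∀ g : G, ∃ h ∈ H₀, h⁻¹ * g ∈ D := by
    intro g
    have hprime : (g • 𝔓).IsPrime := (RingHom.ker_isPrime red).smul g
    have hunder : (g • 𝔓).under B₀ = maximalIdeal B₀ := by
      rw [Ideal.under_smul]; exact S.under_ker
    obtain ⟨h, hh, e⟩ := S.orbit (g • 𝔓) hprime hunder
    refine ⟨h, hh, ?_⟩
    rw [hD, MulAction.mem_stabilizer_iff, mul_smul, e, inv_smul_smul]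
  -- all conjugates of `T` lie in `D`
  have hconj : ∀ g : G, g * T * g⁻¹ ∈ D := by
    intro g
    obtain ⟨h, hh, hd⟩ := hdec g⁻¹
    -- `g = d⁻¹ h⁻¹` with `d = h⁻¹ g⁻¹ ∈ D`
    set d := h⁻¹ * g⁻¹ with hd'
    have hg : g = d⁻¹ * h⁻¹ := by rw [hd']; group
    have h1 : h⁻¹ * T * h⁻¹⁻¹ ∈ Subgroup.zpowers T := S.norm h⁻¹ (H₀.inv_mem hh)
    have h2 : h⁻¹ * T * h⁻¹⁻¹ ∈ D := (Subgroup.zpowers_le.mpr hTD) h1
    have h3 : d⁻¹ * (h⁻¹ * T * h⁻¹⁻¹) * d⁻¹⁻¹ ∈ D :=
      D.mul_mem (D.mul_mem (D.inv_mem hd) h2) (D.inv_mem (D.inv_mem hd))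
    have e : g * T * g⁻¹ = d⁻¹ * (h⁻¹ * T * h⁻¹⁻¹) * d⁻¹⁻¹ := by rw [hg]; group
    rw [e]; exact h3
  have hle : Subgroup.normalClosure {T} ≤ D := by
    rw [Subgroup.normalClosure]
    refine (Subgroup.closure_le D).mpr ?_
    intro y hy
    rw [Group.mem_conjugatesOfSet_iff] at hy
    obtain ⟨a, ha, hc⟩ := hy
    rw [Set.mem_singleton_iff] at ha
    subst ha
    obtain ⟨c, rfl⟩ := isConj_iff.mp hc
    exact hconj c
  rw [S.gen] at hle
  exact top_le_iff.mp hle

theorem smul_ker_eq (g : G) : g • RingHom.ker red = RingHom.ker red := by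
  have : g ∈ MulAction.stabilizer G (RingHom.ker red) := by
    rw [S.stabilizer_eq_top]; trivial
  exact this

/-- `red (g • r) = 0 ↔ red r = 0` -/
theorem red_smul_eq_zero_iff (g : G) (r : R) : red (g • r) = 0 ↔ red r = 0 := by
  rw [← RingHom.mem_ker, ← RingHom.mem_ker]
  conv_lhs => rw [← S.smul_ker_eq g]
  exact Ideal.smul_mem_pointwise_smul_iff

/-- **the kernel of `red` is the unique prime over `𝔪`** -/
theorem eq_ker_of_under_eq (Q : Ideal R) [hQ : Q.IsPrime] (h : Q.under B₀ = maximalIdeal B₀) :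
    Q = RingHom.ker red := by
  obtain ⟨g, -, e⟩ := S.orbit Q hQ h
  rw [e, S.smul_ker_eq]

theorem isMaximal_ker : (RingHom.ker red).IsMaximal := by
  haveI := Algebra.IsInvariant.isIntegral B₀ R G
  haveI : (RingHom.ker red).IsPrime := RingHom.ker_isPrime red
  apply Ideal.isMaximal_of_isIntegral_of_isMaximal_comap (R := B₀)
  have := S.under_ker
  rw [Ideal.under_def] at this
  rw [this]
  exact maximalIdeal.isMaximal B₀

/-- **`R` is local** -/
theorem isLocalRing : IsLocalRing R := by
  haveI := Algebra.IsInvariant.isIntegral B₀ R G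
  refine IsLocalRing.of_unique_max_ideal ⟨RingHom.ker red, S.isMaximal_ker, ?_⟩
  intro M hM
  haveI : M.IsPrime := hM.isPrime
  apply S.eq_ker_of_under_eq M
  have h1 : (M.comap (algebraMap B₀ R)).IsMaximal :=
    Ideal.isMaximal_comap_of_isIntegral_of_isMaximal M
  exact IsLocalRing.eq_maximalIdeal h1

end Setup

/-! ### the orbit polynomial -/

section OrbitPoly

variable (G)

/-- the (finite) set of conjugates of `x` -/
def conjSet (x : R) : Finset R :=
  haveI := Fintype.ofFinite G
  haveI := Classical.decEq R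
  Finset.univ.image fun g : G => g • x

variable {G}

theorem mem_conjSet {x y : R} : y ∈ conjSet G x ↔ ∃ g : G, g • x = y := by
  classical
  simp [conjSet]

theorem self_mem_conjSet (x : R) : x ∈ conjSet G x := mem_conjSet.mpr ⟨1, one_smul G x⟩

theorem smul_mem_conjSet (g : G) {x y : R} (hy : y ∈ conjSet G x) : g • y ∈ conjSet G x := by
  obtain ⟨a, rfl⟩ := mem_conjSet.mp hy
  exact mem_conjSet.mpr ⟨g * a, mul_smul g a x⟩

variable (G)

/-- the orbit polynomial `∏_{y ∈ G x} (X - y)` -/
def conjPoly (x : R) : R[X] := ∏ y ∈ conjSet G x, (X - C y)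

variable {G}

theorem conjPoly_monic (x : R) : (conjPoly G x).Monic :=
  monic_prod_of_monic _ _ fun _ _ => monic_X_sub_C _

theorem natDegree_conjPoly [Nontrivial R] (x : R) :
    (conjPoly G x).natDegree = (conjSet G x).card := by
  rw [conjPoly, natDegree_prod_of_monic _ _ fun _ _ => monic_X_sub_C _]
  simp

theorem eval_conjPoly {x y : R} (hy : y ∈ conjSet G x) : (conjPoly G x).eval y = 0 := by
  rw [conjPoly, eval_prod]
  exact Finset.prod_eq_zero hy (by simp)

theorem smul_conjPoly (g : G) (x : R) : g • conjPoly G x = conjPoly G x := by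
  classical
  rw [conjPoly, Finset.smul_prod']
  have : ∀ y : R, g • (X - C y : R[X]) = X - C (g • y) := fun y => by
    rw [smul_sub, smul_X, smul_C]
  simp only [this]
  refine Finset.prod_bij (fun y _ => g • y) (fun y hy => smul_mem_conjSet g hy)
    (fun y _ z _ h => MulAction.injective g h) (fun z hz => ?_) (fun _ _ => rfl)
  refine ⟨g⁻¹ • z, smul_mem_conjSet g⁻¹ hz, ?_⟩
  simp

/-- the orbit polynomial has coefficients in `B₀` -/
theorem exists_conjPoly_lift (x : R) :
    ∃ P₀ : B₀[X], P₀.map (algebraMap B₀ R) = conjPoly G x ∧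
      P₀.natDegree = (conjPoly G x).natDegree ∧ P₀.Monic := by
  refine lifts_and_natDegree_eq_and_monic ?_ (conjPoly_monic x)
  rw [lifts_iff_coeff_lifts]
  intro n
  have h : ∀ g : G, g • (conjPoly G x).coeff n = (conjPoly G x).coeff n := fun g => by
    rw [← coeff_smul, smul_conjPoly]
  obtain ⟨a, ha⟩ := Algebra.IsInvariant.isInvariant (A := B₀) (G := G) _ h
  exact ⟨a, ha⟩

end OrbitPoly

/-! ### irreducibility of the reduction -/

namespace Setup

variable (S : Setup B₀ red T H₀)
include S

/-- the map induced by `red` on the residue field of `B₀` -/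
def resHom : ResidueField B₀ →+* 𝕜 :=
  Ideal.Quotient.lift (maximalIdeal B₀) (red.comp (algebraMap B₀ R)) fun b hb => by
    rw [RingHom.comp_apply]; exact (S.red_eq_zero_iff b).mpr hb

theorem resHom_residue (b : B₀) : S.resHom (residue B₀ b) = red (algebraMap B₀ R b) := rfl

theorem map_map_resHom (P₀ : B₀[X]) :
    (P₀.map (residue B₀)).map S.resHom = (P₀.map (algebraMap B₀ R)).map red := by
  rw [Polynomial.map_map, Polynomial.map_map]
  congr 1

theorem red_aeval_smul_eq_zero (M₀ : B₀[X]) (x : R) (h : red (aeval x M₀) = 0) (g : G) :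
    red (aeval (g • x) M₀) = 0 := by
  have e : aeval (g • x) M₀ = g • aeval x M₀ := by
    rw [aeval_def, aeval_def, eval₂_eq_sum_range, eval₂_eq_sum_range, Finset.smul_sum]
    refine Finset.sum_congr rfl fun i _ => ?_
    rw [smul_mul', smul_pow', smul_algebraMap]
  rw [e, S.red_smul_eq_zero_iff]
  exact h

/-- **Irreducibility and separability of the reduced orbit polynomial.** -/
theorem irreducible_and_separable (x : R) (P₀ : B₀[X])
    (hP₀ : P₀.map (algebraMap B₀ R) = conjPoly G x) (hmonic : P₀.Monic)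
    (hinj : ∀ y ∈ conjSet G x, ∀ z ∈ conjSet G x, red y = red z → y = z) :
    Irreducible (P₀.map (residue B₀)) ∧ (P₀.map (residue B₀)).Separable := by
  classical
  haveI : Nontrivial R := red.domain_nontrivial
  set q := P₀.map (residue B₀) with hq
  have hqmonic : q.Monic := hmonic.map _
  -- the image of `q` in `𝕜[X]`
  have hqmap : q.map S.resHom = ∏ y ∈ conjSet G x, (X - C (red y)) := by
    rw [hq, S.map_map_resHom, hP₀, conjPoly, Polynomial.map_prod]
    refine Finset.prod_congr rfl fun y _ => ?_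
    rw [Polynomial.map_sub, map_X, map_C]
  have hdeg : q.natDegree = (conjSet G x).card := by
    rw [hq, hmonic.natDegree_map, ← natDegree_conjPoly (G := G) x, ← hP₀,
      hmonic.natDegree_map]
  -- separability
  have hsep : q.Separable := by
    rw [← separable_map S.resHom, hqmap]
    have : (∏ y ∈ conjSet G x, (X - C (red y)) : 𝕜[X]) =
        ∏ y : conjSet G x, (X - C (red (y : R))) := by
      rw [← Finset.prod_coe_sort]
    rw [this, separable_prod_X_sub_C_iff]
    intro y z h
    exact Subtype.ext (hinj y y.2 z z.2 h)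
  refine ⟨?_, hsep⟩
  -- `𝕜` as an algebra over the residue field
  letI : Algebra (ResidueField B₀) 𝕜 := S.resHom.toAlgebra
  have halg : algebraMap (ResidueField B₀) 𝕜 = S.resHom := rfl
  set ξ : 𝕜 := red x with hξ
  have hroot : aeval ξ q = 0 := by
    rw [aeval_def, ← eval_map, halg, hqmap, eval_prod]
    exact Finset.prod_eq_zero (self_mem_conjSet x) (by simp [hξ])
  have hint : IsIntegral (ResidueField B₀) ξ := ⟨q, hqmonic, hroot⟩
  set m := minpoly (ResidueField B₀) ξ with hm
  have hmdvd : m ∣ q := minpoly.dvd _ _ hroot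
  -- lift `m` to `B₀[X]`
  obtain ⟨M₀, hM₀⟩ := Polynomial.map_surjective (residue B₀) residue_surjective m
  have hredM₀ : ∀ y : R, red (aeval y M₀) = eval (red y) (m.map S.resHom) := by
    intro y
    rw [← hM₀, S.map_map_resHom, eval_map, eval₂_map, aeval_def, hom_eval₂]
  have hx0 : red (aeval x M₀) = 0 := by
    rw [hredM₀, ← halg, eval_map, ← aeval_def]
    exact minpoly.aeval _ _
  -- every conjugate reduces to a root of `m`
  have hroots : ((conjSet G x).image red).val ⊆ (m.map S.resHom).roots := by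
    intro ζ hζ
    rw [Finset.mem_val, Finset.mem_image] at hζ
    obtain ⟨y, hy, rfl⟩ := hζ
    obtain ⟨g, rfl⟩ := mem_conjSet.mp hy
    have hm0 : m.map S.resHom ≠ 0 :=
      (Polynomial.map_ne_zero_iff S.resHom.injective).mpr (minpoly.ne_zero hint)
    rw [mem_roots hm0, IsRoot.def, ← hredM₀]
    exact S.red_aeval_smul_eq_zero M₀ x hx0 g
  have hcard := card_le_degree_of_subset_roots hroots
  rw [Finset.card_image_of_injOn (fun y hy z hz h => hinj y hy z hz h),
    natDegree_map] at hcard
  have hle : q.natDegree ≤ m.natDegree := by rw [hdeg]; exact hcard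
  have hqm : q = m :=
    eq_of_monic_of_dvd_of_natDegree_le (minpoly.monic hint) hqmonic hmdvd hle
  rw [hqm]
  exact minpoly.irreducible hint

/-- the orbit polynomial is irreducible over the fraction field -/
theorem irreducible_map_fraction [IsDomain B₀] [IsIntegrallyClosed B₀] (K₀ : Type*) [Field K₀]
    [Algebra B₀ K₀] [IsFractionRing B₀ K₀] (x : R) (P₀ : B₀[X])
    (hP₀ : P₀.map (algebraMap B₀ R) = conjPoly G x) (hmonic : P₀.Monic)
    (hinj : ∀ y ∈ conjSet G x, ∀ z ∈ conjSet G x, red y = red z → y = z) :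
    Irreducible (P₀.map (algebraMap B₀ K₀)) := by
  have h1 := (S.irreducible_and_separable x P₀ hP₀ hmonic hinj).1
  have h2 : Irreducible P₀ := hmonic.irreducible_of_irreducible_map (residue B₀) P₀ h1
  exact (Monic.irreducible_iff_irreducible_map_fraction_map hmonic).mp h2

end Setup

end Fermat.Agent.S48lib.X1.Igusa
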