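/-
S48lib / X1 / Igusa / Hyps  (lead)

Convenient forms of the hypotheses of `Igusa.Setup`:
* `smul_ker_eq_of_forall`: `T` stabilises `ker red` as soon as `red r = 0 → red (T • r) = 0`;
* `exists_smul_of_fixed`: two primes of `R` containing the same `H₀`-invariant elements are
  `H₀`-conjugate;
* `eq_under_maximalIdeal`: if `B₀ → C → O` with `O` local and integral over `B₀`, `C → O` injective,
  then `C` has a unique prime over `𝔪`;
* `Setup.of_forall`: the constructor from these forms.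
-/
import Mathlib
import Fermat.Agent.S48lib.X1.Igusa.Abstract

set_option autoImplicit false
set_option linter.unusedSectionVars false
set_option linter.style.haveILetI false

noncomputable section

namespace Fermat.Agent.S48lib.X1.Igusa

open scoped Pointwise
open Polynomial IsLocalRing

variable {B₀ R 𝕜 : Type*} [CommRing B₀] [IsLocalRing B₀] [CommRing R] [Algebra B₀ R]
  {G : Type*} [Group G] [Finite G] [MulSemiringAction G R] [SMulCommClass G B₀ R]
  [Algebra.IsInvariant B₀ R G] [Field 𝕜]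

theorem smul_ideal_eq_of_le_inv_smul (g : G) (P : Ideal R) (h : P ≤ g⁻¹ • P) : g • P = P := by
  have h1 : g⁻¹ • P = P := smul_eq_of_le_smul h
  rw [← h1, smul_inv_smul, h1]

theorem smul_ker_eq_of_forall (red : R →+* 𝕜) (T : G)
    (hT : ∀ r : R, red r = 0 → red (T • r) = 0) : T • RingHom.ker red = RingHom.ker red := by
  apply smul_ideal_eq_of_le_inv_smul
  intro r hr
  rw [Ideal.mem_inv_pointwise_smul_iff, RingHom.mem_ker]
  exact hT r hr

/-- two primes containing the same `H₀`-invariant elements are `H₀`-conjugate -/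
theorem exists_smul_of_fixed (H₀ : Subgroup G) (P Q : Ideal R) [P.IsPrime] [Q.IsPrime]
    (h : ∀ r : R, (∀ a ∈ H₀, a • r = r) → (r ∈ P ↔ r ∈ Q)) : ∃ a ∈ H₀, Q = a • P := by
  letI : Algebra.IsInvariant (FixedPoints.subring R H₀) R H₀ :=
    ⟨fun b hb => ⟨⟨b, hb⟩, rfl⟩⟩
  haveI : SMulCommClass H₀ (FixedPoints.subring R H₀) R :=
    ⟨fun a c r => by
      show a • ((c : R) * r) = (c : R) * a • r
      rw [smul_mul', c.2 a]⟩
  have hPQ : P.under (FixedPoints.subring R H₀) = Q.under (FixedPoints.subring R H₀) := by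
    ext ⟨r, hr⟩
    simp only [Ideal.under_def, Ideal.mem_comap]
    exact h r fun a ha => hr ⟨a, ha⟩
  obtain ⟨a, ha⟩ := Algebra.IsInvariant.exists_smul_of_under_eq
    (FixedPoints.subring R H₀) R H₀ P Q hPQ
  exact ⟨a, a.2, ha⟩

/-- a ring between a local ring `B₀` and a local ring integral over `B₀` has a unique prime over
the maximal ideal -/
theorem eq_under_maximalIdeal {C O : Type*} [CommRing C] [CommRing O] [IsLocalRing O]
    [Algebra B₀ C] [Algebra C O] [Algebra B₀ O] [IsScalarTower B₀ C O] [Algebra.IsIntegral B₀ O]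
    (hinj : Function.Injective (algebraMap C O)) (𝔮 : Ideal C) [𝔮.IsPrime]
    (h : 𝔮.under B₀ = maximalIdeal B₀) : 𝔮 = (maximalIdeal O).under C := by
  haveI : Algebra.IsIntegral C O := Algebra.IsIntegral.tower_top (R := B₀)
  obtain ⟨𝔔, -, h𝔔prime, h𝔔⟩ := Ideal.exists_ideal_over_prime_of_isIntegral 𝔮 (⊥ : Ideal O) (by
    rw [Ideal.comap_bot_of_injective _ hinj]; exact bot_le)
  haveI := h𝔔prime
  have h1 : 𝔔.comap (algebraMap B₀ O) = maximalIdeal B₀ := by
    rw [IsScalarTower.algebraMap_eq B₀ C O, ← Ideal.comap_comap, h𝔔]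
    exact h
  have h2 : 𝔔.IsMaximal :=
    Ideal.isMaximal_of_isIntegral_of_isMaximal_comap (R := B₀) 𝔔
      (h1 ▸ maximalIdeal.isMaximal B₀)
  rw [Ideal.under_def, ← IsLocalRing.eq_maximalIdeal h2, h𝔔]

/-- the constructor of `Setup` from the convenient forms -/
theorem Setup.of_forall (red : R →+* 𝕜) (T : G) (H₀ : Subgroup G)
    (hred : ∀ b : B₀, red (algebraMap B₀ R b) = 0 ↔ b ∈ maximalIdeal B₀)
    (hT : ∀ r : R, red r = 0 → red (T • r) = 0)
    (hfix : ∀ Q : Ideal R, Q.IsPrime → Q.under B₀ = maximalIdeal B₀ →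
      ∀ r : R, (∀ a ∈ H₀, a • r = r) → (r ∈ Q ↔ red r = 0))
    (hnorm : ∀ h ∈ H₀, h * T * h⁻¹ ∈ Subgroup.zpowers T)
    (hgen : Subgroup.normalClosure {T} = ⊤) : Setup B₀ red T H₀ where
  red_eq_zero_iff := hred
  smul_ker := smul_ker_eq_of_forall red T hT
  orbit := by
    intro Q hQ hQ𝔪
    haveI := hQ
    haveI : (RingHom.ker red).IsPrime := RingHom.ker_isPrime red
    refine exists_smul_of_fixed H₀ (RingHom.ker red) Q fun r hr => ?_
    rw [RingHom.mem_ker]
    exact (hfix Q hQ hQ𝔪 r hr).symm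
  norm := hnorm
  gen := hgen

end Fermat.Agent.S48lib.X1.Igusa
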