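/-
S48lib / X1 / Igusa / Field  (lead)

The field-level form of the abstract Igusa argument, in the shape the instance file consumes:
`Ω/K₀` a field extension with a finite group `G` acting, `Ω^G = K₀`, `B₀ ⊆ K₀` an integrally closed
local domain with fraction field `K₀`, `V ⊆ Ω` a finite `G`-stable set of elements integral over
`B₀`, `R = B₀[V]`, a subring `S ⊇ R` of `Ω` with a reduction `redS : S →+* 𝕜`.
-/
import Mathlib
import Fermat.Agent.S48lib.X1.Igusa.Hyps

set_option autoImplicit false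
set_option linter.unusedSectionVars false
set_option linter.style.haveILetI false

noncomputable section

namespace Fermat.Agent.S48lib.X1.Igusa

open scoped Pointwise
open Polynomial IsLocalRing

variable {B₀ K₀ Ω 𝕜 : Type*} [CommRing B₀] [Field K₀] [Algebra B₀ K₀] [Field Ω] [Algebra K₀ Ω]
  [Algebra B₀ Ω] [IsScalarTower B₀ K₀ Ω]
  {G : Type*} [Group G] [MulSemiringAction G Ω] [SMulCommClass G K₀ Ω]

variable (K₀) in
include K₀ in
/-- `G` commutes with the `B₀`-action -/
theorem smulCommClass_base : SMulCommClass G B₀ Ω :=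
  ⟨fun g b x => by
    rw [← algebraMap_smul K₀ b x, ← algebraMap_smul K₀ b (g • x), smul_comm]⟩

/-! ### the action on a stable subalgebra -/

/-- the action of `G` on a `G`-stable subalgebra -/
@[instance_reducible]
def stableAction (R : Subalgebra B₀ Ω) (hR : ∀ (g : G) (x : Ω), x ∈ R → g • x ∈ R) :
    MulSemiringAction G R where
  smul g x := ⟨g • (x : Ω), hR g x x.2⟩
  one_smul x := Subtype.ext (one_smul G (x : Ω))
  mul_smul g h x := Subtype.ext (mul_smul g h (x : Ω))
  smul_zero g := Subtype.ext (smul_zero g)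
  smul_add g x y := Subtype.ext (smul_add g (x : Ω) (y : Ω))
  smul_one g := Subtype.ext (smul_one g)
  smul_mul g x y := Subtype.ext (MulSemiringAction.smul_mul g (x : Ω) (y : Ω))

theorem coe_stableAction_smul (R : Subalgebra B₀ Ω) (hR : ∀ (g : G) (x : Ω), x ∈ R → g • x ∈ R)
    (g : G) (x : R) :
    letI := stableAction R hR
    ((g • x : R) : Ω) = g • (x : Ω) := rfl

variable (K₀) in
include K₀ in
theorem stableAction_smulCommClass (R : Subalgebra B₀ Ω)
    (hR : ∀ (g : G) (x : Ω), x ∈ R → g • x ∈ R) :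
    letI := stableAction R hR
    SMulCommClass G B₀ R := by
  letI := stableAction R hR
  haveI := smulCommClass_base (B₀ := B₀) K₀ (Ω := Ω) (G := G)
  exact ⟨fun g b x => Subtype.ext (smul_comm g b (x : Ω))⟩

theorem stableAction_isInvariant [IsDomain B₀] [IsIntegrallyClosed B₀] [IsFractionRing B₀ K₀]
    [Algebra.IsInvariant K₀ Ω G] (R : Subalgebra B₀ Ω)
    (hR : ∀ (g : G) (x : Ω), x ∈ R → g • x ∈ R) (hint : ∀ x ∈ R, IsIntegral B₀ x) :
    letI := stableAction R hR
    Algebra.IsInvariant B₀ R G := by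
  letI := stableAction R hR
  refine ⟨fun r hr => ?_⟩
  have hfix : ∀ g : G, g • (r : Ω) = r := fun g => congrArg Subtype.val (hr g)
  obtain ⟨a, ha⟩ := Algebra.IsInvariant.isInvariant (A := K₀) (G := G) (r : Ω) hfix
  have hai : IsIntegral B₀ a := by
    have h1 : IsIntegral B₀ (algebraMap K₀ Ω a) := ha ▸ hint r r.2
    exact (isIntegral_algebraMap_iff (algebraMap K₀ Ω).injective).mp h1
  obtain ⟨b, hb⟩ := IsIntegrallyClosed.isIntegral_iff.mp hai
  refine ⟨b, Subtype.ext ?_⟩
  show algebraMap B₀ Ω b = r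
  rw [IsScalarTower.algebraMap_apply B₀ K₀ Ω, hb, ha]

/-! ### adjoining a finite stable set -/

variable (K₀) in
include K₀ in
theorem adjoin_stable (V : Set Ω) (hV : ∀ (g : G), ∀ v ∈ V, g • v ∈ V) (g : G) (x : Ω)
    (hx : x ∈ Algebra.adjoin B₀ V) : g • x ∈ Algebra.adjoin B₀ V := by
  haveI := smulCommClass_base (B₀ := B₀) K₀ (Ω := Ω) (G := G)
  induction hx using Algebra.adjoin_induction with
  | mem v hv => exact Algebra.subset_adjoin (hV g v hv)
  | algebraMap b => rw [smul_algebraMap]; exact Subalgebra.algebraMap_mem _ b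
  | add x y _ _ hx hy => rw [smul_add]; exact add_mem hx hy
  | mul x y _ _ hx hy => rw [smul_mul']; exact mul_mem hx hy

theorem adjoin_isIntegral (V : Set Ω) (hV : ∀ v ∈ V, IsIntegral B₀ v) :
    ∀ x ∈ Algebra.adjoin B₀ V, IsIntegral B₀ x := by
  intro x hx
  have h : Algebra.adjoin B₀ V ≤ integralClosure B₀ Ω := Algebra.adjoin_le hV
  exact h hx


/-! ### uniqueness of the prime of the `H₀`-invariants over `𝔪` -/

section Fixed

variable {R : Type*} [CommRing R] [Algebra B₀ R] [IsLocalRing B₀] [MulSemiringAction G R]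
  [SMulCommClass G B₀ R]

/-- if the `H₀`-invariants of `R` embed (compatibly with `B₀`) into a local ring `O` integral over
`B₀`, then any two primes of `R` over `𝔪` contain the same `H₀`-invariant elements -/
theorem mem_iff_mem_of_fixed_le_local (H₀ : Subgroup G) {O : Type*} [CommRing O] [IsLocalRing O]
    [Algebra B₀ O] [Algebra.IsIntegral B₀ O] (f : FixedPoints.subring R H₀ →+* O)
    (hf : Function.Injective f)
    (hfB : ∀ (b : B₀) (hb : algebraMap B₀ R b ∈ FixedPoints.subring R H₀),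
      f ⟨algebraMap B₀ R b, hb⟩ = algebraMap B₀ O b)
    (Q Q' : Ideal R) [Q.IsPrime] [Q'.IsPrime] (hQ : Q.under B₀ = maximalIdeal B₀)
    (hQ' : Q'.under B₀ = maximalIdeal B₀) (r : R) (hr : ∀ a ∈ H₀, a • r = r) :
    r ∈ Q ↔ r ∈ Q' := by
  have hBC : ∀ b : B₀, algebraMap B₀ R b ∈ FixedPoints.subring R H₀ :=
    fun b a => smul_algebraMap a b
  letI : Algebra B₀ (FixedPoints.subring R H₀) :=
    ((algebraMap B₀ R).codRestrict (FixedPoints.subring R H₀) hBC).toAlgebra
  letI : Algebra (FixedPoints.subring R H₀) O := f.toAlgebra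
  haveI : IsScalarTower B₀ (FixedPoints.subring R H₀) O :=
    IsScalarTower.of_algebraMap_eq fun b => (hfB b (hBC b)).symm
  have hf' : Function.Injective (algebraMap (FixedPoints.subring R H₀) O) := hf
  have key : ∀ (P : Ideal R) [P.IsPrime], P.under B₀ = maximalIdeal B₀ →
      P.comap (FixedPoints.subring R H₀).subtype =
        (maximalIdeal O).under (FixedPoints.subring R H₀) := by
    intro P _ hP
    apply eq_under_maximalIdeal (B₀ := B₀) hf'
    ext b
    simp only [Ideal.under_def, Ideal.mem_comap] at hP ⊢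
    rw [← hP]
    rfl
  have h1 := key Q hQ
  have h2 := key Q' hQ'
  have hrC : r ∈ FixedPoints.subring R H₀ := fun a => hr a.1 a.2
  have e : Q.comap (FixedPoints.subring R H₀).subtype =
      Q'.comap (FixedPoints.subring R H₀).subtype := h1.trans h2.symm
  have := congrArg (fun I : Ideal (FixedPoints.subring R H₀) =>
    (⟨r, hrC⟩ : FixedPoints.subring R H₀) ∈ I) e
  simpa [Ideal.mem_comap] using this

end Fixed

/-! ### the main theorem -/

section Main

variable [IsDomain B₀] [IsLocalRing B₀] [IsIntegrallyClosed B₀] [IsFractionRing B₀ K₀]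
  [Finite G] [Algebra.IsInvariant K₀ Ω G] [Field 𝕜]

/-- **Igusa, field form.**  `V ⊆ S ⊆ Ω`, `V` a `G`-stable set of integral elements, `R = B₀[V]`,
`redS : S →+* 𝕜` with kernel over `𝔪`, `T` preserving the kernel of `redS` on `R`, the `H₀`-invariants
of `R` inside (the image of) a local ring `O` integral over `B₀`, `H₀` normalising `⟨T⟩`, and the
normal closure of `T` everything.  Then for every `x ∈ R` whose distinct conjugates have distinct
reductions, the minimal polynomial of `x` over `K₀` has coefficients in `B₀`, and its reduction is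
irreducible and separable of the same degree `= #(G x)`. -/
theorem igusa_field (V : Set Ω) (hVst : ∀ g : G, ∀ v ∈ V, g • v ∈ V)
    (hVint : ∀ v ∈ V, IsIntegral B₀ v)
    (S : Subring Ω) (redS : S →+* 𝕜) (hBS : ∀ b : B₀, algebraMap B₀ Ω b ∈ S)
    (hred : ∀ b : B₀, redS ⟨algebraMap B₀ Ω b, hBS b⟩ = 0 ↔ b ∈ maximalIdeal B₀)
    (hRS : ∀ x ∈ Algebra.adjoin B₀ V, x ∈ S)
    (T : G) (hT : ∀ (x : Ω) (hx : x ∈ Algebra.adjoin B₀ V) (hTx : T • x ∈ Algebra.adjoin B₀ V),
      redS ⟨x, hRS x hx⟩ = 0 → redS ⟨T • x, hRS _ hTx⟩ = 0)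
    (H₀ : Subgroup G) {O : Type*} [CommRing O] [IsLocalRing O] [Algebra B₀ O]
    [Algebra.IsIntegral B₀ O] (ιO : O →+* Ω) (hιO : Function.Injective ιO)
    (hιB : ∀ b : B₀, ιO (algebraMap B₀ O b) = algebraMap B₀ Ω b)
    (hW : ∀ r ∈ Algebra.adjoin B₀ V, (∀ a ∈ H₀, a • r = r) → r ∈ Set.range ιO)
    (hnorm : ∀ h ∈ H₀, h * T * h⁻¹ ∈ Subgroup.zpowers T)
    (hgen : Subgroup.normalClosure {T} = ⊤)
    (x : Ω) (hx : x ∈ Algebra.adjoin B₀ V)
    (hxS : ∀ g : G, g • x ∈ S)
    (hinj : ∀ g g' : G, redS ⟨g • x, hxS g⟩ = redS ⟨g' • x, hxS g'⟩ → g • x = g' • x) :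
    ∃ P₀ : B₀[X], P₀.Monic ∧ P₀.map (algebraMap B₀ K₀) = minpoly K₀ x ∧
      P₀.map (algebraMap B₀ Ω) = conjPoly G x ∧ P₀.natDegree = (conjSet G x).card ∧
      Irreducible (P₀.map (residue B₀)) ∧ (P₀.map (residue B₀)).Separable := by
  classical
  set R : Subalgebra B₀ Ω := Algebra.adjoin B₀ V with hR
  have hRst : ∀ (g : G) (y : Ω), y ∈ R → g • y ∈ R := adjoin_stable K₀ V hVst
  have hRint : ∀ y ∈ R, IsIntegral B₀ y := adjoin_isIntegral V hVint
  letI : MulSemiringAction G R := stableAction R hRst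
  haveI : SMulCommClass G B₀ R := stableAction_smulCommClass K₀ R hRst
  haveI : Algebra.IsInvariant B₀ R G := stableAction_isInvariant (K₀ := K₀) R hRst hRint
  -- the reduction on `R`
  let incl : R →+* S :=
    { toFun := fun r => ⟨r, hRS r r.2⟩
      map_one' := rfl
      map_mul' := fun _ _ => rfl
      map_zero' := rfl
      map_add' := fun _ _ => rfl }
  let redR : R →+* 𝕜 := redS.comp incl
  have hredR : ∀ r : R, redR r = redS ⟨r, hRS r r.2⟩ := fun _ => rfl
  -- the map from the invariants to `O`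
  let e : O ≃+* ιO.range := RingEquiv.ofBijective ιO.rangeRestrict
    ⟨fun a b h => hιO (congrArg Subtype.val h), ιO.rangeRestrict_surjective⟩
  have he : ∀ o : O, ((e o : ιO.range) : Ω) = ιO o := fun _ => rfl
  let toΩ : FixedPoints.subring R H₀ →+* Ω := R.val.toRingHom.comp (FixedPoints.subring R H₀).subtype
  have htoΩ : ∀ c, toΩ c ∈ ιO.range := by
    intro c
    obtain ⟨o, ho⟩ := hW (c : R) (c : R).2 (fun a ha => congrArg Subtype.val (c.2 ⟨a, ha⟩))
    exact ⟨o, ho⟩
  let f : FixedPoints.subring R H₀ →+* O :=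
    e.symm.toRingHom.comp (toΩ.codRestrict ιO.range htoΩ)
  have hf_spec : ∀ c, ιO (f c) = ((c : R) : Ω) := by
    intro c
    have : e (f c) = toΩ.codRestrict ιO.range htoΩ c := e.apply_symm_apply _
    rw [← he, this]
    rfl
  have hf : Function.Injective f := by
    intro c c' h
    have := congrArg ιO h
    rw [hf_spec, hf_spec] at this
    exact Subtype.ext (Subtype.ext this)
  have hfB : ∀ (b : B₀) (hb : algebraMap B₀ R b ∈ FixedPoints.subring R H₀),
      f ⟨algebraMap B₀ R b, hb⟩ = algebraMap B₀ O b := by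
    intro b hb
    apply hιO
    rw [hf_spec, hιB]
    rfl
  -- the setup
  have hsetup : Setup B₀ redR T H₀ := by
    refine Setup.of_forall redR T H₀ ?_ ?_ ?_ hnorm hgen
    · intro b
      exact hred b
    · intro r hr
      exact hT r r.2 (hRst T r r.2) hr
    · intro Q hQ hQ𝔪 r hr
      haveI := hQ
      haveI : (RingHom.ker redR).IsPrime := RingHom.ker_isPrime redR
      have hker : (RingHom.ker redR).under B₀ = maximalIdeal B₀ := by
        ext b
        rw [Ideal.under_def, Ideal.mem_comap, RingHom.mem_ker]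
        exact hred b
      rw [← RingHom.mem_ker]
      exact mem_iff_mem_of_fixed_le_local H₀ f hf hfB Q (RingHom.ker redR) hQ𝔪 hker r hr
  -- the orbit polynomial
  set xR : R := ⟨x, hx⟩ with hxR
  obtain ⟨P₀, hP₀map, hP₀deg, hP₀monic⟩ := exists_conjPoly_lift (B₀ := B₀) (G := G) xR
  have hconj : (conjSet G xR).image Subtype.val = conjSet G x := by
    ext y
    simp only [Finset.mem_image, mem_conjSet]
    constructor
    · rintro ⟨z, ⟨g, rfl⟩, rfl⟩
      exact ⟨g, rfl⟩
    · rintro ⟨g, rfl⟩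
      exact ⟨g • xR, ⟨g, rfl⟩, rfl⟩
  have hcard : (conjSet G xR).card = (conjSet G x).card := by
    rw [← hconj, Finset.card_image_of_injective _ Subtype.val_injective]
  have hpolyΩ : (conjPoly G xR).map (algebraMap R Ω) = conjPoly G x := by
    rw [conjPoly, conjPoly, Polynomial.map_prod, ← hconj,
      Finset.prod_image (fun a _ b _ h => Subtype.val_injective h)]
    refine Finset.prod_congr rfl fun y _ => ?_
    rw [Polynomial.map_sub, map_X, map_C]
    rfl
  have hP₀Ω : P₀.map (algebraMap B₀ Ω) = conjPoly G x := by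
    rw [IsScalarTower.algebraMap_eq B₀ R Ω, ← Polynomial.map_map, hP₀map, hpolyΩ]
  have hinjR : ∀ y ∈ conjSet G xR, ∀ z ∈ conjSet G xR, redR y = redR z → y = z := by
    intro y hy z hz h
    obtain ⟨g, rfl⟩ := mem_conjSet.mp hy
    obtain ⟨g', rfl⟩ := mem_conjSet.mp hz
    exact Subtype.ext (hinj g g' h)
  obtain ⟨hirr, hsep⟩ := hsetup.irreducible_and_separable xR P₀ hP₀map hP₀monic hinjR
  have hirrK := hsetup.irreducible_map_fraction K₀ xR P₀ hP₀map hP₀monic hinjR
  refine ⟨P₀, hP₀monic, ?_, hP₀Ω, ?_, hirr, hsep⟩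
  · refine minpoly.eq_of_irreducible_of_monic hirrK ?_ (hP₀monic.map _)
    rw [aeval_def, eval₂_map, ← IsScalarTower.algebraMap_eq, ← eval_map, hP₀Ω]
    exact eval_conjPoly (self_mem_conjSet x)
  · rw [hP₀deg, natDegree_conjPoly, hcard]

end Main

end Fermat.Agent.S48lib.X1.Igusa
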