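/-
S48lib / X1 / Igusa / OrbitIntegral  (helper8)

Integrality from the orbit polynomial: `Ω/K₀` with a finite group `G`, `Ω^G = K₀`, `B₀ ⊆ K₀`,
`S ⊆ Ω` a subring with `K₀ ∩ S ⊆ B₀`.  If all conjugates of `x` lie in `S` then `x` is integral
over `B₀` (the coefficients of `∏_g (X - g x)` are `G`-invariant and lie in `S`).
-/
import Mathlib

set_option autoImplicit false
set_option linter.unusedSectionVars false
set_option linter.style.haveILetI false

noncomputable section

namespace Fermat.Agent.S48lib.X1.Igusa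

open Polynomial

variable {B₀ K₀ Ω : Type*} [CommRing B₀] [Field K₀] [Algebra B₀ K₀] [Field Ω] [Algebra K₀ Ω]
  [Algebra B₀ Ω] [IsScalarTower B₀ K₀ Ω]
  {G : Type*} [Group G] [Finite G] [MulSemiringAction G Ω] [SMulCommClass G K₀ Ω]
  [Algebra.IsInvariant K₀ Ω G]

theorem isIntegral_of_orbit_mem (S : Subring Ω)
    (hKS : ∀ c : K₀, algebraMap K₀ Ω c ∈ S → c ∈ Set.range (algebraMap B₀ K₀))
    (x : Ω) (hx : ∀ g : G, g • x ∈ S) : IsIntegral B₀ x := by
  classical
  haveI : Fintype G := Fintype.ofFinite G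
  set P : Polynomial Ω := MulSemiringAction.charpoly G x with hP
  -- coefficients of `P` lie in `S`
  have hPS : ∀ n, P.coeff n ∈ S := by
    have h1 : P = (∏ g : G, (X - C (⟨g • x, hx g⟩ : S))).map S.subtype := by
      rw [hP, MulSemiringAction.charpoly_eq, Polynomial.map_prod]
      refine Finset.prod_congr rfl fun g _ => ?_
      rw [Polynomial.map_sub, map_X, map_C]
      rfl
    intro n
    rw [h1, coeff_map]
    exact SetLike.coe_mem _
  -- hence in the image of `B₀`
  have hlift : P ∈ lifts (algebraMap B₀ Ω) := by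
    rw [lifts_iff_coeff_lifts]
    intro n
    obtain ⟨c, hc⟩ := Algebra.IsInvariant.isInvariant (A := K₀) (G := G) (P.coeff n)
      (fun g => MulSemiringAction.smul_coeff_charpoly x n g)
    obtain ⟨b, hb⟩ := hKS c (by rw [hc]; exact hPS n)
    exact ⟨b, by rw [IsScalarTower.algebraMap_apply B₀ K₀ Ω, hb, hc]⟩
  obtain ⟨P₀, hP₀, -, hmonic⟩ :=
    lifts_and_natDegree_eq_and_monic hlift (MulSemiringAction.monic_charpoly G x)
  refine ⟨P₀, hmonic, ?_⟩
  rw [← eval_map, hP₀]
  exact MulSemiringAction.eval_charpoly G x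

end Fermat.Agent.S48lib.X1.Igusa
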