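/-
S48lib / X1 / Igusa / FrameIntegral  (helper8)

A Gauss datum with a frame over a base Gauss datum is FINITE over the base Gauss ring:
`G.O = ⊕ G₁.O · θ_i`, hence every element of `G.O` is integral over `G₁.O`.
(This is the black box "the `X₀(M)` Gauss ring is a valuation ring integral over `B₀`" of the Igusa
argument, K1 §2 step 3.)

* `exists_coeff_of_mem_O` : `f ∈ G.O ⇒ f = Σ c_i θ_i` with `c_i ∈ G₁.O`;
* `isIntegralElem_of_frame` : `f ∈ G.O` is integral over `G₁.O`.
-/
import Mathlib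
import Fermat.Agent.S18lib.Weak.IntegralRed

set_option autoImplicit false
set_option linter.unusedSectionVars false
set_option linter.style.haveILetI false

noncomputable section

namespace Fermat.Agent.S48lib.X1.Igusa

open Polynomial
open Fermat.Agent.S18lib

variable {L : Type*} [Field L] {A : ValuationSubring L}
variable {F₁ : Type*} [Field F₁] [Algebra L F₁]
variable {Fk₁ : Type*} [Field Fk₁] [Algebra (IsLocalRing.ResidueField A) Fk₁]
variable {F : Type*} [Field F] [Algebra L F]
variable {Fk : Type*} [Field Fk] [Algebra (IsLocalRing.ResidueField A) Fk]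
variable [Algebra F₁ F] [IsScalarTower L F₁ F]

/-- a polynomial with coefficients in `A` evaluated at an element of `O` lies in `O` -/
theorem aeval_mem_O (G : GaussDatum A F Fk) {y : F} (hy : y ∈ G.O) (p : L[X])
    (hp : ∀ a, p.coeff a ∈ A) : aeval y p ∈ G.O := by
  rw [aeval_eq_sum_range]
  refine G.O.toSubring.sum_mem fun a _ => ?_
  rw [Algebra.smul_def]
  exact G.O.mul_mem _ _ (G.algebraMap_mem ⟨_, hp a⟩) (G.O.pow_mem hy a)

/-- **the Gauss ring is spanned by the frame over the base Gauss ring** -/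
theorem exists_coeff_of_mem_O (G₁ : GaussDatum A F₁ Fk₁) (G : GaussDatum A F Fk)
    (hO : ∀ x : F₁, algebraMap F₁ F x ∈ G.O ↔ x ∈ G₁.O) (y₁ : F₁) {n : ℕ} (θ : Fin n → F)
    (hfr : WFrame.IsFrameFamily G (algebraMap F₁ F y₁) θ) (f : F) (hf : f ∈ G.O) :
    ∃ c : Fin n → F₁, (∀ i, c i ∈ G₁.O) ∧ f = ∑ i, algebraMap F₁ F (c i) * θ i := by
  classical
  set y : F := algebraMap F₁ F y₁ with hy
  obtain ⟨q, p, hq, hfq⟩ := hfr.exists_repr f
  obtain ⟨c, hc, hcd⟩ := G.exists_const_mul_redF_ne_zero (hfr.aeval_ne_zero hq)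
  -- scaled denominator and numerators
  set q' : L[X] := C c * q with hq'
  set p' : Fin n → L[X] := fun i => C c * p i with hp'
  have hd : aeval y q' = algebraMap L F c * aeval y q := by
    rw [hq', map_mul, aeval_C]
  have hdne : G.redF (aeval y q') ≠ 0 := by rw [hd]; exact hcd
  have hdO : aeval y q' ∈ G.O := G.mem_of_redF_ne_zero hdne
  have hdinv : (aeval y q')⁻¹ ∈ G.O := G.inv_mem_of_redF_ne_zero hdne
  have hd0 : aeval y q' ≠ 0 := by
    intro h0
    rw [h0, G.redF_zero] at hdne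
    exact hdne rfl
  have hfq' : f * aeval y q' = ∑ i, aeval y (p' i) * θ i := by
    rw [hd, mul_left_comm, hfq, Finset.mul_sum]
    refine Finset.sum_congr rfl fun i _ => ?_
    rw [hp', map_mul, aeval_C, mul_assoc]
  have hsum : ∑ i, aeval y (p' i) * θ i ∈ G.O := by
    rw [← hfq']; exact G.O.mul_mem _ _ hf hdO
  have hcoeff : ∀ i a, (p' i).coeff a ∈ A := fun i a =>
    hfr.coeff_mem_of_sum_aeval_mem p' hsum i a
  have hnum : ∀ i, aeval y (p' i) ∈ G.O := fun i => aeval_mem_O G hfr.y_mem (p' i) (hcoeff i)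
  refine ⟨fun i => aeval y₁ (p' i) / aeval y₁ q', fun i => ?_, ?_⟩
  · rw [← hO, map_div₀, ← aeval_algebraMap_apply, ← aeval_algebraMap_apply, div_eq_mul_inv]
    exact G.O.mul_mem _ _ (hnum i) hdinv
  · have h1 : f = (∑ i, aeval y (p' i) * θ i) / aeval y q' := by
      rw [← hfq', mul_div_cancel_right₀ _ hd0]
    rw [h1, Finset.sum_div]
    refine Finset.sum_congr rfl fun i _ => ?_
    rw [map_div₀, ← aeval_algebraMap_apply, ← aeval_algebraMap_apply]
    ring

/-- **the Gauss ring is integral over the base Gauss ring** -/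
theorem isIntegralElem_of_frame (G₁ : GaussDatum A F₁ Fk₁) (G : GaussDatum A F Fk)
    (hO : ∀ x : F₁, algebraMap F₁ F x ∈ G.O ↔ x ∈ G₁.O) (y₁ : F₁) {n : ℕ} (θ : Fin n → F)
    (hfr : WFrame.IsFrameFamily G (algebraMap F₁ F y₁) θ) (f : F) (hf : f ∈ G.O) :
    ((algebraMap F₁ F).comp G₁.O.subtype).IsIntegralElem f := by
  classical
  set φ : G₁.O →+* F := (algebraMap F₁ F).comp G₁.O.subtype with hφ
  letI : Algebra G₁.O F := φ.toAlgebra
  have hφO : ∀ b : G₁.O, φ b ∈ G.O := fun b => (hO b.1).mpr b.2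
  -- `G.O` as a subalgebra over `G₁.O`
  let S : Subalgebra G₁.O F :=
    { G.O.toSubring.toSubsemiring with
      algebraMap_mem' := fun b => hφO b }
  have hSmem : ∀ x : F, x ∈ S ↔ x ∈ G.O := fun x => Iff.rfl
  have hfg : (Subalgebra.toSubmodule S).FG := by
    refine ⟨Finset.univ.image θ, le_antisymm ?_ ?_⟩
    · rw [Submodule.span_le]
      intro x hx
      simp only [Finset.coe_image, Finset.coe_univ, Set.image_univ, Set.mem_range] at hx
      obtain ⟨i, rfl⟩ := hx
      exact hfr.θ_mem i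
    · intro x hx
      obtain ⟨c, hc, rfl⟩ := exists_coeff_of_mem_O G₁ G hO y₁ θ hfr x hx
      refine Submodule.sum_mem _ fun i _ => ?_
      have : algebraMap F₁ F (c i) * θ i = (⟨c i, hc i⟩ : G₁.O) • θ i := by
        rw [Algebra.smul_def]; rfl
      rw [this]
      refine Submodule.smul_mem _ _ (Submodule.subset_span ?_)
      simp
  have : IsIntegral G₁.O f := IsIntegral.of_mem_of_fg S hfg f hf
  exact this

end Fermat.Agent.S48lib.X1.Igusa
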