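/-
S48lib / X1 / Igusa / X0Local  (helper8)

The black box of the Igusa argument (K1 §2 step 3): the Gauss ring `O_M` of `X₀(M)` is a LOCAL
ring, INTEGRAL over the Gauss ring `B₀ = O_1` of `ℚ̄(j) = FBar 1`.

* `baseRing A hA`            : `B₀`, the Gauss valuation ring of `FBar 1`;
* `levelRing M A hℓM hA`     : `O_M`, the Gauss valuation ring of `FBar M`;
* `baseToLevel`              : the ring hom `B₀ → O_M` (restriction of `FBar 1 ⊆ FBar M`);
* `isIntegralElem_levelRing` : every element of `O_M` is integral over `B₀`.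
-/
import Mathlib
import Fermat.Agent.S48lib.X1.Igusa.FrameIntegral
import Fermat.Agent.S18lib.Weak.Level
import Fermat.Agent.S18lib.V.GaussU.Level2

set_option autoImplicit false
set_option linter.unusedSectionVars false
set_option linter.style.haveILetI false

noncomputable section

namespace Fermat.Agent.S48lib.X1.Igusa

open ModularCurve Polynomial
open Fermat.Agent.S18lib

variable (M : ℕ) [NeZero M] (A : ValuationSubring (AlgebraicClosure ℚ)) {ℓ : ℕ} [Fact ℓ.Prime]

theorem not_dvd_one_of_prime : ¬ ℓ ∣ 1 := fun h =>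
  (Fact.out : ℓ.Prime).one_lt.ne' (Nat.dvd_one.mp h)

/-- the level-one Gauss datum (on `FBar 1 = ℚ̄(j)`) -/
def baseDatum (hA : A.LiesOverPrime ℓ) : GaussDatum A (FBar 1) (FRes A 1) :=
  V.gaussDatum 1 A not_dvd_one_of_prime hA

/-- `B₀`: the Gauss valuation ring of `ℚ̄(j)` -/
def baseRing (hA : A.LiesOverPrime ℓ) : ValuationSubring (FBar 1) := (baseDatum A hA).O

/-- `O_M`: the Gauss valuation ring of `ℚ̄(X₀(M))` -/
def levelRing (hℓM : ¬ ℓ ∣ M) (hA : A.LiesOverPrime ℓ) : ValuationSubring (FBar M) :=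
  (V.gaussDatum M A hℓM hA).O

/-- `FBar 1 ⊆ FBar M` -/
def inclOne : FBar 1 →ₐ[AlgebraicClosure ℚ] FBar M := V.inclL (one_dvd M)

theorem coe_inclOne (x : FBar 1) :
    ((inclOne M x : FBar M) : LaurentSeries (AlgebraicClosure ℚ)) = x := V.coe_inclL _ x

theorem inclOne_mem_iff (hℓM : ¬ ℓ ∣ M) (hA : A.LiesOverPrime ℓ) (x : FBar 1) :
    inclOne M x ∈ levelRing M A hℓM hA ↔ x ∈ baseRing A hA :=
  V.inclL_mem_gaussDatum_O_iff A (one_dvd M) hℓM hA x

/-- the ring hom `B₀ → O_M` -/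
def baseToLevel (hℓM : ¬ ℓ ∣ M) (hA : A.LiesOverPrime ℓ) :
    baseRing A hA →+* levelRing M A hℓM hA where
  toFun b := ⟨inclOne M b.1, (inclOne_mem_iff M A hℓM hA b.1).mpr b.2⟩
  map_one' := Subtype.ext (map_one _)
  map_mul' _ _ := Subtype.ext (map_mul _ _ _)
  map_zero' := Subtype.ext (map_zero _)
  map_add' _ _ := Subtype.ext (map_add _ _ _)

theorem coe_baseToLevel (hℓM : ¬ ℓ ∣ M) (hA : A.LiesOverPrime ℓ) (b : baseRing A hA) :
    ((baseToLevel M A hℓM hA b : levelRing M A hℓM hA) : FBar M) = inclOne M b.1 := rfl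

theorem baseToLevel_injective (hℓM : ¬ ℓ ∣ M) (hA : A.LiesOverPrime ℓ) :
    Function.Injective (baseToLevel M A hℓM hA) := by
  intro x y h
  have := congrArg (fun z : levelRing M A hℓM hA => (z : FBar M)) h
  exact Subtype.ext ((inclOne M).toRingHom.injective this)

theorem inclOne_jF : inclOne M (Gin0.jF 1) = Gin0.jF M := V.inclL_jBar (one_dvd M)

/-- **`O_M` is integral over `B₀`** (from the frame `(j, θ)` of the `X₀(M)` Gauss datum) -/
theorem isIntegralElem_levelRing (hℓM : ¬ ℓ ∣ M) (hA : A.LiesOverPrime ℓ)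
    (f : levelRing M A hℓM hA) : (baseToLevel M A hℓM hA).IsIntegralElem f := by
  letI : Algebra (FBar 1) (FBar M) := (inclOne M).toRingHom.toAlgebra
  haveI : IsScalarTower (AlgebraicClosure ℚ) (FBar 1) (FBar M) :=
    IsScalarTower.of_algebraMap_eq fun c => ((inclOne M).commutes c).symm
  have hfr : WFrame.IsFrameFamily (V.gaussDatum M A hℓM hA) (algebraMap (FBar 1) (FBar M) (Gin0.jF 1))
      (fun i => V.elemL (V.frameTheta M ℓ A hℓM i)) := by
    have : algebraMap (FBar 1) (FBar M) (Gin0.jF 1) = Gin0.jF M := inclOne_jF M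
    rw [this]
    exact V.gaussDatum_isFrameFamily_jF M A hℓM hA
  obtain ⟨p, hp, hpf⟩ := isIntegralElem_of_frame (baseDatum A hA) (V.gaussDatum M A hℓM hA)
    (inclOne_mem_iff M A hℓM hA) (Gin0.jF 1) _ hfr f.1 f.2
  refine ⟨p, hp, ?_⟩
  apply Subtype.ext
  have h1 : ((eval₂ (baseToLevel M A hℓM hA) f p : levelRing M A hℓM hA) : FBar M) =
      eval₂ ((levelRing M A hℓM hA).subtype.comp (baseToLevel M A hℓM hA)) f.1 p :=
    (hom_eval₂ p (baseToLevel M A hℓM hA) (levelRing M A hℓM hA).subtype f)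
  rw [h1]
  exact hpf

/-- the structure of `B₀`-algebra on `O_M` -/
@[instance_reducible]
def algebraLevelRing (hℓM : ¬ ℓ ∣ M) (hA : A.LiesOverPrime ℓ) :
    Algebra (baseRing A hA) (levelRing M A hℓM hA) := (baseToLevel M A hℓM hA).toAlgebra

theorem isIntegral_levelRing (hℓM : ¬ ℓ ∣ M) (hA : A.LiesOverPrime ℓ) :
    letI := algebraLevelRing M A hℓM hA
    Algebra.IsIntegral (baseRing A hA) (levelRing M A hℓM hA) := by
  letI := algebraLevelRing M A hℓM hA
  exact ⟨fun f => isIntegralElem_levelRing M A hℓM hA f⟩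

end Fermat.Agent.S48lib.X1.Igusa
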