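/-
S48lib / X1 / Igusa / Inst  (helper8)

**Igusa's theorem for the field `Ω₀(M) = ℚ̄(j(Q^M), τ_v)`** at every valuation subring `A ⊆ ℚ̄` of
residue characteristic `p ∤ M`, from the abstract theorem `igusa_field` (lead) and the Galois data
`GalData` of `Ω₀(M)` (helper3's `Field/Omega`, `Field/Galois`).

`GalData M ζ` packages exactly what is used from characteristic 0:
the field `Ω ⊆ ℚ̄((Q))`, the action `rho : SL(2,ℤ) →* (Ω ≃ₐ[ℚ̄] Ω)` trivial on `Γ(M)`, which permutes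
the `τ_v`, fixes `ℚ̄(j)`, with `Ω^{SL₂(ℤ)} = ℚ̄(j(Q^M))`, `rho T = (Q ↦ ξQ)`, `E = FBar M ⊆ Ω` (J_M) and
`Ω^{Γ₀(M)} ⊆ E`.
-/
import Mathlib
import Fermat.Agent.S48lib.X1.Igusa.Field
import Fermat.Agent.S48lib.X1.Igusa.GrpFacts
import Fermat.Agent.S48lib.X1.Igusa.GaussBridge
import Fermat.Agent.S48lib.X1.Igusa.X0Local
import Fermat.Agent.S48lib.X1.Igusa.TauInt
import Fermat.Agent.S48lib.X1.Igusa.OrbitIntegral

set_option autoImplicit false
set_option linter.unusedSectionVars false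
set_option linter.style.haveILetI false

noncomputable section

namespace Fermat.Agent.S48lib.X1.Igusa

open ModularCurve HahnSeries Polynomial IsLocalRing
open Matrix Matrix.SpecialLinearGroup CongruenceSubgroup
open scoped MatrixGroups ModularGroup
open Fermat.Agent.S18lib
open Fermat.Agent.S28lib (twist)
open Fermat.Agent.S48lib.X1 (tauK)

local notation "Qb" => AlgebraicClosure ℚ

/-- the characteristic-zero Galois data of `Ω₀(M)` used by the Igusa argument -/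
structure GalData (M : ℕ) [NeZero M] (ζ : Qbˣ) where
  /-- the field `Ω₀(M) ⊆ ℚ̄((Q))` -/
  Ω : IntermediateField Qb (LaurentSeries Qb)
  /-- the action of `SL(2, ℤ)` -/
  rho : SL(2, ℤ) →* (Ω ≃ₐ[Qb] Ω)
  /-- it is trivial on `Γ(M)` -/
  rho_Gamma : ∀ γ ∈ Gamma M, rho γ = 1
  /-- **(J_M)** `E = FBar M` (in the variable `q = Q^M`) lies in `Ω` -/
  level_mem : ∀ y : FBar M, qExpand Qb M (y : LaurentSeries Qb) ∈ Ω
  /-- the action fixes `ℚ̄(j)` -/
  rho_base : ∀ (γ : SL(2, ℤ)) (y : FBar 1),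
    rho γ ⟨_, level_mem (inclOne M y)⟩ = ⟨_, level_mem (inclOne M y)⟩
  /-- the fixed field is `ℚ̄(j)` -/
  fixed : ∀ x : Ω, (∀ γ, rho γ x = x) →
    ∃ y : FBar 1, qExpand Qb M (y : LaurentSeries Qb) = (x : LaurentSeries Qb)
  /-- the generators `τ_v` lie in `Ω` -/
  tau_mem : ∀ a b : ℤ, ¬ ((M : ℤ) ∣ a ∧ (M : ℤ) ∣ b) → tauK M ζ a b ∈ Ω
  /-- the action permutes the generators -/
  rho_tau : ∀ (γ : SL(2, ℤ)) (a b : ℤ) (hv : ¬ ((M : ℤ) ∣ a ∧ (M : ℤ) ∣ b)),
    ∃ a' b' : ℤ, ¬ ((M : ℤ) ∣ a' ∧ (M : ℤ) ∣ b') ∧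
      ((rho γ ⟨_, tau_mem a b hv⟩ : Ω) : LaurentSeries Qb) = tauK M ζ a' b'
  /-- the root of unity by which `T` twists -/
  ξ : Qbˣ
  ξ_pow : ξ ^ M = 1
  /-- `T` acts as `Q ↦ ξ Q` -/
  rho_T : ∀ x : Ω, ((rho ModularGroup.T x : Ω) : LaurentSeries Qb) = twist ξ (x : LaurentSeries Qb)
  /-- the `Γ₀(M)`-invariants lie in `E` -/
  fixed0 : ∀ x : Ω, (∀ γ ∈ Gamma0 M, rho γ x = x) →
    ∃ y : FBar M, qExpand Qb M (y : LaurentSeries Qb) = (x : LaurentSeries Qb)

namespace GalData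

variable {M : ℕ} [NeZero M] {ζ : Qbˣ} (D : GalData M ζ)

/-- the action of `SL(2, ZMod M)` -/
def rhoBar : SL(2, ZMod M) →* (D.Ω ≃ₐ[Qb] D.Ω) :=
  (slmod M).liftOfSurjective (slmod_surjective M)
    ⟨D.rho, fun γ hγ => by
      rw [MonoidHom.mem_ker]
      exact D.rho_Gamma γ (by rw [← ker_slmod]; exact hγ)⟩

theorem rhoBar_slmod (γ : SL(2, ℤ)) : D.rhoBar (slmod M γ) = D.rho γ :=
  MonoidHom.liftOfRightInverse_comp_apply _ _ _ _ γ

/-- the action of `SL(2, ZMod M)` on `Ω` -/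
@[instance_reducible]
def action : MulSemiringAction (SL(2, ZMod M)) D.Ω := MulSemiringAction.compHom D.Ω D.rhoBar

theorem smul_def (g : SL(2, ZMod M)) (x : D.Ω) :
    letI := D.action
    g • x = D.rhoBar g x := rfl

/-- the embedding `E = FBar M → Ω`, `q ↦ Q^M` -/
def levelHom : FBar M →+* D.Ω where
  toFun y := ⟨_, D.level_mem y⟩
  map_one' := Subtype.ext (by simp)
  map_mul' x y := Subtype.ext (by simp)
  map_zero' := Subtype.ext (by simp)
  map_add' x y := Subtype.ext (by simp)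

@[simp] theorem coe_levelHom (y : FBar M) :
    ((D.levelHom y : D.Ω) : LaurentSeries Qb) = qExpand Qb M (y : LaurentSeries Qb) := rfl

theorem levelHom_injective : Function.Injective D.levelHom := D.levelHom.injective

/-- the embedding `ℚ̄(j) = FBar 1 → Ω` -/
def baseHom : FBar 1 →+* D.Ω := D.levelHom.comp (inclOne M).toRingHom

@[simp] theorem coe_baseHom (y : FBar 1) :
    ((D.baseHom y : D.Ω) : LaurentSeries Qb) = qExpand Qb M (y : LaurentSeries Qb) := by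
  show qExpand Qb M ((inclOne M y : FBar M) : LaurentSeries Qb) = _
  rw [coe_inclOne]

/-- the structure of `FBar 1`-algebra on `Ω` -/
@[instance_reducible]
def algebraBase : Algebra (FBar 1) D.Ω := D.baseHom.toAlgebra


attribute [local instance] GalData.action GalData.algebraBase

theorem algebraMap_base_apply (y : FBar 1) : algebraMap (FBar 1) D.Ω y = D.baseHom y := rfl

theorem smul_baseHom (g : SL(2, ZMod M)) (y : FBar 1) : g • D.baseHom y = D.baseHom y := by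
  obtain ⟨γ, rfl⟩ := slmod_surjective M g
  rw [D.smul_def, D.rhoBar_slmod]
  exact D.rho_base γ y

theorem smulCommClass_base' : SMulCommClass (SL(2, ZMod M)) (FBar 1) D.Ω :=
  ⟨fun g c x => by
    rw [Algebra.smul_def, Algebra.smul_def, smul_mul', algebraMap_base_apply, D.smul_baseHom]⟩

theorem isInvariant_base : Algebra.IsInvariant (FBar 1) D.Ω (SL(2, ZMod M)) :=
  ⟨fun x hx => by
    obtain ⟨y, hy⟩ := D.fixed x (fun γ => by
      have := hx (slmod M γ)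
      rwa [D.smul_def, D.rhoBar_slmod] at this)
    refine ⟨y, Subtype.ext ?_⟩
    rw [algebraMap_base_apply, coe_baseHom, hy]⟩


/-! ### the reduction data -/

variable (A : ValuationSubring Qb) {p : ℕ} [Fact p.Prime]

/-- the inclusion `Ω ⊆ ℚ̄((Q))` -/
def incl : D.Ω →+* LaurentSeries Qb := D.Ω.val.toRingHom

@[simp] theorem incl_apply (x : D.Ω) : D.incl x = (x : LaurentSeries Qb) := rfl

/-- `S = Ω ∩ 𝒪′` -/
def S : Subring D.Ω := subringOf A D.incl

/-- the coefficientwise reduction on `S` -/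
def redS : D.S A →+* LaurentSeries (IsLocalRing.ResidueField A) := redOf A D.incl

theorem mem_S {x : D.Ω} : x ∈ D.S A ↔ (x : LaurentSeries Qb) ∈ fracSubring A := Iff.rfl

theorem redS_apply (x : D.S A) : D.redS A x = fracRed A ⟨(x.1 : LaurentSeries Qb), x.2⟩ := rfl

/-- the level-one Gauss datum is the coefficientwise reduction in the variable `Q` -/
theorem compat_base (hA : A.LiesOverPrime p) :
    SeriesCompat (baseDatum A hA) ((qExpand Qb M).comp (inclBar 1))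
      ((qExpand (IsLocalRing.ResidueField A) M).comp (inclRes A 1)) :=
  (seriesCompat_gaussDatum A 1 not_dvd_one_of_prime hA).comp_qExpand M

/-- the Gauss datum of `X₀(M)` is the coefficientwise reduction in the variable `Q` -/
theorem compat_level (hA : A.LiesOverPrime p) (hpM : ¬ p ∣ M) :
    SeriesCompat (V.gaussDatum M A hpM hA) ((qExpand Qb M).comp (inclBar M))
      ((qExpand (IsLocalRing.ResidueField A) M).comp (inclRes A M)) :=
  (seriesCompat_gaussDatum A M hpM hA).comp_qExpand M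

theorem baseHom_mem_S_iff (hA : A.LiesOverPrime p) (y : FBar 1) :
    D.baseHom y ∈ D.S A ↔ y ∈ baseRing A hA := by
  rw [mem_S, coe_baseHom]
  exact ((compat_base A hA).mem_O_iff y).symm

theorem levelHom_mem_S_iff (hA : A.LiesOverPrime p) (hpM : ¬ p ∣ M) (y : FBar M) :
    D.levelHom y ∈ D.S A ↔ y ∈ levelRing M A hpM hA := by
  rw [mem_S, coe_levelHom]
  exact ((compat_level A hA hpM).mem_O_iff y).symm

theorem algebraMap_baseRing_apply (hA : A.LiesOverPrime p) (b : baseRing A hA) :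
    algebraMap (baseRing A hA) D.Ω b = D.baseHom (b : FBar 1) := rfl

/-- **(hBS)** -/
theorem algebraMap_baseRing_mem_S (hA : A.LiesOverPrime p) (b : baseRing A hA) :
    algebraMap (baseRing A hA) D.Ω b ∈ D.S A := by
  rw [algebraMap_baseRing_apply, D.baseHom_mem_S_iff A hA]
  exact b.2

/-- **(hred)** -/
theorem redS_algebraMap_eq_zero_iff (hA : A.LiesOverPrime p) (b : baseRing A hA) :
    D.redS A ⟨algebraMap (baseRing A hA) D.Ω b, D.algebraMap_baseRing_mem_S A hA b⟩ = 0 ↔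
      b ∈ maximalIdeal (baseRing A hA) := by
  have h := (compat_base (M := M) A hA).fracRed_eq b.2
  rw [redS_apply]
  have e : (⟨((algebraMap (baseRing A hA) D.Ω b : D.Ω) : LaurentSeries Qb),
      D.algebraMap_baseRing_mem_S A hA b⟩ : fracSubring A) =
      ⟨((qExpand Qb M).comp (inclBar 1)) (b : FBar 1),
        (compat_base (M := M) A hA).mem_fracSubring b.2⟩ := by
    apply Subtype.ext
    show ((D.baseHom (b : FBar 1) : D.Ω) : LaurentSeries Qb) = _
    rw [coe_baseHom]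
    rfl
  rw [e, h, map_eq_zero_iff _ (RingHom.injective _)]
  exact (baseDatum A hA).red_eq_zero_iff ⟨b.1, b.2⟩


/-! ### the generators -/

/-- `τ_v` as an element of `Ω` -/
def tauΩ (a b : ℤ) (hv : ¬ ((M : ℤ) ∣ a ∧ (M : ℤ) ∣ b)) : D.Ω := ⟨_, D.tau_mem a b hv⟩

@[simp] theorem coe_tauΩ (a b : ℤ) (hv : ¬ ((M : ℤ) ∣ a ∧ (M : ℤ) ∣ b)) :
    ((D.tauΩ a b hv : D.Ω) : LaurentSeries Qb) = tauK M ζ a b := rfl

/-- the set of generators `{τ_v : v ≠ 0}` -/
def V : Set D.Ω := {x | ∃ (a b : ℤ) (hv : ¬ ((M : ℤ) ∣ a ∧ (M : ℤ) ∣ b)), x = D.tauΩ a b hv}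

theorem tauΩ_mem_V (a b : ℤ) (hv : ¬ ((M : ℤ) ∣ a ∧ (M : ℤ) ∣ b)) : D.tauΩ a b hv ∈ D.V :=
  ⟨a, b, hv, rfl⟩

/-- **(hVst)** -/
theorem smul_mem_V (g : SL(2, ZMod M)) {v : D.Ω} (hv : v ∈ D.V) : g • v ∈ D.V := by
  obtain ⟨a, b, hab, rfl⟩ := hv
  obtain ⟨γ, rfl⟩ := slmod_surjective M g
  obtain ⟨a', b', hab', h⟩ := D.rho_tau γ a b hab
  refine ⟨a', b', hab', Subtype.ext ?_⟩
  rw [D.smul_def, D.rhoBar_slmod]
  exact h

theorem V_subset_S (hA : A.LiesOverPrime p) (hpM : ¬ p ∣ M) (hζ : IsPrimitiveRoot ζ M)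
    {v : D.Ω} (hv : v ∈ D.V) : v ∈ D.S A := by
  obtain ⟨a, b, hab, rfl⟩ := hv
  rw [mem_S, coe_tauΩ]
  exact tauK_mem_fracSubring hA hpM hζ a b

/-- **(hRS)** -/
theorem adjoin_le_S (hA : A.LiesOverPrime p) (hpM : ¬ p ∣ M) (hζ : IsPrimitiveRoot ζ M)
    (x : D.Ω) (hx : x ∈ Algebra.adjoin (baseRing A hA) D.V) : x ∈ D.S A := by
  induction hx using Algebra.adjoin_induction with
  | mem v hv => exact D.V_subset_S A hA hpM hζ hv
  | algebraMap b => exact D.algebraMap_baseRing_mem_S A hA b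
  | add x y _ _ hx hy => exact add_mem hx hy
  | mul x y _ _ hx hy => exact mul_mem hx hy

/-- **(hVint)** the generators are integral over `B₀` -/
theorem isIntegral_of_mem_V (hA : A.LiesOverPrime p) (hpM : ¬ p ∣ M) (hζ : IsPrimitiveRoot ζ M)
    {v : D.Ω} (hv : v ∈ D.V) : IsIntegral (baseRing A hA) v := by
  haveI := finite_SL2ZMod M
  haveI := D.smulCommClass_base'
  haveI := D.isInvariant_base
  refine isIntegral_of_orbit_mem (K₀ := FBar 1) (G := SL(2, ZMod M)) (D.S A) ?_ v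
    (fun g => D.V_subset_S A hA hpM hζ (D.smul_mem_V g hv))
  intro c hc
  rw [algebraMap_base_apply, D.baseHom_mem_S_iff A hA] at hc
  exact ⟨⟨c, hc⟩, rfl⟩


/-! ### the translation `T` -/

/-- the root of unity `ξ` as a unit of `A` -/
def xiA : Aˣ where
  val := ⟨(D.ξ : Qb), mem_of_pow_eq_one (NeZero.ne M)
    (by rw [← Units.val_pow_eq_pow_val, D.ξ_pow]; rfl)⟩
  inv := ⟨((D.ξ⁻¹ : Qbˣ) : Qb), mem_of_pow_eq_one (NeZero.ne M)
    (by rw [← Units.val_pow_eq_pow_val, inv_pow, D.ξ_pow]; simp)⟩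
  val_inv := Subtype.ext (by simp)
  inv_val := Subtype.ext (by simp)

theorem unitL_xiA : unitL (D.xiA A) = D.ξ := Units.ext rfl

theorem coe_Tm_smul (x : D.Ω) :
    ((Tm M • x : D.Ω) : LaurentSeries Qb) = twist D.ξ (x : LaurentSeries Qb) := by
  rw [← slmod_T, D.smul_def, D.rhoBar_slmod]
  exact D.rho_T x

theorem Tm_smul_mem_S {x : D.Ω} (hx : x ∈ D.S A) : Tm M • x ∈ D.S A := by
  have hx' : (x : LaurentSeries Qb) ∈ fracSubring A := hx
  rw [mem_S, coe_Tm_smul, ← D.unitL_xiA A]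
  exact twist_mem_fracSubring _ hx'

/-- **(hT)** `T` preserves the kernel of the reduction -/
theorem redS_Tm_smul_eq_zero {x : D.Ω} (hx : x ∈ D.S A) (hTx : Tm M • x ∈ D.S A)
    (h0 : D.redS A ⟨x, hx⟩ = 0) : D.redS A ⟨Tm M • x, hTx⟩ = 0 := by
  have hx' : (x : LaurentSeries Qb) ∈ fracSubring A := hx
  have hTx' : ((Tm M • x : D.Ω) : LaurentSeries Qb) ∈ fracSubring A := hTx
  have h0' : fracRed A ⟨_, hx'⟩ = 0 := h0
  show fracRed A ⟨_, hTx'⟩ = 0
  have e : (⟨_, hTx'⟩ : fracSubring A) =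
      ⟨twist (unitL (D.xiA A)) (x : LaurentSeries Qb), twist_mem_fracSubring _ hx'⟩ := by
    apply Subtype.ext
    show ((Tm M • x : D.Ω) : LaurentSeries Qb) = twist (unitL (D.xiA A)) (x : LaurentSeries Qb)
    rw [coe_Tm_smul, D.unitL_xiA A]
  rw [e, fracRed_twist _ hx', h0', map_zero]


/-! ### the local ring `O_M` of `X₀(M)` inside `Ω` -/

/-- `ιO : O_M → Ω` -/
def levelRingHom (hA : A.LiesOverPrime p) (hpM : ¬ p ∣ M) : levelRing M A hpM hA →+* D.Ω :=
  D.levelHom.comp (levelRing M A hpM hA).subtype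

theorem levelRingHom_injective (hA : A.LiesOverPrime p) (hpM : ¬ p ∣ M) :
    Function.Injective (D.levelRingHom A hA hpM) :=
  D.levelHom_injective.comp Subtype.val_injective

theorem levelRingHom_algebraMap (hA : A.LiesOverPrime p) (hpM : ¬ p ∣ M) (b : baseRing A hA) :
    letI := algebraLevelRing M A hpM hA
    D.levelRingHom A hA hpM (algebraMap (baseRing A hA) (levelRing M A hpM hA) b) =
      algebraMap (baseRing A hA) D.Ω b := rfl

/-- **(hW)** the `H₀`-invariants of `S` come from `O_M` -/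
theorem mem_range_levelRingHom (hA : A.LiesOverPrime p) (hpM : ¬ p ∣ M) (r : D.Ω)
    (hr : r ∈ D.S A) (hfix : ∀ h ∈ H0 M, h • r = r) :
    r ∈ Set.range (D.levelRingHom A hA hpM) := by
  obtain ⟨y, hy⟩ := D.fixed0 r (fun γ hγ => by
    have := hfix (slmod M γ) ((slmod_mem_H0_iff M γ).mpr hγ)
    rwa [D.smul_def, D.rhoBar_slmod] at this)
  have hry : D.levelHom y = r := Subtype.ext (by rw [coe_levelHom, hy])
  have hyO : y ∈ levelRing M A hpM hA := by
    rw [← D.levelHom_mem_S_iff A hA hpM, hry]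
    exact hr
  exact ⟨⟨y, hyO⟩, hry⟩


/-! ### the theorem -/

/-- distinct conjugates of `τ_v` have distinct reductions -/
theorem redS_smul_tau_injective (hA : A.LiesOverPrime p) (hpM : ¬ p ∣ M)
    (hζ : IsPrimitiveRoot ζ M) (hM : 1 < M) (a b : ℤ) (hv : ¬ ((M : ℤ) ∣ a ∧ (M : ℤ) ∣ b))
    (g g' : SL(2, ZMod M)) (hg : g • D.tauΩ a b hv ∈ D.S A) (hg' : g' • D.tauΩ a b hv ∈ D.S A)
    (h : D.redS A ⟨g • D.tauΩ a b hv, hg⟩ = D.redS A ⟨g' • D.tauΩ a b hv, hg'⟩) :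
    g • D.tauΩ a b hv = g' • D.tauΩ a b hv := by
  obtain ⟨a₁, b₁, hv₁, h₁⟩ := D.smul_mem_V g (D.tauΩ_mem_V a b hv)
  obtain ⟨a₂, b₂, hv₂, h₂⟩ := D.smul_mem_V g' (D.tauΩ_mem_V a b hv)
  have e₁ : (⟨((g • D.tauΩ a b hv : D.Ω) : LaurentSeries Qb), hg⟩ : fracSubring A) =
      ⟨tauK M ζ a₁ b₁, tauK_mem_fracSubring hA hpM hζ a₁ b₁⟩ := by
    apply Subtype.ext
    show ((g • D.tauΩ a b hv : D.Ω) : LaurentSeries Qb) = tauK M ζ a₁ b₁
    rw [h₁, coe_tauΩ]
  have e₂ : (⟨((g' • D.tauΩ a b hv : D.Ω) : LaurentSeries Qb), hg'⟩ : fracSubring A) =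
      ⟨tauK M ζ a₂ b₂, tauK_mem_fracSubring hA hpM hζ a₂ b₂⟩ := by
    apply Subtype.ext
    show ((g' • D.tauΩ a b hv : D.Ω) : LaurentSeries Qb) = tauK M ζ a₂ b₂
    rw [h₂, coe_tauΩ]
  have h' : fracRed A ⟨tauK M ζ a₁ b₁, tauK_mem_fracSubring hA hpM hζ a₁ b₁⟩ =
      fracRed A ⟨tauK M ζ a₂ b₂, tauK_mem_fracSubring hA hpM hζ a₂ b₂⟩ := by
    rw [← e₁, ← e₂]
    exact h
  have h3 := (fracRed_tauK_eq_iff hA hpM hζ hM hv₁ hv₂).mp h'
  have h4 : tauK M ζ a₁ b₁ = tauK M ζ a₂ b₂ := (tauK_eq_iff hζ hM hv₁ hv₂).mpr h3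
  rw [h₁, h₂]
  exact Subtype.ext (by rw [coe_tauΩ, coe_tauΩ, h4])

/-- **Igusa's theorem for `Ω₀(M)`**: for every `v ≠ 0` the orbit polynomial of `τ_v` has
coefficients in the Gauss ring `B₀` of `ℚ̄(j)`, is the minimal polynomial of `τ_v` over `ℚ̄(j)`,
and its reduction modulo `𝔪` is irreducible and separable. -/
theorem igusa_tau (hA : A.LiesOverPrime p) (hpM : ¬ p ∣ M) (hζ : IsPrimitiveRoot ζ M)
    (hM : 1 < M) (a b : ℤ) (hv : ¬ ((M : ℤ) ∣ a ∧ (M : ℤ) ∣ b)) :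
    ∃ P₀ : (baseRing A hA)[X], P₀.Monic ∧
      P₀.map (algebraMap (baseRing A hA) (FBar 1)) = minpoly (FBar 1) (D.tauΩ a b hv) ∧
      P₀.map (algebraMap (baseRing A hA) D.Ω) = conjPoly (SL(2, ZMod M)) (D.tauΩ a b hv) ∧
      P₀.natDegree = (conjSet (SL(2, ZMod M)) (D.tauΩ a b hv)).card ∧
      Irreducible (P₀.map (residue (baseRing A hA))) ∧
      (P₀.map (residue (baseRing A hA))).Separable := by
  haveI := finite_SL2ZMod M
  haveI := D.smulCommClass_base'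
  haveI := D.isInvariant_base
  letI := algebraLevelRing M A hpM hA
  haveI := isIntegral_levelRing M A hpM hA
  have hRS := D.adjoin_le_S A hA hpM hζ
  have hVS : ∀ g : SL(2, ZMod M), g • D.tauΩ a b hv ∈ D.S A := fun g =>
    D.V_subset_S A hA hpM hζ (D.smul_mem_V g (D.tauΩ_mem_V a b hv))
  exact igusa_field (K₀ := FBar 1) (G := SL(2, ZMod M)) D.V
    (fun g v hv => D.smul_mem_V g hv)
    (fun v hv => D.isIntegral_of_mem_V A hA hpM hζ hv)
    (D.S A) (D.redS A) (D.algebraMap_baseRing_mem_S A hA)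
    (D.redS_algebraMap_eq_zero_iff A hA) hRS (Tm M)
    (fun x hx hTx h0 => D.redS_Tm_smul_eq_zero A (hRS x hx) (hRS _ hTx) h0)
    (H0 M) (D.levelRingHom A hA hpM) (D.levelRingHom_injective A hA hpM)
    (D.levelRingHom_algebraMap A hA hpM)
    (fun r hr hfix => D.mem_range_levelRingHom A hA hpM r (hRS r hr) hfix)
    (fun h hh => conj_Tm_mem_zpowers M h hh) (normalClosure_Tm M)
    (D.tauΩ a b hv) (Algebra.subset_adjoin (D.tauΩ_mem_V a b hv)) hVS
    (fun g g' h => D.redS_smul_tau_injective A hA hpM hζ hM a b hv g g' (hVS g) (hVS g') h)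

end GalData

end Fermat.Agent.S48lib.X1.Igusa
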