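/-
S48lib / X1 / Igusa / Inert  (helper8)

From Igusa's theorem (`GalData.igusa_tau`) to the inert input of the reduction datum of `X₁(M)`:
`S18lib.InertInput (baseDatum A hA) (FB1 M) (FRes1 …)`.

Part 1 (characteristic 0): `FB1 M` as an algebra over `FBar 1 = ℚ̄(j)`, with the power basis
`1, τ, …, τ^{n-1}`, `τ = τ_(0,1)`, `n = [SL₂(ℤ) : ±Γ₁(M)]` (from helper3's degree theorem).
-/
import Mathlib
import Fermat.Agent.S48lib.X1.Igusa.Inst
import Fermat.Agent.S48lib.X1.Field.Degree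
import Fermat.Agent.S18lib.Haupt.BarEq
import Fermat.Agent.S18lib.Weak.Inert

set_option autoImplicit false
set_option linter.unusedSectionVars false
set_option linter.style.haveILetI false

noncomputable section

namespace Fermat.Agent.S48lib.X1.Igusa

open ModularCurve HahnSeries Polynomial IntermediateField Module
open Fermat.Agent.S18lib
open Fermat.Agent.S48lib.X1 (F1 jq_mem_F1 tauBar jB)
open scoped MatrixGroups
open Fermat.Agent.ProgramR Fermat.Agent.ProgramR.QExp Fermat.Agent.ProgramR.BarField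
open Fermat.Agent.S48lib.X1.HeckeJ Fermat.Agent.S48lib.X1.Wp

local notation "Qb" => AlgebraicClosure ℚ

variable (M : ℕ) [NeZero M]

/-- the function field of `X₁(M)` over `ℚ̄` (`= HeckeJ.FBq (F1 M)`) -/
abbrev FB1 : Type := ↥(laurentBaseChange Qb (F1 M))

/-! ### `ℚ̄(j) ⊆ FBar₁(M)` -/

theorem full_one_le_F1 : modularFunctionFieldFull 1 ≤ F1 M := by
  rw [modularFunctionFieldFull, IntermediateField.adjoin_le_iff]
  rintro x ⟨d, hd, hd1, rfl⟩
  have : d = 1 := Nat.dvd_one.mp hd1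
  subst this
  rw [qExpand_one_apply]
  exact jq_mem_F1 M

/-- the inclusion `ℚ̄(j) = FBar 1 ⊆ FBar₁(M)` -/
def inclF1 : FBar 1 →ₐ[Qb] FB1 M :=
  IntermediateField.inclusion (V.laurentBaseChange_mono Qb (full_one_le_F1 M))

@[simp] theorem coe_inclF1 (x : FBar 1) :
    ((inclF1 M x : FB1 M) : LaurentSeries Qb) = (x : LaurentSeries Qb) :=
  IntermediateField.coe_inclusion (V.laurentBaseChange_mono Qb (full_one_le_F1 M)) x

/-- the structure of `ℚ̄(j)`-algebra on `FBar₁(M)` -/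
@[instance_reducible]
def algebraF1 : Algebra (FBar 1) (FB1 M) := (inclF1 M).toRingHom.toAlgebra

attribute [local instance] algebraF1

theorem algebraMap_F1_apply (x : FBar 1) : algebraMap (FBar 1) (FB1 M) x = inclF1 M x := rfl

theorem isScalarTower_F1 : IsScalarTower Qb (FBar 1) (FB1 M) :=
  IsScalarTower.of_algebraMap_eq fun c => ((inclF1 M).commutes c).symm

theorem inclF1_jF : inclF1 M (Gin0.jF 1) = jB Qb (jq_mem_F1 M) :=
  Subtype.ext (by rw [coe_inclF1, Gin0.coe_jF]; rfl)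


/-- `FBar 1 = ℚ̄(j)` -/
theorem adjoin_jF_one_eq_top : (Qb⟮Gin0.jF 1⟯ : IntermediateField Qb (FBar 1)) = ⊤ := by
  apply Haupt.adjoin_eq_top_of_coe
  rw [Gin0.coe_jF]
  refine (Haupt.modularFunctionFieldBar_eq 1).trans ?_
  rw [modularFunctionFieldFullC]
  congr 1
  ext x
  simp only [divisorExpansionsC, Set.mem_ofPred_eq, Set.mem_singleton_iff]
  constructor
  · rintro ⟨d, hd, hd1, rfl⟩
    have : d = 1 := Nat.dvd_one.mp hd1
    subst this
    exact qExpand_one_apply _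
  · rintro rfl
    exact ⟨1, inferInstance, dvd_rfl, (qExpand_one_apply _).symm⟩

/-- the image of `FBar 1` in `FBar₁(M)` is `ℚ̄(j)` -/
theorem fieldRange_inclF1 : (inclF1 M).fieldRange = Qb⟮jB Qb (jq_mem_F1 M)⟯ := by
  rw [AlgHom.fieldRange_eq_map, ← adjoin_jF_one_eq_top, IntermediateField.adjoin_map,
    Set.image_singleton, inclF1_jF]

theorem inclF1_mem_adjoin (x : FBar 1) : inclF1 M x ∈ Qb⟮jB Qb (jq_mem_F1 M)⟯ := by
  rw [← fieldRange_inclF1]
  exact ⟨x, rfl⟩

theorem exists_inclF1_eq {y : FB1 M} (hy : y ∈ Qb⟮jB Qb (jq_mem_F1 M)⟯) :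
    ∃ x : FBar 1, inclF1 M x = y := by
  rw [← fieldRange_inclF1] at hy
  exact hy


/-! ### the power basis `1, τ, …, τ^{n-1}` over `ℚ̄(j)` -/

section PowerBasis

variable {M} (hM : 1 < M)

/-- helper3's independence statement over `ℚ̄⟮j⟯ ⊆ FBar₁(M)` -/
theorem linearIndependent_pow_tauBar_adjoin :
    LinearIndependent Qb⟮jB Qb (jq_mem_F1 M)⟯
      (fun k : Fin (Fintype.card (SL(2, ℤ) ⧸ pmGamma1 M)) => tauBar hM ^ (k : ℕ)) := by
  obtain ⟨c, hc, hcop⟩ := exists_zEmb_eq M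
  have hb : ¬ (M : ℤ) ∣ c * 1 := not_dvd_mul_of_isCoprime hcop (not_dvd_one hM)
  have hcop' : IsCoprime (c * 1) (M : ℤ) := by rwa [mul_one]
  refine linearIndependent_pow_gen (hT := T_mem_pmGamma1) qbarEmb (jq_mem_F1 M) (tauBar hM)
    (separates_tauWH0_of_isCoprime hM hcop' hb) ?_
  rw [coe_tauBar, coeffMap_tauqL]
  have : Units.map ((qbarEmb : Qb →+* ℂ) : Qb →* ℂ) (zbar M) = zC M ^ c := hc
  rw [this, tauqL_zC_zpow_mem hcop (not_dvd_one hM)]


theorem smul_F1_def (c : FBar 1) (x : FB1 M) : c • x = inclF1 M c * x := rfl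

/-- the powers of `τ` are linearly independent over `FBar 1` -/
theorem linearIndependent_pow_tauBar :
    LinearIndependent (FBar 1)
      (fun k : Fin (Fintype.card (SL(2, ℤ) ⧸ pmGamma1 M)) => tauBar hM ^ (k : ℕ)) := by
  rw [Fintype.linearIndependent_iff]
  intro c hc k
  have h := Fintype.linearIndependent_iff.mp (linearIndependent_pow_tauBar_adjoin hM)
    (fun k => ⟨inclF1 M (c k), inclF1_mem_adjoin M (c k)⟩) hc k
  have h' : inclF1 M (c k) = 0 := congrArg Subtype.val h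
  exact (map_eq_zero_iff _ (inclF1 M).toRingHom.injective).mp h'

/-- the powers of `τ` span `FBar₁(M)` over `FBar 1` -/
theorem span_pow_tauBar :
    ⊤ ≤ Submodule.span (FBar 1)
      (Set.range fun k : Fin (Fintype.card (SL(2, ℤ) ⧸ pmGamma1 M)) => tauBar hM ^ (k : ℕ)) := by
  intro x _
  haveI : Nonempty (Fin (Fintype.card (SL(2, ℤ) ⧸ pmGamma1 M))) :=
    ⟨⟨0, Fintype.card_pos⟩⟩
  let b := basisOfLinearIndependentOfCardEqFinrank (linearIndependent_pow_tauBar_adjoin hM)
    ((Fintype.card_fin _).trans (finrank_FBar1 hM).symm)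
  have hx := b.sum_repr x
  rw [← hx]
  refine Submodule.sum_mem _ fun k _ => ?_
  obtain ⟨c, hc⟩ := exists_inclF1_eq M (b.repr x k).2
  have h1 : b.repr x k • b k = c • (tauBar hM ^ (k : ℕ)) := by
    rw [coe_basisOfLinearIndependentOfCardEqFinrank, smul_F1_def, hc]
    rfl
  rw [h1]
  exact Submodule.smul_mem _ _ (Submodule.subset_span ⟨k, rfl⟩)

/-- **the power basis of `FBar₁(M)` over `ℚ̄(j)`** generated by `τ_(0,1)` -/
def pbF1 : PowerBasis (FBar 1) (FB1 M) where
  gen := tauBar hM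
  dim := Fintype.card (SL(2, ℤ) ⧸ pmGamma1 M)
  basis := Basis.mk (linearIndependent_pow_tauBar hM) (span_pow_tauBar hM)
  basis_eq_pow := fun i => by rw [Basis.mk_apply]

@[simp] theorem pbF1_gen : (pbF1 hM).gen = tauBar hM := rfl

end PowerBasis

end Fermat.Agent.S48lib.X1.Igusa
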