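/-
S48lib / X1 / Igusa / InertSeries  (helper8)

**The inert extension of a coefficientwise reduction is a coefficientwise reduction.**

Let `G : GaussDatum A F Fk` be compatible with expansions `ι₀ : F → ℚ̄((q))`, `ιk₀ : Fk → k((q))`
(`SeriesCompat G ι₀ ιk₀`), let `I : InertInput G F' Fk'` be an inert input, and `ι' : F' → ℚ̄((q))`,
`ιk' : Fk' → k((q))` ring homomorphisms extending `ι₀`, `ιk₀` such that the generators `I.t`, `I.tk`
expand to `toL s`, `toK s` for ONE `A`-integral series `s`.  Then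
`SeriesCompat I.datum ι' ιk'`  (`seriesCompat_inert`).
-/
import Mathlib
import Fermat.Agent.S48lib.X1.Igusa.GaussBridge
import Fermat.Agent.S18lib.Weak.Inert

set_option autoImplicit false
set_option linter.unusedSectionVars false

noncomputable section

namespace Fermat.Agent.S48lib.X1.Igusa

open ModularCurve HahnSeries Polynomial
open Fermat.Agent.S18lib
open Fermat.Agent.S18lib.V (toL toK)

local notation "Qb" => AlgebraicClosure ℚ

variable {A : ValuationSubring Qb}
variable {F : Type*} [Field F] [Algebra Qb F]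
variable {Fk : Type*} [Field Fk] [Algebra (IsLocalRing.ResidueField A) Fk]
variable {F' : Type*} [Field F'] [Algebra F F'] [Algebra Qb F'] [IsScalarTower Qb F F']
variable {Fk' : Type*} [Field Fk'] [Algebra Fk Fk'] [Algebra (IsLocalRing.ResidueField A) Fk']
  [IsScalarTower (IsLocalRing.ResidueField A) Fk Fk']
variable {G : GaussDatum A F Fk}

/-- **the inert extension of a coefficientwise reduction is a coefficientwise reduction** -/
theorem seriesCompat_inert (I : InertInput G F' Fk')
    {ι₀ : F →+* LaurentSeries Qb} {ιk₀ : Fk →+* LaurentSeries (IsLocalRing.ResidueField A)}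
    (h₀ : SeriesCompat G ι₀ ιk₀)
    (ι' : F' →+* LaurentSeries Qb) (ιk' : Fk' →+* LaurentSeries (IsLocalRing.ResidueField A))
    (hι : ∀ x : F, ι' (algebraMap F F' x) = ι₀ x)
    (hιk : ∀ x : Fk, ιk' (algebraMap Fk Fk' x) = ιk₀ x)
    (s : LaurentSeries A) (ht : ι' I.t = toL A s) (htk : ιk' I.tk = toK A s) :
    SeriesCompat I.datum ι' ιk' := by
  -- the coefficient embedding `O → 𝒪′`
  let g₀ : G.O →+* fracSubring A :=
    { toFun := fun c => ⟨ι₀ (c : F), h₀.mem_fracSubring c.2⟩
      map_one' := Subtype.ext (by simp)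
      map_mul' := fun x y => Subtype.ext (by simp)
      map_zero' := Subtype.ext (by simp)
      map_add' := fun x y => Subtype.ext (by simp) }
  let x₀ : fracSubring A := ⟨toL A s, toL_mem_fracSubring s⟩
  -- `ι' ∘ φ` factors through `𝒪′`
  have h1 : ∀ g : G.O[X], ι' (I.phi g) = ((eval₂ g₀ x₀ g : fracSubring A) : LaurentSeries Qb) := by
    intro g
    have e1 : ι' (I.phi g) = eval₂ (ι'.comp ((algebraMap F F').comp G.O.subtype)) (ι' I.t) g := by
      rw [InertInput.phi, coe_eval₂RingHom, hom_eval₂]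
    have e2 : ((eval₂ g₀ x₀ g : fracSubring A) : LaurentSeries Qb) =
        eval₂ ((fracSubring A).subtype.comp g₀) ((fracSubring A).subtype x₀) g :=
      hom_eval₂ g g₀ (fracSubring A).subtype x₀
    rw [e1, e2, ht]
    congr 1
    refine RingHom.ext fun c => ?_
    show ι' (algebraMap F F' (c : F)) = ι₀ (c : F)
    exact hι _
  -- `fracRed` of it is `ιk' ∘ ρ`
  have h2 : ∀ g : G.O[X], fracRed A (eval₂ g₀ x₀ g) = ιk' (I.rho g) := by
    intro g
    have e1 : ιk' (I.rho g) = eval₂ (ιk'.comp ((algebraMap Fk Fk').comp G.red)) (ιk' I.tk) g := by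
      rw [InertInput.rho, coe_eval₂RingHom, hom_eval₂]
    rw [e1, hom_eval₂, htk]
    have e3 : fracRed A x₀ = toK A s := fracRed_toL s
    rw [e3]
    congr 1
    refine RingHom.ext fun c => ?_
    show fracRed A ⟨ι₀ (c : F), _⟩ = ιk' (algebraMap Fk Fk' (G.red c))
    rw [hιk]
    exact h₀.fracRed_eq c.2
  intro x hx
  obtain ⟨g, -, rfl⟩ := I.mem_datum_O_iff.mp hx
  have hmem : ι' (I.phi g) ∈ fracSubring A := by
    rw [h1]
    exact (eval₂ g₀ x₀ g).2
  refine ⟨hmem, ?_⟩
  have e4 : (⟨ι' (I.phi g), hmem⟩ : fracSubring A) = eval₂ g₀ x₀ g := Subtype.ext (h1 g)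
  rw [e4, h2]
  have e5 : I.datum.red ⟨I.phi g, hx⟩ = I.rho g := by
    have := I.datum_redF_phi g
    rwa [I.datum.redF_of_mem hx] at this
  rw [e5]

end Fermat.Agent.S48lib.X1.Igusa
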