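/-
S48lib / X1 / Igusa / InertEmb  (helper8)

**Igusa's theorem for the generator `τ_(0,1)` of `FBar₁(M)`.**

`FBar₁(M) ⊆ ℚ̄((q))` embeds into `Ω₀(M) ⊆ ℚ̄((Q))` by `q ↦ Q^M` (helper7's `expandField_F1_le`),
compatibly with `ℚ̄(j) = FBar 1`, and `τ_(0,1)` (with the root of unity `zbar M`) goes to
`τ_(0,c)` (with `zq M`, `zbar M = zq M ^ c`).  Hence the minimal polynomial of
`tauBar hM ∈ FBar₁(M)` over `ℚ̄(j)` has coefficients in the Gauss ring `B₀`, and its reduction is
irreducible and separable (`igusa_tauBar`).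
-/
import Mathlib
import Fermat.Agent.S48lib.X1.Igusa.Inert
import Fermat.Agent.S48lib.X1.IgusaInst.OmegaGalData
import Fermat.Agent.S48lib.X1.Field.FixedConv

set_option autoImplicit false
set_option linter.unusedSectionVars false
set_option linter.style.haveILetI false

noncomputable section

namespace Fermat.Agent.S48lib.X1.Igusa

open ModularCurve HahnSeries Polynomial IsLocalRing
open Fermat.Agent.S18lib
open Fermat.Agent.S48lib.X1 (F1 tauBar coe_tauBar omegaGalData igusa_tau_Omega0 zq zbar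
  exists_zbar_eq_zq_zpow expandField_F1_le mem_expandField tauqL_zpow qExpand_tauqL Omega0 tauK
  not_dvd_one)
open scoped MatrixGroups
open Fermat.Agent.S48lib.X1.Wp (pmGamma1)

local notation "Qb" => AlgebraicClosure ℚ

variable {M : ℕ} [NeZero M] (hM : 1 < M)

attribute [local instance] algebraF1 GalData.action GalData.algebraBase

/-- the embedding `FBar₁(M) → Ω₀(M)`, `q ↦ Q^M` -/
def embOmega : FB1 M →+* (omegaGalData hM).Ω where
  toFun x := ⟨qExpand Qb M (x : LaurentSeries Qb),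
    expandField_F1_le (mem_expandField.mpr ⟨(x : LaurentSeries Qb), x.2, rfl⟩)⟩
  map_one' := Subtype.ext (by simp)
  map_mul' x y := Subtype.ext (by simp)
  map_zero' := Subtype.ext (by simp)
  map_add' x y := Subtype.ext (by simp)

@[simp] theorem coe_embOmega (x : FB1 M) :
    ((embOmega hM x : (omegaGalData hM).Ω) : LaurentSeries Qb) =
      qExpand Qb M (x : LaurentSeries Qb) := rfl

theorem embOmega_inclF1 (y : FBar 1) :
    embOmega hM (inclF1 M y) = (omegaGalData hM).baseHom y := by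
  apply Subtype.ext
  rw [coe_embOmega, coe_inclF1, GalData.coe_baseHom]

/-- the embedding as a homomorphism of `ℚ̄(j)`-algebras -/
def embOmegaAlg : FB1 M →ₐ[FBar 1] (omegaGalData hM).Ω :=
  { embOmega hM with
    commutes' := fun y => embOmega_inclF1 hM y }

@[simp] theorem embOmegaAlg_apply (x : FB1 M) : embOmegaAlg hM x = embOmega hM x := rfl

theorem embOmega_tauBar {c : ℤ} (hc : zbar M = zq M ^ c)
    (hv : ¬ ((M : ℤ) ∣ (0 : ℤ) ∧ (M : ℤ) ∣ c * 1)) :
    embOmega hM (tauBar hM) = (omegaGalData hM).tauΩ 0 (c * 1) hv := by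
  apply Subtype.ext
  rw [coe_embOmega, coe_tauBar, GalData.coe_tauΩ, hc, tauqL_zpow, qExpand_tauqL]

variable (A : ValuationSubring Qb) {p : ℕ} [Fact p.Prime]

/-- **Igusa's theorem for `τ_(0,1) ∈ FBar₁(M)`**: its minimal polynomial over `ℚ̄(j)` has
coefficients in the Gauss ring `B₀`, of degree `[SL₂(ℤ) : ±Γ₁(M)]`, and its reduction modulo the
maximal ideal is irreducible and separable. -/
theorem igusa_tauBar (hA : A.LiesOverPrime p) (hpM : ¬ p ∣ M) :
    ∃ P₀ : (baseRing A hA)[X], P₀.Monic ∧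
      P₀.map (algebraMap (baseRing A hA) (FBar 1)) = minpoly (FBar 1) (tauBar hM) ∧
      P₀.natDegree = Fintype.card (SL(2, ℤ) ⧸ pmGamma1 M) ∧
      Irreducible (P₀.map (residue (baseRing A hA))) ∧
      (P₀.map (residue (baseRing A hA))).Separable := by
  obtain ⟨c, hc, hcop⟩ := exists_zbar_eq_zq_zpow M
  have hv : ¬ ((M : ℤ) ∣ (0 : ℤ) ∧ (M : ℤ) ∣ c * 1) := fun h =>
    not_dvd_one hM (hcop.symm.dvd_of_dvd_mul_left h.2)
  obtain ⟨P₀, hmon, hmin, -, -, hirr, hsep⟩ := igusa_tau_Omega0 A hA hpM hM 0 (c * 1) hv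
  refine ⟨P₀, hmon, ?_, ?_, hirr, hsep⟩
  · rw [hmin, ← embOmega_tauBar hM hc hv, ← embOmegaAlg_apply,
      minpoly.algHom_eq (embOmegaAlg hM) (embOmegaAlg hM).injective]
  · have h1 : (P₀.map (algebraMap (baseRing A hA) (FBar 1))).natDegree = P₀.natDegree :=
      hmon.natDegree_map _
    have h2 : minpoly (FBar 1) (tauBar hM) = minpoly (FBar 1) (pbF1 hM).gen := rfl
    rw [← h1, hmin, ← embOmega_tauBar hM hc hv, ← embOmegaAlg_apply,
      minpoly.algHom_eq (embOmegaAlg hM) (embOmegaAlg hM).injective, h2,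
      (pbF1 hM).natDegree_minpoly]
    rfl

end Fermat.Agent.S48lib.X1.Igusa
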