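/-
S48lib / X1 / Igusa / InertRes  (helper8)

**The inert input of the reduction datum of `X₁(M)`** at a valuation subring `A ⊆ ℚ̄` of residue
characteristic `p ∤ M`:

  `inertF1 hM A hA hpM : S18lib.InertInput (baseDatum A hA) (FB1 M) ↥(FRes1 A M)`

(base datum = the Gauss datum of `ℚ̄(j)`; generator `τ_(0,1)` upstairs, `τ̄_(0,1)` downstairs;
`pO` = the Igusa polynomial), together with

* `seriesCompat_inertF1` : its datum is the coefficientwise reduction of `q`-expansions;
* `inertF1_d`, `finrank_FRes1` : `[FRes1 : k(j̄)] = [FBar₁(M) : ℚ̄(j)] = [SL₂(ℤ) : ±Γ₁(M)]`;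
* `separable_minpoly_tauRes1` : the residue extension is separable.

Two stages: first the inert input for `k(j̄)⟮τ̄_(0,1)⟯`, whose datum (coefficientwise reduction!)
shows that all `τ̄_(0,b)` lie in `k(j̄)⟮τ̄_(0,1)⟯`, i.e. `FRes1 A M = k(j̄)(τ̄_(0,1))`; then the power
basis of `FRes1 A M` itself.
-/
import Mathlib
import Fermat.Agent.S48lib.X1.Igusa.InertEmb
import Fermat.Agent.S48lib.X1.Igusa.InertSeries
import Fermat.Agent.S48lib.X1.Field.Res
import Fermat.Agent.S48lib.X1.ES.QRed

set_option autoImplicit false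
set_option linter.unusedSectionVars false
set_option linter.style.haveILetI false

noncomputable section

namespace Fermat.Agent.S48lib.X1.Igusa

open ModularCurve HahnSeries Polynomial IsLocalRing IntermediateField
open Fermat.Agent.S18lib
open Fermat.Agent.S18lib.V (toL toK)
open Fermat.Agent.S48lib.X1 (F1 tauBar coe_tauBar zbar tauqL not_dvd_one zRes FRes1 tauqA toL_tauqA
  toK_tauqA tauRes1 jqModC_mem_FRes1 tauqL_mem_FRes1 tauqL_mem_FBar1 genL genSet)
open Fermat.Agent.S48lib.X1.Wp (pmGamma1)
open scoped MatrixGroups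

local notation "Qb" => AlgebraicClosure ℚ

/-! ### generic: the residue field of a Gauss datum -/

section Generic

variable {L : Type*} [Field L] {A : ValuationSubring L}
variable {F : Type*} [Field F] [Algebra L F]
variable {Fk : Type*} [Field Fk] [Algebra (IsLocalRing.ResidueField A) Fk]
variable (G : GaussDatum A F Fk)

theorem isLocalHom_red : IsLocalHom G.red :=
  ⟨fun y hy => (G.red_ne_zero_iff_isUnit y).mp hy.ne_zero⟩

/-- the residue field of the Gauss ring is `Fk` -/
def resLift : IsLocalRing.ResidueField G.O →+* Fk :=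
  haveI := isLocalHom_red G
  IsLocalRing.ResidueField.lift G.red

theorem resLift_residue (y : G.O) : resLift G (residue G.O y) = G.red y := by
  haveI := isLocalHom_red G
  exact IsLocalRing.ResidueField.lift_residue_apply G.red y

theorem resLift_bijective : Function.Bijective (resLift G) :=
  ⟨(resLift G).injective, fun y => by
    obtain ⟨x, rfl⟩ := G.red_surjective y
    exact ⟨residue G.O x, resLift_residue G x⟩⟩

/-- the residue field of the Gauss ring is `Fk` -/
def resEquiv : IsLocalRing.ResidueField G.O ≃+* Fk := RingEquiv.ofBijective _ (resLift_bijective G)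

theorem map_red_eq (P : G.O[X]) :
    P.map G.red = (P.map (residue G.O)).map (resEquiv G : IsLocalRing.ResidueField G.O →+* Fk) := by
  rw [Polynomial.map_map]
  have : G.red = ((resEquiv G : IsLocalRing.ResidueField G.O →+* Fk)).comp (residue G.O) :=
    RingHom.ext fun y => (resLift_residue G y).symm
  rw [← this]

theorem irreducible_map_red {P : G.O[X]} (h : Irreducible (P.map (residue G.O))) :
    Irreducible (P.map G.red) := by
  rw [map_red_eq]
  exact (MulEquiv.irreducible_iff (Polynomial.mapEquiv (resEquiv G))).mpr h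

theorem separable_map_red {P : G.O[X]} (h : (P.map (residue G.O)).Separable) :
    (P.map G.red).Separable := by
  rw [map_red_eq]
  exact h.map

end Generic

/-! ### the Igusa polynomial -/

variable {M : ℕ} [NeZero M] (hM : 1 < M) (A : ValuationSubring Qb) {p : ℕ} [Fact p.Prime]
  (hA : A.LiesOverPrime p) (hpM : ¬ p ∣ M)

local notation "kA" => IsLocalRing.ResidueField A

attribute [local instance] algebraF1 isScalarTower_F1

/-- the Igusa polynomial: the minimal polynomial of `τ_(0,1)` over `ℚ̄(j)`, with coefficients in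
the Gauss ring -/
def igusaPoly : (baseDatum A hA).O[X] := (igusa_tauBar hM A hA hpM).choose

theorem igusaPoly_monic : (igusaPoly hM A hA hpM).Monic :=
  (igusa_tauBar hM A hA hpM).choose_spec.1

theorem igusaPoly_map_subtype :
    (igusaPoly hM A hA hpM).map (baseDatum A hA).O.subtype = minpoly (FBar 1) (tauBar hM) :=
  (igusa_tauBar hM A hA hpM).choose_spec.2.1

theorem igusaPoly_natDegree :
    (igusaPoly hM A hA hpM).natDegree = Fintype.card (SL(2, ℤ) ⧸ pmGamma1 M) :=
  (igusa_tauBar hM A hA hpM).choose_spec.2.2.1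

theorem igusaPoly_irreducible :
    Irreducible ((igusaPoly hM A hA hpM).map (baseDatum A hA).red) :=
  irreducible_map_red _ (igusa_tauBar hM A hA hpM).choose_spec.2.2.2.1

theorem igusaPoly_separable :
    ((igusaPoly hM A hA hpM).map (baseDatum A hA).red).Separable :=
  separable_map_red _ (igusa_tauBar hM A hA hpM).choose_spec.2.2.2.2

/-- the level-one datum is the coefficientwise reduction -/
theorem compat_baseDatum : SeriesCompat (baseDatum A hA) (inclBar 1) (inclRes A 1) :=
  seriesCompat_gaussDatum A 1 not_dvd_one_of_prime hA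

/-- **`τ̄_(0,1)` is a root of the reduced Igusa polynomial** -/
theorem eval₂_igusaPoly_tauRes :
    eval₂ ((inclRes A 1).comp (baseDatum A hA).red) (tauqL kA M (zRes A M) 1)
      (igusaPoly hM A hA hpM) = 0 := by
  have h₀ := compat_baseDatum A hA
  let g₀ : (baseDatum A hA).O →+* fracSubring A :=
    { toFun := fun c => ⟨inclBar 1 (c : FBar 1), h₀.mem_fracSubring c.2⟩
      map_one' := Subtype.ext (by simp)
      map_mul' := fun x y => Subtype.ext (by simp)
      map_zero' := Subtype.ext (by simp)
      map_add' := fun x y => Subtype.ext (by simp) }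
  let x₀ : fracSubring A := ⟨toL A (tauqA hA hpM 1), toL_mem_fracSubring _⟩
  have h1 : eval₂ g₀ x₀ (igusaPoly hM A hA hpM) = 0 := by
    apply Subtype.ext
    have e2 := hom_eval₂ (igusaPoly hM A hA hpM) g₀ (fracSubring A).subtype x₀
    have e3 : aeval (tauBar hM) (minpoly (FBar 1) (tauBar hM)) = 0 := minpoly.aeval _ _
    rw [← igusaPoly_map_subtype hM A hA hpM, aeval_def, eval₂_map] at e3
    have e4 := congrArg (laurentBaseChange Qb (F1 M)).val.toRingHom e3
    rw [hom_eval₂, map_zero] at e4
    show (fracSubring A).subtype (eval₂ g₀ x₀ (igusaPoly hM A hA hpM)) = 0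
    have hf : (fracSubring A).subtype.comp g₀ =
        (laurentBaseChange Qb (F1 M)).val.toRingHom.comp
          ((algebraMap (FBar 1) (FB1 M)).comp (baseDatum A hA).O.subtype) := by
      refine RingHom.ext fun c => ?_
      show inclBar 1 (c : FBar 1) = ((inclF1 M (c : FBar 1) : FB1 M) : LaurentSeries Qb)
      rw [coe_inclF1]
      rfl
    have hx : (fracSubring A).subtype x₀ =
        (laurentBaseChange Qb (F1 M)).val.toRingHom (tauBar hM) := by
      show toL A (tauqA hA hpM 1) = ((tauBar hM : FB1 M) : LaurentSeries Qb)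
      rw [toL_tauqA, coe_tauBar]
    rw [e2, hf, hx]
    exact e4
  have h2 := congrArg (fracRed A) h1
  rw [hom_eval₂, map_zero] at h2
  have hf : (fracRed A).comp g₀ = (inclRes A 1).comp (baseDatum A hA).red :=
    RingHom.ext fun c => h₀.fracRed_eq c.2
  have hx : fracRed A x₀ = tauqL kA M (zRes A M) 1 := by
    rw [← toK_tauqA hA hpM 1]
    exact fracRed_toL _
  rw [hf, hx] at h2
  exact h2

/-! ### the inert input for an abstract residue extension -/

section Abstract

variable {Fk' : Type*} [Field Fk'] [Algebra (FRes A 1) Fk']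

/-- the reduced Igusa polynomial is the minimal polynomial of `τ̄_(0,1)` -/
theorem igusaPoly_map_red_eq_minpoly (ιk' : Fk' →+* LaurentSeries kA)
    (hιk : ∀ x : FRes A 1, ιk' (algebraMap (FRes A 1) Fk' x) = inclRes A 1 x) (t : Fk')
    (ht : ιk' t = tauqL kA M (zRes A M) 1) :
    (igusaPoly hM A hA hpM).map (baseDatum A hA).red = minpoly (FRes A 1) t := by
  refine minpoly.eq_of_irreducible_of_monic (igusaPoly_irreducible hM A hA hpM) ?_
    ((igusaPoly_monic hM A hA hpM).map _)
  apply ιk'.injective
  rw [map_zero, aeval_def, eval₂_map, hom_eval₂, ht]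
  have : ιk'.comp ((algebraMap (FRes A 1) Fk').comp (baseDatum A hA).red) =
      (inclRes A 1).comp (baseDatum A hA).red := RingHom.ext fun c => hιk _
  rw [this]
  exact eval₂_igusaPoly_tauRes hM A hA hpM

/-- the inert input over the Gauss datum of `ℚ̄(j)`, for an abstract residue extension generated
by `τ̄_(0,1)` -/
def inertOf (ιk' : Fk' →+* LaurentSeries kA)
    (hιk : ∀ x : FRes A 1, ιk' (algebraMap (FRes A 1) Fk' x) = inclRes A 1 x)
    (pbk : PowerBasis (FRes A 1) Fk') (hgen : ιk' pbk.gen = tauqL kA M (zRes A M) 1) :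
    InertInput (baseDatum A hA) (FB1 M) Fk' where
  pb := pbF1 hM
  pbk := pbk
  pO := igusaPoly hM A hA hpM
  monic := igusaPoly_monic hM A hA hpM
  map_subtype := igusaPoly_map_subtype hM A hA hpM
  map_red := igusaPoly_map_red_eq_minpoly hM A hA hpM ιk' hιk pbk.gen hgen

variable [Algebra (IsLocalRing.ResidueField A) Fk']
  [IsScalarTower (IsLocalRing.ResidueField A) (FRes A 1) Fk']

/-- its datum is the coefficientwise reduction of `q`-expansions -/
theorem seriesCompat_inertOf (ιk' : Fk' →+* LaurentSeries kA)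
    (hιk : ∀ x : FRes A 1, ιk' (algebraMap (FRes A 1) Fk' x) = inclRes A 1 x)
    (pbk : PowerBasis (FRes A 1) Fk') (hgen : ιk' pbk.gen = tauqL kA M (zRes A M) 1) :
    SeriesCompat (inertOf hM A hA hpM ιk' hιk pbk hgen).datum
      (laurentBaseChange Qb (F1 M)).val.toRingHom ιk' :=
  seriesCompat_inert (inertOf hM A hA hpM ιk' hιk pbk hgen) (compat_baseDatum A hA)
    (laurentBaseChange Qb (F1 M)).val.toRingHom ιk' (fun x => coe_inclF1 M x) hιk
    (tauqA hA hpM 1) (by
      show ((tauBar hM : FB1 M) : LaurentSeries Qb) = toL A (tauqA hA hpM 1)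
      rw [toL_tauqA, coe_tauBar]) (by
      show ιk' pbk.gen = toK A (tauqA hA hpM 1)
      rw [hgen, toK_tauqA])

include hM hA hpM in
/-- **all `τ̄_(0,b)` lie in the image of `Fk'`** -/
theorem tauqL_mem_range (ιk' : Fk' →+* LaurentSeries kA)
    (hιk : ∀ x : FRes A 1, ιk' (algebraMap (FRes A 1) Fk' x) = inclRes A 1 x)
    (pbk : PowerBasis (FRes A 1) Fk') (hgen : ιk' pbk.gen = tauqL kA M (zRes A M) 1)
    {b : ℤ} (hb : ¬ (M : ℤ) ∣ b) :
    ∃ y : Fk', ιk' y = tauqL kA M (zRes A M) b := by
  have hc := seriesCompat_inertOf hM A hA hpM ιk' hιk pbk hgen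
  set I := inertOf hM A hA hpM ιk' hιk pbk hgen
  let xb : FB1 M := ⟨tauqL Qb M (zbar M) b, tauqL_mem_FBar1 M hb⟩
  have hfr : (laurentBaseChange Qb (F1 M)).val.toRingHom xb ∈ fracSubring A := by
    show tauqL Qb M (zbar M) b ∈ fracSubring A
    rw [← toL_tauqA hA hpM b]
    exact toL_mem_fracSubring _
  have hmem : xb ∈ I.datum.O := (hc.mem_O_iff xb).mpr hfr
  refine ⟨I.datum.red ⟨xb, hmem⟩, ?_⟩
  rw [← hc.fracRed_eq hmem, ← toK_tauqA hA hpM b, ← fracRed_toL]
  congr 1
  exact Subtype.ext (toL_tauqA hA hpM b).symm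

end Abstract

/-! ### stage 1: the extension `k(j̄)⟮τ̄_(0,1)⟯` -/

section Stage1

include hM hA hpM in
/-- `τ̄_(0,1)` is integral over `k(j̄)` -/
theorem isIntegral_tauResL : IsIntegral (FRes A 1) (tauqL kA M (zRes A M) 1) := by
  refine ⟨(igusaPoly hM A hA hpM).map (baseDatum A hA).red,
    (igusaPoly_monic hM A hA hpM).map _, ?_⟩
  rw [eval₂_map]
  exact eval₂_igusaPoly_tauRes hM A hA hpM

variable (M) in
/-- `k(j̄)⟮τ̄_(0,1)⟯ ⊆ k((q))` -/
def resAdj : IntermediateField (FRes A 1) (LaurentSeries kA) :=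
  (FRes A 1)⟮tauqL kA M (zRes A M) 1⟯

set_option synthInstance.maxHeartbeats 400000 in
/-- shortcut instance -/
@[instance_reducible]
def algebraResAdj : Algebra kA ↥(resAdj M A) := inferInstance

attribute [local instance] algebraResAdj

set_option synthInstance.maxHeartbeats 400000 in
theorem isScalarTower_resAdj : IsScalarTower kA (FRes A 1) ↥(resAdj M A) := inferInstance

attribute [local instance] isScalarTower_resAdj

include hM hA hpM in
theorem tauqL_mem_resAdj {b : ℤ} (hb : ¬ (M : ℤ) ∣ b) :
    tauqL kA M (zRes A M) b ∈ resAdj M A := by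
  obtain ⟨y, hy⟩ := tauqL_mem_range hM A hA hpM (Fk' := ↥(resAdj M A))
    (resAdj M A).val.toRingHom (fun x => rfl)
    (IntermediateField.adjoin.powerBasis (isIntegral_tauResL hM A hA hpM))
    (by
      rw [IntermediateField.adjoin.powerBasis_gen]
      exact AdjoinSimple.coe_gen (FRes A 1) (tauqL kA M (zRes A M) 1)) hb
  rw [← hy]
  exact y.2

theorem jqModC_mem_full_one : jqModC kA ∈ modularFunctionFieldFullC kA 1 := by
  have h := IntermediateField.subset_adjoin kA (divisorExpansionsC kA 1)
    (mem_divisorExpansionsC kA 1 (one_dvd 1))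
  rwa [qExpand_one_apply] at h

include hM hA hpM in
/-- **`FRes1 A M = k(j̄)(τ̄_(0,1))`** -/
theorem mem_resAdj_of_mem_FRes1 {y : LaurentSeries kA} (hy : y ∈ FRes1 A M) :
    y ∈ resAdj M A := by
  have h : FRes1 A M ≤ IntermediateField.restrictScalars kA (resAdj M A) := by
    rw [FRes1, genL, IntermediateField.adjoin_le_iff]
    rintro x (rfl | ⟨b, hb, rfl⟩)
    · exact (resAdj M A).algebraMap_mem (⟨jqModC kA, jqModC_mem_full_one A⟩ : FRes A 1)
    · exact tauqL_mem_resAdj hM A hA hpM hb
  exact h hy

end Stage1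

end Fermat.Agent.S48lib.X1.Igusa
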