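/-
S48lib / X1 / Igusa / InertF1  (helper8)

**The inert input of the reduction datum of `X₁(M)`** (stage 2 of `InertRes`): the power basis of
`FRes1 A M` over `k(j̄) = FRes A 1` generated by `τ̄_(0,1)`, and

  `inertF1 hM A hA hpM : S18lib.InertInput (baseDatum A hA) (FB1 M) ↥(FRes1 A M)`

with `seriesCompat_inertF1` (its datum is the coefficientwise reduction of `q`-expansions),
`inertF1_d` (degree `[SL₂(ℤ) : ±Γ₁(M)]`) and the separability of the residue extension.
-/
import Mathlib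
import Fermat.Agent.S48lib.X1.Igusa.InertRes

set_option autoImplicit false
set_option linter.unusedSectionVars false
set_option linter.style.haveILetI false

noncomputable section

namespace Fermat.Agent.S48lib.X1.Igusa

open ModularCurve HahnSeries Polynomial IsLocalRing IntermediateField
open Fermat.Agent.S18lib
open Fermat.Agent.S18lib.V (toL toK)
open Fermat.Agent.S48lib.X1 (F1 tauBar coe_tauBar zbar tauqL not_dvd_one zRes FRes1 tauqA toL_tauqA
  toK_tauqA tauRes1 jqModC_mem_FRes1 tauqL_mem_FRes1 tauqL_mem_FBar1 genL genSet jRes1 jB jq_mem_F1)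
open Fermat.Agent.S48lib.X1.Wp (pmGamma1)
open scoped MatrixGroups

local notation "Qb" => AlgebraicClosure ℚ

variable {M : ℕ} [NeZero M] (hM : 1 < M) (A : ValuationSubring Qb) {p : ℕ} [Fact p.Prime]
  (hA : A.LiesOverPrime p) (hpM : ¬ p ∣ M)

local notation "kA" => IsLocalRing.ResidueField A

attribute [local instance] algebraF1 isScalarTower_F1

/-! ### stage 2: `FRes1 A M` over `k(j̄)` -/

section Stage2

theorem full_one_le_FRes1 (A : ValuationSubring Qb) (M : ℕ) [NeZero M] :
    modularFunctionFieldFullC (IsLocalRing.ResidueField A) 1 ≤ FRes1 A M := by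
  rw [modularFunctionFieldFullC, IntermediateField.adjoin_le_iff]
  rintro x ⟨d, hd, hd1, rfl⟩
  have : d = 1 := Nat.dvd_one.mp hd1
  subst this
  rw [qExpand_one_apply]
  exact jqModC_mem_FRes1 A M

/-- the inclusion `k(j̄) = FRes A 1 ⊆ FRes1 A M` -/
def inclRes1 (A : ValuationSubring Qb) (M : ℕ) [NeZero M] :
    FRes A 1 →ₐ[IsLocalRing.ResidueField A] ↥(FRes1 A M) :=
  IntermediateField.inclusion (full_one_le_FRes1 A M)

@[simp] theorem coe_inclRes1 (x : FRes A 1) :
    ((inclRes1 A M x : ↥(FRes1 A M)) : LaurentSeries kA) = (x : LaurentSeries kA) :=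
  IntermediateField.coe_inclusion (full_one_le_FRes1 A M) x

/-- the structure of `k(j̄)`-algebra on `FRes1 A M` -/
@[instance_reducible]
def algebraRes1 (A : ValuationSubring Qb) (M : ℕ) [NeZero M] :
    Algebra (FRes A 1) ↥(FRes1 A M) := (inclRes1 A M).toRingHom.toAlgebra

attribute [local instance] algebraRes1

theorem algebraMap_Res1_apply (x : FRes A 1) :
    algebraMap (FRes A 1) ↥(FRes1 A M) x = inclRes1 A M x := rfl

theorem isScalarTower_Res1 (A : ValuationSubring Qb) (M : ℕ) [NeZero M] :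
    IsScalarTower (IsLocalRing.ResidueField A) (FRes A 1) ↥(FRes1 A M) :=
  IsScalarTower.of_algebraMap_eq fun c => ((inclRes1 A M).commutes c).symm

attribute [local instance] isScalarTower_Res1

/-- the inclusion `FRes1 A M ⊆ k((q))` as a `k(j̄)`-algebra homomorphism -/
def valRes1 (A : ValuationSubring Qb) (M : ℕ) [NeZero M] :
    ↥(FRes1 A M) →ₐ[FRes A 1] LaurentSeries (IsLocalRing.ResidueField A) :=
  { (FRes1 A M).val.toRingHom with
    commutes' := fun _ => rfl }

@[simp] theorem valRes1_apply (x : ↥(FRes1 A M)) : valRes1 A M x = (x : LaurentSeries kA) := rfl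

include hA hpM in
theorem isIntegral_tauRes1 : IsIntegral (FRes A 1) (tauRes1 A M 1 (not_dvd_one hM)) :=
  (isIntegral_algHom_iff (valRes1 A M) (valRes1 A M).injective).mp
    (isIntegral_tauResL hM A hA hpM)

include hA hpM in
/-- **`FRes1 A M = k(j̄)[τ̄_(0,1)]`** -/
theorem adjoin_tauRes1_eq_top :
    Algebra.adjoin (FRes A 1) {tauRes1 A M 1 (not_dvd_one hM)} = ⊤ := by
  rw [eq_top_iff]
  rintro y -
  have h1 := mem_resAdj_of_mem_FRes1 hM A hA hpM y.2
  have h2 : (resAdj M A).toSubalgebra = Algebra.adjoin (FRes A 1) {tauqL kA M (zRes A M) 1} :=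
    IntermediateField.adjoin_simple_toSubalgebra_of_isAlgebraic
      (isIntegral_tauResL hM A hA hpM).isAlgebraic
  have h3 : (y : LaurentSeries kA) ∈ Algebra.adjoin (FRes A 1) {tauqL kA M (zRes A M) 1} := by
    rw [← h2]
    exact h1
  rw [Algebra.adjoin_singleton_eq_range_aeval, AlgHom.mem_range] at h3
  obtain ⟨f, hf⟩ := h3
  rw [Algebra.adjoin_singleton_eq_range_aeval, AlgHom.mem_range]
  refine ⟨f, ?_⟩
  apply (valRes1 A M).injective
  show valRes1 A M (aeval (tauRes1 A M 1 (not_dvd_one hM)) f) = valRes1 A M y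
  rw [valRes1_apply A y, ← hf]
  exact (Polynomial.aeval_algHom_apply (valRes1 A M) _ f).symm

/-- **the power basis of `FRes1 A M` over `k(j̄)`** generated by `τ̄_(0,1)` -/
def pbRes1 : PowerBasis (FRes A 1) ↥(FRes1 A M) :=
  PowerBasis.ofAdjoinEqTop (isIntegral_tauRes1 hM A hA hpM) (adjoin_tauRes1_eq_top hM A hA hpM)

@[simp] theorem pbRes1_gen : (pbRes1 hM A hA hpM).gen = tauRes1 A M 1 (not_dvd_one hM) := by
  rw [pbRes1, PowerBasis.ofAdjoinEqTop_gen]

theorem val_toRingHom_Res1 (y : ↥(FRes1 A M)) :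
    (FRes1 A M).val.toRingHom y = (y : LaurentSeries kA) := rfl

theorem valRes1_algebraMap (x : FRes A 1) :
    (FRes1 A M).val.toRingHom (algebraMap (FRes A 1) ↥(FRes1 A M) x) = inclRes A 1 x := by
  rw [algebraMap_Res1_apply, val_toRingHom_Res1, coe_inclRes1]
  rfl

theorem valRes1_pbRes1_gen :
    (FRes1 A M).val.toRingHom (pbRes1 hM A hA hpM).gen = tauqL kA M (zRes A M) 1 := by
  rw [pbRes1_gen, val_toRingHom_Res1]
  exact Fermat.Agent.S48lib.X1.coe_tauRes1 A M 1 (not_dvd_one hM)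

/-- **the inert input of the reduction datum of `X₁(M)`** -/
def inertF1 : InertInput (baseDatum A hA) (FB1 M) ↥(FRes1 A M) :=
  inertOf hM A hA hpM (FRes1 A M).val.toRingHom (valRes1_algebraMap A) (pbRes1 hM A hA hpM)
    (valRes1_pbRes1_gen hM A hA hpM)

@[simp] theorem inertF1_t : (inertF1 hM A hA hpM).t = tauBar hM := rfl

@[simp] theorem inertF1_tk :
    (inertF1 hM A hA hpM).tk = tauRes1 A M 1 (not_dvd_one hM) := pbRes1_gen hM A hA hpM

theorem inertF1_pO : (inertF1 hM A hA hpM).pO = igusaPoly hM A hA hpM := rfl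

/-- **its datum is the coefficientwise reduction of `q`-expansions** -/
theorem seriesCompat_inertF1 :
    SeriesCompat (inertF1 hM A hA hpM).datum (laurentBaseChange Qb (F1 M)).val.toRingHom
      (FRes1 A M).val.toRingHom :=
  seriesCompat_inertOf hM A hA hpM _ _ _ _

theorem inertF1_d : (inertF1 hM A hA hpM).d = Fintype.card (SL(2, ℤ) ⧸ pmGamma1 M) :=
  igusaPoly_natDegree hM A hA hpM

/-- the generator `τ_(0,1)` is an `A`-integral expansion -/
theorem inertF1_t_int :
    toL A (tauqA hA hpM 1) = (((inertF1 hM A hA hpM).t : FB1 M) : LaurentSeries Qb) := by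
  rw [toL_tauqA, inertF1_t, coe_tauBar]

/-- all generators `τ_(0,b)` are `A`-integral with reduction `τ̄_(0,b)` -/
theorem inertF1_redF_tau {b : ℤ} (hb : ¬ (M : ℤ) ∣ b) :
    (inertF1 hM A hA hpM).datum.redF
      (⟨tauqL Qb M (zbar M) b, tauqL_mem_FBar1 M hb⟩ : FB1 M) = tauRes1 A M b hb := by
  have hc := seriesCompat_inertF1 hM A hA hpM
  set xb : FB1 M := ⟨tauqL Qb M (zbar M) b, tauqL_mem_FBar1 M hb⟩
  have hfr : (laurentBaseChange Qb (F1 M)).val.toRingHom xb ∈ fracSubring A := by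
    show tauqL Qb M (zbar M) b ∈ fracSubring A
    rw [← toL_tauqA hA hpM b]
    exact toL_mem_fracSubring _
  have hmem : xb ∈ (inertF1 hM A hA hpM).datum.O := (hc.mem_O_iff xb).mpr hfr
  rw [GaussDatum.redF_of_mem _ hmem]
  apply Subtype.ext
  have h1 := hc.fracRed_eq hmem
  rw [val_toRingHom_Res1] at h1
  rw [← h1, Fermat.Agent.S48lib.X1.coe_tauRes1, ← toK_tauqA hA hpM b, ← fracRed_toL]
  congr 1
  exact Subtype.ext (toL_tauqA hA hpM b).symm

/-! ### the reduction of `j` -/

theorem inertF1_redF_jB :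
    (inertF1 hM A hA hpM).datum.redF (jB Qb (jq_mem_F1 M)) = jRes1 A M := by
  rw [← inclF1_jF, ← algebraMap_F1_apply, InertInput.datum_redF_algebraMap]
  have h1 : (baseDatum A hA).redF (Gin0.jF 1) = V.jRes 1 A :=
    V.gaussDatum_redF_jBar 1 A not_dvd_one_of_prime hA
  rw [h1, algebraMap_Res1_apply]
  apply Subtype.ext
  rw [coe_inclRes1, V.coe_jRes]
  rfl

/-! ### degree and separability over `k(j̄)` -/

set_option synthInstance.maxHeartbeats 400000
set_option maxHeartbeats 1000000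

/-- `FRes A 1 = k(j̄)` -/
theorem adjoin_jK_one_eq_top :
    (kA⟮Gink.jK A 1⟯ : IntermediateField kA (FRes A 1)) = ⊤ := by
  apply Haupt.adjoin_eq_top_of_coe
  rw [Gink.coe_jK, modularFunctionFieldFullC]
  congr 1
  ext x
  simp only [divisorExpansionsC, Set.mem_ofPred_eq, Set.mem_singleton_iff]
  constructor
  · rintro ⟨d, hd, hd1, rfl⟩
    have : d = 1 := Nat.dvd_one.mp hd1
    subst this
    exact qExpand_one_apply _
  · rintro rfl
    exact ⟨1, inferInstance, dvd_rfl, (qExpand_one_apply _).symm⟩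

theorem inclRes1_jK : inclRes1 A M (Gink.jK A 1) = jRes1 A M :=
  Subtype.ext (by rw [coe_inclRes1]; rfl)

/-- the image of `FRes A 1` in `FRes1 A M` is `k(j̄)` -/
theorem fieldRange_inclRes1 : (inclRes1 A M).fieldRange = kA⟮jRes1 A M⟯ := by
  rw [AlgHom.fieldRange_eq_map, ← adjoin_jK_one_eq_top, IntermediateField.adjoin_map,
    Set.image_singleton, inclRes1_jK]

/-- `FRes A 1 ≃ k(j̄) ⊆ FRes1 A M` -/
def baseEquivRes1 (A : ValuationSubring Qb) (M : ℕ) [NeZero M] :
    FRes A 1 ≃ₐ[IsLocalRing.ResidueField A]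
      ↥((IsLocalRing.ResidueField A)⟮jRes1 A M⟯ : IntermediateField _ ↥(FRes1 A M)) :=
  (AlgEquiv.ofInjectiveField (inclRes1 A M)).trans
    (IntermediateField.equivOfEq (fieldRange_inclRes1 A (M := M)))

theorem coe_baseEquivRes1 (x : FRes A 1) :
    ((baseEquivRes1 A M x : ↥(kA⟮jRes1 A M⟯ : IntermediateField _ ↥(FRes1 A M))) : ↥(FRes1 A M)) =
      inclRes1 A M x := rfl

theorem baseEquivRes1_comp :
    (algebraMap ↥(kA⟮jRes1 A M⟯ : IntermediateField _ ↥(FRes1 A M)) ↥(FRes1 A M)).comp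
        ((baseEquivRes1 A M).toRingEquiv : FRes A 1 →+* _) =
      ((RingEquiv.refl ↥(FRes1 A M) : ↥(FRes1 A M) →+* ↥(FRes1 A M))).comp
        (algebraMap (FRes A 1) ↥(FRes1 A M)) :=
  RingHom.ext fun x => coe_baseEquivRes1 A x

include hM hA hpM in
/-- `[FRes1 A M : FRes A 1] = [SL₂(ℤ) : ±Γ₁(M)]` -/
theorem finrank_Res1_base :
    Module.finrank (FRes A 1) ↥(FRes1 A M) = Fintype.card (SL(2, ℤ) ⧸ pmGamma1 M) := by
  rw [(pbRes1 hM A hA hpM).finrank, ← (pbRes1 hM A hA hpM).natDegree_minpoly,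
    ← inertF1_d hM A hA hpM]
  exact (inertF1 hM A hA hpM).natDegree_minpolyk

include hA hpM in
theorem isSeparable_tauRes1 : IsSeparable (FRes A 1) (tauRes1 A M 1 (not_dvd_one hM)) := by
  have h := (inertF1 hM A hA hpM).map_red
  rw [show (inertF1 hM A hA hpM).pbk.gen = tauRes1 A M 1 (not_dvd_one hM) from
    inertF1_tk hM A hA hpM] at h
  rw [IsSeparable, ← h]
  exact igusaPoly_separable hM A hA hpM

include hM hA hpM in
/-- the residue extension is separable -/
theorem isSeparable_Res1_base : Algebra.IsSeparable (FRes A 1) ↥(FRes1 A M) := by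
  have htop : (FRes A 1)⟮tauRes1 A M 1 (not_dvd_one hM)⟯ = ⊤ :=
    IntermediateField.adjoin_eq_top_of_algebra _ _ (adjoin_tauRes1_eq_top hM A hA hpM)
  haveI : Algebra.IsSeparable (FRes A 1) ↥((FRes A 1)⟮tauRes1 A M 1 (not_dvd_one hM)⟯) :=
    (IntermediateField.isSeparable_adjoin_simple_iff_isSeparable _ _).mpr
      (isSeparable_tauRes1 hM A hA hpM)
  exact AlgEquiv.Algebra.isSeparable
    ((IntermediateField.equivOfEq htop).trans IntermediateField.topEquiv)

include hM hA hpM in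
/-- **`[FRes1 A M : k(j̄)] = [SL₂(ℤ) : ±Γ₁(M)]`** -/
theorem finrank_FRes1 :
    Module.finrank ↥(kA⟮jRes1 A M⟯ : IntermediateField _ ↥(FRes1 A M)) ↥(FRes1 A M) =
      Fintype.card (SL(2, ℤ) ⧸ pmGamma1 M) :=
  (Algebra.finrank_eq_of_equiv_equiv (baseEquivRes1 A M).toRingEquiv (RingEquiv.refl _)
    (baseEquivRes1_comp A)).symm.trans (finrank_Res1_base hM A hA hpM)

include hM hA hpM in
theorem finiteDimensional_FRes1 :
    FiniteDimensional ↥(kA⟮jRes1 A M⟯ : IntermediateField _ ↥(FRes1 A M)) ↥(FRes1 A M) :=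
  Module.finite_of_finrank_pos (by rw [finrank_FRes1 hM A hA hpM]; exact Fintype.card_pos)

include hM hA hpM in
/-- **the residue extension `FRes1 A M / k(j̄)` is separable** -/
theorem isSeparable_FRes1 :
    Algebra.IsSeparable ↥(kA⟮jRes1 A M⟯ : IntermediateField _ ↥(FRes1 A M)) ↥(FRes1 A M) :=
  haveI := isSeparable_Res1_base hM A hA hpM
  Algebra.IsSeparable.of_equiv_equiv (baseEquivRes1 A M).toRingEquiv (RingEquiv.refl _)
    (baseEquivRes1_comp A)

theorem transcendental_jRes1 : Transcendental kA (jRes1 A M) := by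
  intro h
  apply Fermat.Agent.S28lib.transcendental_jqModC kA
  have := h.algHom (FRes1 A M).val
  exact this

end Stage2

end Fermat.Agent.S48lib.X1.Igusa
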